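/-
S59lib / S3Proj / FormLift  (helper3) — Project I.

From a character `θ₀ : 𝕋(N)^S → 𝔽_p` of the anemic Hecke algebra of `S₂(Γ₀(N))` to a normalised eigenform
congruent to `θ₀` modulo a maximal ideal `𝔪' ∋ p` of `ℤ̄` (Deligne–Serre lifting, `S41lib.SK`), and the
"anemic → full" step (an eigenvector of the `T_ℓ`, `ℓ ∈ P₀`, gives a normalised eigenform with the same
eigenvalues on `P₀`).
-/
import Fermat.Agent.S41lib.NEW.Packaging
import Fermat.Agent.S41lib.SK.Lift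
import Fermat.Agent.S22

set_option autoImplicit false
set_option linter.unusedSectionVars false
set_option linter.style.haveILetI false

noncomputable section

namespace Fermat.Agent.S59lib.S3Proj

open CuspForm ModularFormClass CongruenceSubgroup
open Fermat.Agent.Helper8 Fermat.Agent.S41lib.NEW

local notation "Zb" => integralClosure ℤ ℂ

variable {M : ℕ} [NeZero M]

/-- **anemic → full**: an eigenvector of the `T_ℓ`, `ℓ ∈ P₀`, gives a normalised eigenform with the same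
eigenvalues on `P₀`. -/
theorem exists_normalizedEigenform_of_anemic (P₀ : Set ℕ) (lam : ℕ → ℂ)
    (v : CuspForm (Gamma0 M) 2) (hv : v ≠ 0)
    (hvT : ∀ (ℓ : ℕ) (hℓ : ℓ.Prime) (hℓM : ¬ ℓ ∣ M), ℓ ∈ P₀ →
      heckeTLin 2 hℓ hℓM v = lam ℓ • v) :
    ∃ g : CuspForm (Gamma0 M) 2, g.IsNormalizedEigenform ∧
      ∀ ℓ : ℕ, ℓ.Prime → ¬ ℓ ∣ M → ℓ ∈ P₀ → qCoeff ⇑g ℓ = lam ℓ := by
  let X : Submodule ℂ (CuspForm (Gamma0 M) 2) :=
    { carrier := {f | ∀ (ℓ : ℕ) (hℓ : ℓ.Prime) (hℓM : ¬ ℓ ∣ M), ℓ ∈ P₀ →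
          heckeTLin 2 hℓ hℓM f = lam ℓ • f}
      add_mem' := by
        intro f f' hf1 hf1' ℓ hℓ hℓM hℓP
        rw [map_add, hf1 ℓ hℓ hℓM hℓP, hf1' ℓ hℓ hℓM hℓP, smul_add]
      zero_mem' := fun ℓ hℓ hℓM _ => by rw [map_zero, smul_zero]
      smul_mem' := by
        intro c f hf1 ℓ hℓ hℓM hℓP
        rw [map_smul, hf1 ℓ hℓ hℓM hℓP, smul_comm] }
  have hvX : v ∈ X := hvT
  have hX : X ≠ ⊥ := fun h0 => hv (by rw [h0] at hvX; exact (Submodule.mem_bot ℂ).mp hvX)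
  have hstab : ∀ t : HeckeT M, ∀ f ∈ X, (t : Module.End ℂ (CuspForm (Gamma0 M) 2)) f ∈ X := by
    intro t f hf1 ℓ hℓ hℓM hℓP
    have hc : heckeAlgebra.T hℓ hℓM (Set.notMem_empty ℓ) * t =
        t * heckeAlgebra.T hℓ hℓM (Set.notMem_empty ℓ) := mul_comm _ _
    have hc' := congrArg (fun s : HeckeT M =>
      (s : Module.End ℂ (CuspForm (Gamma0 M) 2)) f) hc
    simp only [MulMemClass.coe_mul, heckeAlgebra.coe_T, Module.End.mul_apply] at hc'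
    rw [hc', hf1 ℓ hℓ hℓM hℓP, map_smul]
  obtain ⟨g, χ, hgX, hg0, hχ⟩ := exists_eigenvector_of_stable X hX hstab
  obtain ⟨g', hg'eig, hval⟩ := exists_normalizedEigenform_full hg0 χ hχ
  have hcancel : ∀ {a b : ℂ}, a • g = b • g → a = b := by
    intro a b hab
    have : (a - b) • g = 0 := by rw [sub_smul, hab, sub_self]
    rcases smul_eq_zero.mp this with h1 | h1
    · exact sub_eq_zero.mp h1
    · exact absurd h1 hg0
  refine ⟨g', hg'eig, fun ℓ hℓ hℓM hℓP => ?_⟩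
  rw [hval ℓ hℓ, eigenvalueFn, dif_pos hℓ, dif_neg hℓM]
  apply hcancel
  rw [← hχ, heckeAlgebra.coe_T]
  exact hgX ℓ hℓ hℓM hℓP

/-- **Deligne–Serre for the anemic Hecke algebra**: a character `𝕋(M)^S → 𝔽_p` lifts to a normalised
eigenform. -/
theorem exists_eigenform_of_modp_char (S : Set ℕ) {p : ℕ} [Fact p.Prime]
    (θ₀ : CuspForm.heckeAlgebra M 2 S →+* ZMod p) :
    ∃ (g : CuspForm (Gamma0 M) 2) (𝔪' : Ideal Zb), g.IsNormalizedEigenform ∧ 𝔪'.IsMaximal ∧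
      (p : Zb) ∈ 𝔪' ∧
      ∀ (ℓ : ℕ) (hℓ : ℓ.Prime) (hℓM : ¬ ℓ ∣ M) (hℓS : ℓ ∉ S) (n : ℤ),
        θ₀ (heckeAlgebra.T hℓ hℓM hℓS) = (n : ZMod p) →
        ∃ a : Zb, (a : ℂ) = qCoeff ⇑g ℓ ∧ a - (n : Zb) ∈ 𝔪' := by
  classical
  haveI : FiniteDimensional ℂ (CuspForm (Gamma0 M) 2) :=
    Fermat.Agent.ProgramR.ES.finiteDimensional_cuspForm M
  haveI : Module.Finite ℤ (CuspForm.heckeAlgebra M 2 S) := Fermat.Agent.S22.result M 2 S
  let ρ : CuspForm.heckeAlgebra M 2 S →+* Module.End ℂ (CuspForm (Gamma0 M) 2) :=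
    (CuspForm.heckeAlgebra M 2 S).val.toRingHom
  have hint : ∀ t : CuspForm.heckeAlgebra M 2 S,
      ∃ P : Polynomial ℤ, P.Monic ∧ Polynomial.aeval (ρ t) P = 0 := by
    intro t
    obtain ⟨P, hP, hPt⟩ := Algebra.IsIntegral.isIntegral (R := ℤ) t
    refine ⟨P, hP, ?_⟩
    have h1 : Polynomial.aeval ((CuspForm.heckeAlgebra M 2 S).val t) P =
        (CuspForm.heckeAlgebra M 2 S).val (Polynomial.aeval t P) :=
      Polynomial.aeval_algHom_apply _ t P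
    have h2 : Polynomial.aeval t P = 0 := by
      rw [Polynomial.aeval_def]
      exact hPt
    show Polynomial.aeval ((CuspForm.heckeAlgebra M 2 S).val t) P = 0
    rw [h1, h2, map_zero]
  have hann : ∀ t : CuspForm.heckeAlgebra M 2 S, ρ t = 0 → θ₀ t = 0 := by
    intro t ht
    have : t = 0 := Subtype.ext ht
    rw [this, map_zero]
  obtain ⟨lam, 𝔪', v, h𝔪', hp𝔪', hcong, hv0, hv⟩ :=
    Fermat.Agent.S41lib.SK.exists_eigenvector_lift ρ θ₀ hint hann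
  let lam' : ℕ → ℂ := fun ℓ =>
    if h : ℓ.Prime ∧ ¬ ℓ ∣ M ∧ ℓ ∉ S then
      ((lam (heckeAlgebra.T h.1 h.2.1 h.2.2) : Zb) : ℂ) else 0
  obtain ⟨g, hg, hgval⟩ := exists_normalizedEigenform_of_anemic {ℓ | ℓ ∉ S} lam' v hv0
    (fun ℓ hℓ hℓM hℓS => by
      have h : ℓ.Prime ∧ ¬ ℓ ∣ M ∧ ℓ ∉ S := ⟨hℓ, hℓM, hℓS⟩
      show heckeTLin 2 hℓ hℓM v = lam' ℓ • v
      have h1 : lam' ℓ = ((lam (heckeAlgebra.T h.1 h.2.1 h.2.2) : Zb) : ℂ) := dif_pos h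
      rw [h1, ← hv]
      rfl)
  refine ⟨g, 𝔪', hg, h𝔪', hp𝔪', fun ℓ hℓ hℓM hℓS n hn => ?_⟩
  have h : ℓ.Prime ∧ ¬ ℓ ∣ M ∧ ℓ ∉ S := ⟨hℓ, hℓM, hℓS⟩
  refine ⟨lam (heckeAlgebra.T hℓ hℓM hℓS), ?_, hcong _ n hn⟩
  rw [hgval ℓ hℓ hℓM hℓS]
  have h1 : lam' ℓ = ((lam (heckeAlgebra.T h.1 h.2.1 h.2.2) : Zb) : ℂ) := dif_pos h
  exact h1.symm

end Fermat.Agent.S59lib.S3Proj
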