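/-
S59lib / S3Proj / Readout  (helper3) — Project I.

**Readout with trivial diamond group**: if the base Hecke module `Mod0 p χ₀ t` of level `N` (diamond group
`G₀` trivial) does not vanish, `t ℓ = a ℓ mod p` for integers `a ℓ` (`ℓ ∉ S`), and `t` is non-Eisenstein at
a prime `ℓ₀ ≡ 1 (mod N)`, `ℓ₀ ∉ S`, then there is a character `θ₀ : 𝕋(N)^S → 𝔽_p` with `θ₀ (T_ℓ) = a ℓ`.
(minimal prime of `T0` — `Mod0` is torsion free — + `End/Seam.exists_character_of_prime` + reduction modulo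
the maximal ideal of `T0`.)
-/
import Fermat.Agent.S43lib.B0.End.Seam

set_option autoImplicit false
set_option linter.unusedSectionVars false
set_option linter.unusedVariables false
set_option linter.style.haveILetI false

noncomputable section

namespace Fermat.Agent.S59lib.S3Proj

open CongruenceSubgroup Fermat.Agent.S43lib.B1 Fermat.Agent.S43lib.Loc
open Fermat.Agent.S43lib.Mod4.HO Fermat.Agent.S43lib.B0.EndBlock IsLocalRing MvPolynomial CuspForm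

/-! ### Torsion-freeness -/

section tf

variable {Γ G : Type} [Group Γ] [Group G] {I : Type} (S : HeckeSys Γ G I)
variable {𝒪 : Type} [CommRing 𝒪]
variable (W : Type) [AddCommGroup W] [Module 𝒪 W] [DistribMulAction G W] [SMulCommClass G 𝒪 W]

/-- `H¹` with trivial action and torsion-free coefficients is torsion free -/
theorem coh_torsionFree (htriv : ∀ (g : G) (w : W), g • w = w) {c : 𝒪}
    (hc : ∀ w : W, c • w = 0 → w = 0) (y : S.Coh 𝒪 W) (hy : c • y = 0) : y = 0 := by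
  obtain ⟨f, rfl⟩ := S.cls_surjective 𝒪 W y
  rw [← map_smul, HeckeSys.cls_eq_zero_iff] at hy
  obtain ⟨w, hw⟩ := hy
  have hf : f = 0 := by
    apply Subtype.ext
    funext γ
    apply hc
    have := hw γ
    rw [htriv, sub_self] at this
    exact this
  rw [hf, map_zero]

/-- the localisation of a torsion-free module is torsion free -/
theorem F_torsionFree (𝔪 : Ideal (MvPolynomial I 𝒪)) [𝔪.IsPrime] {c : 𝒪}
    (hc : ∀ y : S.Coh 𝒪 W, c • y = 0 → y = 0) (z : S.F 𝒪 W 𝔪) (hz : c • z = 0) : z = 0 := by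
  induction z using LocalizedModule.induction_on with
  | _ v s =>
    rw [LocalizedModule.smul'_mk, ← LocalizedModule.zero_mk s, LocalizedModule.mk_eq] at hz
    obtain ⟨u, hu⟩ := hz
    rw [smul_zero, smul_zero] at hu
    have h1 : c • ((u * s) • v) = 0 := by
      rw [smul_comm, mul_smul]
      exact hu
    have h2 := hc _ h1
    rw [← LocalizedModule.zero_mk s, LocalizedModule.mk_eq]
    exact ⟨u, by rw [smul_zero, smul_zero, ← mul_smul]; exact h2⟩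

end tf

/-! ### The readout -/

section readout

variable {𝒪 : Type} [CommRing 𝒪] [IsDomain 𝒪] [IsDiscreteValuationRing 𝒪]
  [IsAdicComplete (maximalIdeal 𝒪) 𝒪] [CharZero 𝒪]
  (p : ℕ) [hpf : Fact p.Prime] {N : ℕ} [NeZero N] {G₀ : Type} [CommGroup G₀] [Fintype G₀]
  [Subsingleton G₀] (χ₀ : (ZMod N)ˣ →* G₀) (t : ℕ → ResidueField 𝒪)

theorem reg_triv (g : G₀) (w : Reg G₀ 𝒪) : g • w = w := by
  rw [Subsingleton.elim g 1, one_smul]

theorem mod0_torsionFree {c : 𝒪} (hc : c ≠ 0) (z : Mod0 (𝒪 := 𝒪) p χ₀ t) (hz : c • z = 0) :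
    z = 0 := by
  refine F_torsionFree (levelSys χ₀ (idx₀ p N)) (Reg G₀ 𝒪) _ ?_ z hz
  intro y hy
  refine coh_torsionFree (levelSys χ₀ (idx₀ p N)) (Reg G₀ 𝒪) reg_triv ?_ y hy
  intro w hw
  apply Reg.ext
  intro x
  have h1 := congrArg (fun r : Reg G₀ 𝒪 => r x) hw
  have h2 : c * w x = 0 := h1
  rcases mul_eq_zero.1 h2 with h | h
  · exact absurd h hc
  · exact h

/-- **Readout**: a character of the anemic Hecke algebra with values in `𝔽_p`. -/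
theorem exists_modp_char_of_nontrivial_Mod0 (hp𝒪 : (p : 𝒪) ∈ maximalIdeal 𝒪)
    (hnt : Nontrivial (Mod0 (𝒪 := 𝒪) p χ₀ t))
    (S : Finset ℕ) (hS : ∀ q : ℕ, q.Prime → q ∣ N → q ∈ S) (hpS : p ∈ S)
    {ℓ₀ : ℕ} (hℓ₀ : ℓ₀.Prime) (hℓ₀S : ℓ₀ ∉ S) (h1 : N ∣ ℓ₀ - 1)
    (hne : t ℓ₀ ≠ ((1 + ℓ₀ : ℕ) : ResidueField 𝒪))
    (a : ℕ → ℤ) (ha : ∀ ℓ : ℕ, ℓ.Prime → ¬ ℓ ∣ N → ℓ ∉ S → t ℓ = ((a ℓ : ℤ) : ResidueField 𝒪)) :
    ∃ θ₀ : CuspForm.heckeAlgebra N 2 (↑S : Set ℕ) →+* ZMod p,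
      ∀ (ℓ : ℕ) (hℓ : ℓ.Prime) (hℓN : ¬ ℓ ∣ N) (hℓS : ℓ ∉ (↑S : Set ℕ)),
        θ₀ (heckeAlgebra.T hℓ hℓN hℓS) = ((a ℓ : ℤ) : ZMod p) := by
  classical
  have hp : p.Prime := hpf.out
  set H := abs0 (𝒪 := 𝒪) p χ₀ t with hHdef
  haveI : Group.FG ↥(Gamma0 N) := inferInstance
  have hfin : Module.Finite 𝒪 (Mod0 (𝒪 := 𝒪) p χ₀ t) := inferInstance
  have hgood : H.Good p :=
    ⟨hp, hp𝒪, fun g => ⟨0, by rw [pow_zero, pow_one]; exact Subsingleton.elim g 1⟩, hfin, hnt⟩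
  haveI hloc : IsLocalRing (T0 (𝒪 := 𝒪) p χ₀ t) := H.isLocalRing_hecke Set.univ hgood
  -- `p` is a non-zero-divisor of `T0`
  have hp0 : (p : 𝒪) ≠ 0 := by exact_mod_cast hp.ne_zero
  have hnzd : ((p : ℕ) : T0 (𝒪 := 𝒪) p χ₀ t) ∈ nonZeroDivisors (T0 (𝒪 := 𝒪) p χ₀ t) := by
    have key : ∀ x : T0 (𝒪 := 𝒪) p χ₀ t, ((p : ℕ) : T0 (𝒪 := 𝒪) p χ₀ t) * x = 0 → x = 0 := by
      intro x hx
      apply H.hecke_ext Set.univ
      intro m
      rw [zero_smul]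
      apply mod0_torsionFree p χ₀ t hp0
      have h2 : (((p : ℕ) : T0 (𝒪 := 𝒪) p χ₀ t) * x) • m = 0 := by rw [hx, zero_smul]
      rw [mul_smul] at h2
      have h3 : ((p : ℕ) : T0 (𝒪 := 𝒪) p χ₀ t) = algebraMap 𝒪 (T0 (𝒪 := 𝒪) p χ₀ t) (p : 𝒪) :=
        (map_natCast _ _).symm
      rw [h3, algebraMap_smul] at h2
      exact h2
    rw [mem_nonZeroDivisors_iff]
    exact ⟨key, fun x hx => key x (by rw [mul_comm]; exact hx)⟩
  -- a minimal prime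
  obtain ⟨𝔭, hmin, hle⟩ := Ideal.exists_minimalPrimes_le
    (bot_le : (⊥ : Ideal (T0 (𝒪 := 𝒪) p χ₀ t)) ≤ maximalIdeal (T0 (𝒪 := 𝒪) p χ₀ t))
  haveI h𝔭 : 𝔭.IsPrime := hmin.1.1
  have hp𝔭 : ((p : ℕ) : T0 (𝒪 := 𝒪) p χ₀ t) ∉ 𝔭 := fun h =>
    Set.disjoint_left.1 (Ideal.disjoint_nonZeroDivisors_of_mem_minimalPrimes hmin) h hnzd
  have hG : ∀ g : G₀, H.tG Set.univ g - 1 ∈ 𝔭 := by
    intro g
    rw [Subsingleton.elim g 1, map_one, sub_self]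
    exact 𝔭.zero_mem
  obtain ⟨χ', hχ'⟩ := exists_character_of_prime (𝒪 := 𝒪) p χ₀ t hgood 𝔭 hp𝔭 hG (↑S : Set ℕ)
    (fun q hq hd => Finset.mem_coe.2 (hS q hq hd)) (Finset.mem_coe.2 hpS) hℓ₀
    (fun h => hℓ₀S (Finset.mem_coe.1 h)) h1 hne
  -- reduction modulo the maximal ideal
  let θb : CuspForm.heckeAlgebra N 2 (↑S : Set ℕ) →+* ResidueField (T0 (𝒪 := 𝒪) p χ₀ t) :=
    (Ideal.Quotient.factor hle).comp χ'
  have hθbT : ∀ (ℓ : ℕ) (hℓ : ℓ.Prime) (hℓN : ¬ ℓ ∣ N) (hℓS : ℓ ∉ (↑S : Set ℕ)),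
      θb (heckeAlgebra.T hℓ hℓN hℓS) = ((a ℓ : ℤ) : ResidueField (T0 (𝒪 := 𝒪) p χ₀ t)) := by
    intro ℓ hℓ hℓN hℓS
    have hℓp : ℓ ≠ p := fun h => hℓS (h ▸ Finset.mem_coe.2 hpS)
    have h2 : ℓ.Prime ∧ ¬ ℓ ∣ N ∧ ℓ ≠ p := ⟨hℓ, hℓN, hℓp⟩
    show Ideal.Quotient.factor hle (χ' (heckeAlgebra.T hℓ hℓN hℓS)) = _
    rw [hχ' ℓ hℓ hℓN hℓS hℓp, Ideal.Quotient.factor_mk]
    have h3 : H.tX Set.univ (Sum.inl ⟨ℓ, h2⟩) (Set.mem_univ _) -
        algebraMap 𝒪 (T0 (𝒪 := 𝒪) p χ₀ t) ((a ℓ : ℤ) : 𝒪) ∈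
        maximalIdeal (T0 (𝒪 := 𝒪) p χ₀ t) := by
      refine H.tX_sub_mem Set.univ hgood (Set.mem_univ _) ?_
      have h5 : H.ev (MvPolynomial.X (Sum.inl ⟨ℓ, h2⟩)) = t ℓ := evOf_X_inl p N t ⟨ℓ, h2⟩
      rw [h5, ha ℓ hℓ hℓN (fun h => hℓS (Finset.mem_coe.2 h)), map_intCast]
    have h4 := (Ideal.Quotient.eq (I := maximalIdeal (T0 (𝒪 := 𝒪) p χ₀ t))).2 h3
    rw [h4, map_intCast, map_intCast]
    rfl
  -- the prime field
  have hpF : ((p : ℕ) : ResidueField (T0 (𝒪 := 𝒪) p χ₀ t)) = 0 := by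
    have h3 : ((p : ℕ) : T0 (𝒪 := 𝒪) p χ₀ t) ∈ maximalIdeal (T0 (𝒪 := 𝒪) p χ₀ t) := by
      have hl := H.isLocalHom_algebraMap_hecke Set.univ hgood
      have h4 : ((p : ℕ) : T0 (𝒪 := 𝒪) p χ₀ t) = algebraMap 𝒪 (T0 (𝒪 := 𝒪) p χ₀ t) (p : 𝒪) :=
        (map_natCast _ _).symm
      rw [h4, mem_maximalIdeal, mem_nonunits_iff]
      intro hu
      exact (mem_maximalIdeal _).1 hp𝒪 (hl.map_nonunit _ hu)
    have h5 := (residue_eq_zero_iff _).2 h3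
    rwa [map_natCast] at h5
  haveI : CharP (ResidueField (T0 (𝒪 := 𝒪) p χ₀ t)) p := (CharP.charP_iff_prime_eq_zero hp).2 hpF
  let ι : ZMod p →+* ResidueField (T0 (𝒪 := 𝒪) p χ₀ t) := ZMod.castHom (dvd_refl p) _
  have hιinj : Function.Injective ι := ι.injective
  have hrange : ∀ x : CuspForm.heckeAlgebra N 2 (↑S : Set ℕ), θb x ∈ ι.range := by
    rintro ⟨x, hx⟩
    induction hx using Algebra.adjoin_induction with
    | mem T hT =>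
      rcases hT with ⟨ℓ, hℓ, hℓN, hℓS, rfl⟩ | ⟨q, hqN, hq, hqS, rfl⟩
      · have := hθbT ℓ hℓ hℓN hℓS
        rw [show (⟨CuspForm.heckeTLin 2 hℓ hℓN, _⟩ : CuspForm.heckeAlgebra N 2 (↑S : Set ℕ)) =
          CuspForm.heckeAlgebra.T hℓ hℓN hℓS from rfl, this]
        exact ⟨((a ℓ : ℤ) : ZMod p), map_intCast _ _⟩
      · exact absurd (Finset.mem_coe.2 (hS q hq hqN)) hqS
    | algebraMap z =>
      have : (⟨algebraMap ℤ _ z, Subalgebra.algebraMap_mem _ z⟩ :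
          CuspForm.heckeAlgebra N 2 (↑S : Set ℕ)) =
          ((z : ℤ) : CuspForm.heckeAlgebra N 2 (↑S : Set ℕ)) := by
        apply Subtype.ext
        simp
      rw [this, map_intCast]
      exact ⟨((z : ℤ) : ZMod p), map_intCast _ _⟩
    | add x y hx hy ihx ihy =>
      have : (⟨x + y, add_mem hx hy⟩ : CuspForm.heckeAlgebra N 2 (↑S : Set ℕ)) =
          ⟨x, hx⟩ + ⟨y, hy⟩ := rfl
      rw [this, map_add]
      exact Subring.add_mem _ ihx ihy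
    | mul x y hx hy ihx ihy =>
      have : (⟨x * y, mul_mem hx hy⟩ : CuspForm.heckeAlgebra N 2 (↑S : Set ℕ)) =
          ⟨x, hx⟩ * ⟨y, hy⟩ := rfl
      rw [this, map_mul]
      exact Subring.mul_mem _ ihx ihy
  let e : ZMod p ≃+* ι.range :=
    RingEquiv.ofBijective ι.rangeRestrict
      ⟨fun x y h => hιinj (congrArg Subtype.val h), ι.rangeRestrict_surjective⟩
  let θ₁ : CuspForm.heckeAlgebra N 2 (↑S : Set ℕ) →+* ZMod p :=
    (e.symm : ι.range →+* ZMod p).comp (θb.codRestrict ι.range hrange)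
  have hθ₁ : ∀ x, ι (θ₁ x) = θb x := by
    intro x
    have h1 : e (θ₁ x) = θb.codRestrict ι.range hrange x := e.apply_symm_apply _
    exact congrArg Subtype.val h1
  refine ⟨θ₁, fun ℓ hℓ hℓN hℓS => ?_⟩
  apply hιinj
  rw [hθ₁, hθbT, map_intCast]

end readout

end Fermat.Agent.S59lib.S3Proj
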