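/-
S59lib / S3Proj / ThetaW  (helper3) — Project I.

`exists_thetaW` = `S43lib.Theta.exists_theta` with the pair `(p, hp : p.Prime)` instead of a Frey package (the
proof never uses anything else of the package), and its corollary for `W.IsResiduallyModularOfLevel p N`.
-/
import Fermat.Agent.S43lib.Theta.Main

set_option autoImplicit false
set_option linter.unusedSectionVars false
set_option linter.style.haveILetI false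

noncomputable section

namespace Fermat.Agent.S59lib.S3Proj

open ModularFormClass CongruenceSubgroup CuspForm Polynomial
open Fermat.Agent.S29lib Fermat.Agent.S29lib.P Fermat.Agent.S29lib.Z Fermat.Agent.S31lib.TC
open Fermat.Agent.S43lib.Theta

local notation "Qb" => AlgebraicClosure ℚ
local notation "GQ" => (AlgebraicClosure ℚ ≃ₐ[ℚ] AlgebraicClosure ℚ)
local notation "Zb" => integralClosure ℤ ℂ

/-- **THETA for `(W, p)`**: the residual Hecke character of an eigenform congruent to `W` modulo `𝔪 ∋ p`,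
at every level `M`, `N ∣ M`. -/
theorem exists_thetaW (p : ℕ) (hp : p.Prime) {N M : ℕ} [NeZero N] [NeZero M] (hNM : N ∣ M)
    (S : Finset ℕ) (hpS : p ∈ S) (hMS : ∀ q : ℕ, q.Prime → q ∣ M → q ∈ S)
    (f : CuspForm (Gamma0 N) 2) (W : WeierstrassCurve ℤ) (𝔪 : Ideal Zb)
    (hf : f.IsNormalizedEigenform) (hW0 : W.Δ ≠ 0) (h𝔪 : 𝔪.IsMaximal) (hp𝔪 : (p : Zb) ∈ 𝔪)
    (hcong : ∀ ℓ : ℕ, ℓ.Prime → W.IsGoodPrimeFor ℓ → ¬ ℓ ∣ N → ℓ ≠ p →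
      ∃ a : Zb, (a : ℂ) = qCoeff f ℓ ∧ a - ((W.apOfModel ℓ : ℤ) : Zb) ∈ 𝔪)
    (k : Type) [Field k] [Algebra (ZMod p) k] :
    ∃ θ : CuspForm.heckeAlgebra M 2 (↑S : Set ℕ) →+* k,
      ∀ (ℓ : ℕ) (hℓ : ℓ.Prime) (hℓM : ¬ ℓ ∣ M) (hℓS : ℓ ∉ (↑S : Set ℕ)), W.IsGoodPrimeFor ℓ →
        θ (CuspForm.heckeAlgebra.T hℓ hℓM hℓS) = ((W.apOfModel ℓ : ℤ) : k) := by
  classical
  haveI hpf : Fact p.Prime := ⟨hp⟩
  haveI := h𝔪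
  -- the eigenform of level `M`
  obtain ⟨f', hf', hff'⟩ := exists_eigenform_of_dvd hNM (NeZero.ne M) f hf
  -- the residual representation
  obtain ⟨a, ha, ρ, -, hchar₀⟩ := coreStatement M f' hf' p hp 𝔪 hp𝔪
  have hchar : ∀ (ℓ : ℕ) (hℓ : ℓ.Prime), ¬ ℓ ∣ M * p →
      ∀ A : ValuationSubring Qb, A.LiesOverPrime ℓ → ∀ σ : GQ, A.IsFrobeniusAt σ ℓ →
        LinearMap.charpoly (ρ.ρ σ) =
          X ^ 2 - C (Ideal.Quotient.mk 𝔪 (a ⟨ℓ, hℓ⟩)) * X + C (ℓ : Zb ⧸ 𝔪) :=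
    fun ℓ hℓ h A hA σ hσ => hchar₀ ℓ hℓ h A hA σ hσ
  haveI hcharP : CharP (Zb ⧸ 𝔪) p := charP_quot 𝔪 p hp hp𝔪
  letI : Algebra (ZMod p) (Zb ⧸ 𝔪) := ZMod.algebra (Zb ⧸ 𝔪) p
  -- the finite set of primes to avoid
  set S₀ : Finset ℕ := S ∪ W.Δ.natAbs.primeFactors with hS₀
  have hgoodS₀ : ∀ ℓ : ℕ, ℓ.Prime → ℓ ∉ S₀ → W.IsGoodPrimeFor ℓ ∧ ¬ ℓ ∣ M ∧ ℓ ≠ p := by
    intro ℓ hℓ hℓS₀
    rw [hS₀, Finset.mem_union, not_or] at hℓS₀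
    refine ⟨fun hd => hℓS₀.2 ?_, fun hd => hℓS₀.1 (hMS ℓ hℓ hd), fun h => hℓS₀.1 (h ▸ hpS)⟩
    rw [Nat.mem_primeFactors]
    exact ⟨hℓ, Int.natCast_dvd.1 hd, Int.natAbs_ne_zero.2 hW0⟩
  -- the coefficients of `f'` at the good primes
  have hmk : ∀ (ℓ : ℕ) (hℓ : ℓ.Prime), W.IsGoodPrimeFor ℓ → ¬ ℓ ∣ M → ℓ ≠ p →
      Ideal.Quotient.mk 𝔪 (a ⟨ℓ, hℓ⟩) = ((W.apOfModel ℓ : ℤ) : Zb ⧸ 𝔪) := by
    intro ℓ hℓ hgood hℓM hℓp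
    obtain ⟨b, hb, hb𝔪⟩ := hcong ℓ hℓ hgood (fun h => hℓM (h.trans hNM)) hℓp
    have hab : a ⟨ℓ, hℓ⟩ = b := by
      apply Subtype.ext
      rw [ha ⟨ℓ, hℓ⟩, hb]
      exact hff' ℓ hℓ hℓM
    rw [hab, ← sub_eq_zero, ← map_intCast (Ideal.Quotient.mk 𝔪), ← map_sub]
    exact Ideal.Quotient.eq_zero_iff_mem.2 hb𝔪
  have hNMp : ∀ ℓ : ℕ, ℓ.Prime → ¬ ℓ ∣ M → ℓ ≠ p → ¬ ℓ ∣ M * p := by
    intro ℓ hℓ hℓM hℓp hd
    rcases (Nat.Prime.dvd_mul hℓ).1 hd with h | h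
    · exact hℓM h
    · exact hℓp ((Nat.prime_dvd_prime_iff_eq hℓ hp).1 h)
  -- all traces lie in the prime field
  have htr : ∀ σ : GQ, LinearMap.trace (Zb ⧸ 𝔪) ρ.V (ρ.ρ σ) ∈
      (algebraMap (ZMod p) (Zb ⧸ 𝔪)).range := by
    intro σ
    refine trace_mem_range_of_frobenius ρ S₀ (fun ℓ => ((W.apOfModel ℓ : ℤ) : Zb ⧸ 𝔪)) ?_
      (fun ℓ _ _ => intCast_mem_range _) σ
    intro ℓ hℓ hℓS₀ A hA τ hτ
    obtain ⟨hgood, hℓM, hℓp⟩ := hgoodS₀ ℓ hℓ hℓS₀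
    rw [hchar ℓ hℓ (hNMp ℓ hℓ hℓM hℓp) A hA τ hτ, hmk ℓ hℓ hgood hℓM hℓp]
  -- the coefficients of `f'` at all primes outside `S` lie in the prime field
  have hmem : ∀ (ℓ : ℕ) (hℓ : ℓ.Prime), ¬ ℓ ∣ M → ℓ ≠ p →
      Ideal.Quotient.mk 𝔪 (a ⟨ℓ, hℓ⟩) ∈ (algebraMap (ZMod p) (Zb ⧸ 𝔪)).range := by
    intro ℓ hℓ hℓM hℓp
    obtain ⟨A, τ, hA, hτ⟩ := Fermat.Agent.Helper5.exists_isFrobeniusAt ℓ hℓ
    have h1 := trace_eq_of_charpoly ρ.finrank_eq (ρ.ρ τ) (hchar ℓ hℓ (hNMp ℓ hℓ hℓM hℓp) A hA τ hτ)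
    rw [← h1]
    exact htr τ
  -- the eigencharacter
  let θ₀ : CuspForm.heckeAlgebra M 2 (↑S : Set ℕ) →+* (Zb ⧸ 𝔪) :=
    ((Ideal.Quotient.mk 𝔪).comp (eigenChar hf')).comp
      (Subalgebra.inclusion (CuspForm.heckeAlgebra_mono (Set.empty_subset (↑S : Set ℕ)))).toRingHom
  have hθ₀T : ∀ (ℓ : ℕ) (hℓ : ℓ.Prime) (hℓM : ¬ ℓ ∣ M) (hℓS : ℓ ∉ (↑S : Set ℕ)),
      θ₀ (CuspForm.heckeAlgebra.T hℓ hℓM hℓS) = Ideal.Quotient.mk 𝔪 (a ⟨ℓ, hℓ⟩) := by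
    intro ℓ hℓ hℓM hℓS
    show Ideal.Quotient.mk 𝔪 (eigenChar hf' _) = _
    congr 1
    apply Subtype.ext
    rw [coe_eigenChar, ha ⟨ℓ, hℓ⟩]
    show qCoeff ⇑(CuspForm.heckeTLin 2 hℓ hℓM f') 1 = _
    rw [Fermat.Agent.S29lib.P.heckeTLin_eq_smul hf' hℓ hℓM, Fermat.Agent.Helper8.qCoeff_smul,
      hf'.qCoeff_one, mul_one]
  -- the values lie in the prime field
  have hrange : ∀ x : CuspForm.heckeAlgebra M 2 (↑S : Set ℕ),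
      θ₀ x ∈ (algebraMap (ZMod p) (Zb ⧸ 𝔪)).range := by
    rintro ⟨x, hx⟩
    induction hx using Algebra.adjoin_induction with
    | mem T hT =>
      rcases hT with ⟨ℓ, hℓ, hℓM, hℓS, rfl⟩ | ⟨q, hqM, hq, hqS, rfl⟩
      · have hℓp : ℓ ≠ p := fun h => hℓS (h ▸ Finset.mem_coe.2 hpS)
        have := hθ₀T ℓ hℓ hℓM hℓS
        rw [show (⟨CuspForm.heckeTLin 2 hℓ hℓM, _⟩ : CuspForm.heckeAlgebra M 2 (↑S : Set ℕ)) =
          CuspForm.heckeAlgebra.T hℓ hℓM hℓS from rfl, this]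
        exact hmem ℓ hℓ hℓM hℓp
      · exact absurd (Finset.mem_coe.2 (hMS q hq hqM)) hqS
    | algebraMap z =>
      have : (⟨algebraMap ℤ _ z, Subalgebra.algebraMap_mem _ z⟩ :
          CuspForm.heckeAlgebra M 2 (↑S : Set ℕ)) = ((z : ℤ) : CuspForm.heckeAlgebra M 2 (↑S : Set ℕ)) := by
        apply Subtype.ext
        simp
      rw [this, map_intCast]
      exact intCast_mem_range z
    | add x y hx hy ihx ihy =>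
      have : (⟨x + y, add_mem hx hy⟩ : CuspForm.heckeAlgebra M 2 (↑S : Set ℕ)) =
          ⟨x, hx⟩ + ⟨y, hy⟩ := rfl
      rw [this, map_add]
      exact Subring.add_mem _ ihx ihy
    | mul x y hx hy ihx ihy =>
      have : (⟨x * y, mul_mem hx hy⟩ : CuspForm.heckeAlgebra M 2 (↑S : Set ℕ)) =
          ⟨x, hx⟩ * ⟨y, hy⟩ := rfl
      rw [this, map_mul]
      exact Subring.mul_mem _ ihx ihy
  -- corestriction to the prime field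
  have hinj : Function.Injective (algebraMap (ZMod p) (Zb ⧸ 𝔪)) :=
    (algebraMap (ZMod p) (Zb ⧸ 𝔪)).injective
  let e : ZMod p ≃+* (algebraMap (ZMod p) (Zb ⧸ 𝔪)).range :=
    RingEquiv.ofBijective (algebraMap (ZMod p) (Zb ⧸ 𝔪)).rangeRestrict
      ⟨fun x y h => hinj (congrArg Subtype.val h), (algebraMap (ZMod p) (Zb ⧸ 𝔪)).rangeRestrict_surjective⟩
  let θ₁ : CuspForm.heckeAlgebra M 2 (↑S : Set ℕ) →+* ZMod p :=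
    (e.symm : (algebraMap (ZMod p) (Zb ⧸ 𝔪)).range →+* ZMod p).comp
      (θ₀.codRestrict (algebraMap (ZMod p) (Zb ⧸ 𝔪)).range hrange)
  have hθ₁ : ∀ x, algebraMap (ZMod p) (Zb ⧸ 𝔪) (θ₁ x) = θ₀ x := by
    intro x
    have h1 : e (θ₁ x) = θ₀.codRestrict (algebraMap (ZMod p) (Zb ⧸ 𝔪)).range hrange x :=
      e.apply_symm_apply _
    exact congrArg Subtype.val h1
  refine ⟨(algebraMap (ZMod p) k).comp θ₁, fun ℓ hℓ hℓM hℓS hgood => ?_⟩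
  have hℓp : ℓ ≠ p := fun h => hℓS (h ▸ Finset.mem_coe.2 hpS)
  have h2 : θ₁ (CuspForm.heckeAlgebra.T hℓ hℓM hℓS) = ((W.apOfModel ℓ : ℤ) : ZMod p) := by
    apply hinj
    rw [hθ₁, hθ₀T, hmk ℓ hℓ hgood hℓM hℓp, map_intCast]
  rw [RingHom.comp_apply, h2, map_intCast]

/-- **THETA for a residually modular `W`.** -/
theorem exists_thetaW_of_isResiduallyModularOfLevel (p : ℕ) (hp : p.Prime) (W : WeierstrassCurve ℤ)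
    (hW0 : W.Δ ≠ 0) {N M : ℕ} [NeZero M] (hNM : N ∣ M)
    (S : Finset ℕ) (hpS : p ∈ S) (hMS : ∀ q : ℕ, q.Prime → q ∣ M → q ∈ S)
    (hmod : W.IsResiduallyModularOfLevel p N) (k : Type) [Field k] [Algebra (ZMod p) k] :
    ∃ θ : CuspForm.heckeAlgebra M 2 (↑S : Set ℕ) →+* k,
      ∀ (ℓ : ℕ) (hℓ : ℓ.Prime) (hℓM : ¬ ℓ ∣ M) (hℓS : ℓ ∉ (↑S : Set ℕ)), W.IsGoodPrimeFor ℓ →
        θ (CuspForm.heckeAlgebra.T hℓ hℓM hℓS) = ((W.apOfModel ℓ : ℤ) : k) := by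
  have hN : N ≠ 0 := by
    rintro rfl
    exact (NeZero.ne M) (zero_dvd_iff.1 hNM)
  haveI : NeZero N := ⟨hN⟩
  obtain ⟨f, 𝔪, hf, h𝔪, hp𝔪, hcong⟩ := hmod
  exact exists_thetaW p hp hNM S hpS hMS f W 𝔪 hf hW0 h𝔪 hp𝔪 hcong k

end Fermat.Agent.S59lib.S3Proj
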