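/-
S59lib / S3Proj / Main  (helper3) — Project I.

**R7a = level lowering at `2` modulo `3` (the case `(p, q) = (3, 2)` of LLsq)**: for an integral model `W` with
`W[3]` irreducible, an odd `M'` divisible by a prime `r ≡ 2 (mod 3)`:
  `W` residually modular mod `3` of level `4 M'`  ⟹  `W` residually modular mod `3` of level `2 M'`.

* `exists_nonEis_prime` : a prime `ℓ₀ ≡ 1 (mod m)`, good for `W`, outside a finite set, with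
  `a_{ℓ₀}(W) ≢ 1 + ℓ₀ (mod p)` (helper4's `BigImg/NonEis` + odd ⟹ absolutely irreducible);
* `nontrivial_Mod0_of_theta` : forms ⟹ Hecke module (helper5's `B2/Bridge/NonVan`);
* `llsqTwoThree` : `θ` (`ThetaW`) ⟹ `Mod0 ≠ 0` at level `4 M'` ⟹ (`Transfer.nontrivial_Mod0_two_of_four`)
  `Mod0 ≠ 0` at level `2 M'` ⟹ (`Readout`) a character `𝕋(2M')^S → 𝔽₃` ⟹ (`FormLift`) an eigenform.
-/
import Fermat.Agent.S59lib.S3Proj.Transfer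
import Fermat.Agent.S59lib.S3Proj.ThetaW
import Fermat.Agent.S59lib.S3Proj.FormLift
import Fermat.Agent.S59lib.S3Proj.Readout
import Fermat.Agent.S59lib.BigImg.NonEis
import Fermat.Agent.S44lib.Q1.ESide
import Fermat.Agent.S43lib.B2.Bridge.NonVan
import Fermat.Agent.S43lib.Loc.Coeff

set_option autoImplicit false
set_option linter.unusedSectionVars false
set_option linter.unusedVariables false
set_option linter.style.haveILetI false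

noncomputable section

namespace Fermat.Agent.S59lib.S3Proj

open CongruenceSubgroup Fermat.Agent.S43lib.B1 Fermat.Agent.S43lib.Loc
open Fermat.Agent.S43lib.Mod4.HO IsLocalRing CuspForm
open WeierstrassCurve WeierstrassCurve.Affine WeierstrassCurve.Affine.Point
open Fermat.Agent.S58lib.Tate Fermat.Agent.S44lib.Q1 Polynomial

local notation "Qb" => AlgebraicClosure ℚ
local notation "GQ" => (AlgebraicClosure ℚ ≃ₐ[ℚ] AlgebraicClosure ℚ)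

/-! ### A non-Eisenstein prime -/

section nonEis

variable (W : WeierstrassCurve ℤ) (hΔ : W.Δ ≠ 0) (p : ℕ) [hp : Fact p.Prime]

include hΔ in
/-- **a non-Eisenstein prime `ℓ₀ ≡ 1 (mod m)`** for an irreducible `W[p]`, `p` odd. -/
theorem exists_nonEis_prime (hp2 : p ≠ 2) (hirr : W.ModRepIsIrreducible p) {m : ℕ} (hm : 0 < m)
    (S₀ : Finset ℕ) :
    ∃ ℓ : ℕ, ℓ.Prime ∧ ℓ ∉ S₀ ∧ ℓ ≠ p ∧ ¬ (ℓ : ℤ) ∣ W.Δ ∧ m ∣ ℓ - 1 ∧
      ((W.apOfModel ℓ : ℤ) : ZMod p) ≠ ((1 + ℓ : ℕ) : ZMod p) := by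
  classical
  have hirr' : GaloisRepIsIrreducible (K := Qb) ℚ (WQ' W : WeierstrassCurve ℚ) p := hirr
  have hirr₀ : (resRepE W hΔ p).IsIrreducible := by
    intro U hU
    apply rhoE_irreducible W hΔ p hirr' U
    intro σ x hx
    exact hU σ x hx
  have h₀ : ∀ ℓ : ℕ, ℓ.Prime → ℓ ∉ ({p} ∪ W.Δ.natAbs.primeFactors : Finset ℕ) →
      ∀ A : ValuationSubring Qb, A.LiesOverPrime ℓ → ∀ φ : GQ, A.IsFrobeniusAt φ ℓ →
        LinearMap.charpoly ((resRepE W hΔ p).ρ φ) =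
          X ^ 2 - C ((W.apOfModel ℓ : ℤ) : ZMod p) * X + C ((ℓ : ℕ) : ZMod p) := by
    intro ℓ hℓ hℓS A hA φ hφ
    simp only [Finset.mem_union, Finset.mem_singleton, not_or] at hℓS
    have hgood : ¬ (ℓ : ℤ) ∣ W.Δ := by
      intro hd
      apply hℓS.2
      rw [Nat.mem_primeFactors]
      exact ⟨hℓ, Int.natCast_dvd.mp hd, Int.natAbs_ne_zero.mpr hΔ⟩
    obtain ⟨ht, hd⟩ := trace_det_rhoE_frob W hΔ p hℓ hℓS.1 hgood hA hφ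
    rw [resRepE_charpoly, Matrix.charpoly_fin_two, ht, hd]
  have hdet := Fermat.Agent.S58lib.Cmp.det_complexConjugation_modp p (resRepE W hΔ p)
    (fun ℓ => W.apOfModel ℓ) _ h₀
  have h2 : (2 : ZMod p) ≠ 0 := by
    intro h20
    have h3 : ((2 : ℕ) : ZMod p) = 0 := by exact_mod_cast h20
    rw [ZMod.natCast_eq_zero_iff] at h3
    exact hp2 ((Nat.prime_dvd_prime_iff_eq hp.out Nat.prime_two).mp h3)
  have habs : (resRepE W hΔ p).IsAbsolutelyIrreducible :=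
    Fermat.Agent.S58lib.Cmp.isAbsolutelyIrreducible_of_charpoly_eq (RingHom.id (ZMod p)) h2
      (resRepE W hΔ p) hirr₀ complexConjugation complexConjugation_mul_self hdet
      (resRepE W hΔ p) (fun σ => (Polynomial.map_id).symm)
  obtain ⟨ℓ, A, φ, hℓ, hℓS, hdvd, hA, hφ, hne, -⟩ :=
    Fermat.Agent.S59lib.BigImg.exists_frobenius_one_mod_of_absIrr (resRepE W hΔ p) habs hm
      (S₀ ∪ ({p} ∪ W.Δ.natAbs.primeFactors))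
  rw [Finset.mem_union, not_or] at hℓS
  have hℓS2 := hℓS.2
  simp only [Finset.mem_union, Finset.mem_singleton, not_or] at hℓS2
  have hgood : ¬ (ℓ : ℤ) ∣ W.Δ := by
    intro hd
    apply hℓS2.2
    rw [Nat.mem_primeFactors]
    exact ⟨hℓ, Int.natCast_dvd.mp hd, Int.natAbs_ne_zero.mpr hΔ⟩
  refine ⟨ℓ, hℓ, hℓS.1, hℓS2.1, hgood, hdvd, fun heq => hne ?_⟩
  rw [h₀ ℓ hℓ hℓS.2 A hA φ hφ, heq]
  simp only [eval_add, eval_sub, eval_pow, eval_X, eval_mul, eval_C, one_pow, mul_one]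
  push_cast
  ring

end nonEis

/-! ### forms ⟹ Hecke module -/

section bridge

variable {𝒪 : Type} [CommRing 𝒪] [IsDomain 𝒪] [IsDiscreteValuationRing 𝒪]
  [IsAdicComplete (maximalIdeal 𝒪) 𝒪] [CharZero 𝒪]
  (p : ℕ) {N : ℕ} [NeZero N] {G₀ : Type} [CommGroup G₀] [Fintype G₀]
  (χ₀ : (ZMod N)ˣ →* G₀)

/-- the point of a character of the anemic Hecke algebra -/
def tOf (S : Finset ℕ) (θ : CuspForm.heckeAlgebra N 2 (↑S : Set ℕ) →+* ResidueField 𝒪) (ℓ : ℕ) :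
    ResidueField 𝒪 :=
  open Classical in
  if h : ℓ.Prime ∧ ¬ ℓ ∣ N ∧ ℓ ∉ (↑S : Set ℕ) then θ (heckeAlgebra.T h.1 h.2.1 h.2.2) else 0

theorem tOf_eq (S : Finset ℕ) (θ : CuspForm.heckeAlgebra N 2 (↑S : Set ℕ) →+* ResidueField 𝒪)
    {ℓ : ℕ} (hℓ : ℓ.Prime) (hℓN : ¬ ℓ ∣ N) (hℓS : ℓ ∉ (↑S : Set ℕ)) :
    tOf S θ ℓ = θ (heckeAlgebra.T hℓ hℓN hℓS) := by
  unfold tOf
  rw [dif_pos ⟨hℓ, hℓN, hℓS⟩]

/-- **forms ⟹ Hecke module**: the localisation of `H¹(Γ₀(N), Reg G₀ 𝒪)` at the point of a non-Eisenstein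
character of the anemic Hecke algebra (`S` = the primes of `N` and `p`) does not vanish. -/
theorem nontrivial_Mod0_of_theta (S : Finset ℕ)
    (hS : ∀ ℓ : ℕ, ℓ.Prime → ¬ ℓ ∣ N → ℓ ≠ p → ℓ ∉ S)
    (θ : CuspForm.heckeAlgebra N 2 (↑S : Set ℕ) →+* ResidueField 𝒪)
    {ℓ₀ : ℕ} (hℓ₀ : ℓ₀.Prime) (hℓ₀N : ¬ ℓ₀ ∣ N) (hℓ₀p : ℓ₀ ≠ p)
    (hne : tOf S θ ℓ₀ ≠ ((1 + ℓ₀ : ℕ) : ResidueField 𝒪)) :
    Nontrivial (Mod0 (𝒪 := 𝒪) p χ₀ (tOf S θ)) := by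
  classical
  have hS' : ∀ ℓ : ℕ, ℓ.Prime → ¬ ℓ ∣ N → ℓ ≠ p → ℓ ∉ (↑S : Set ℕ) := fun ℓ h1 h2 h3 h =>
    hS ℓ h1 h2 h3 (Finset.mem_coe.1 h)
  have hev : ∀ i : Idx p N,
      (∃ ℓ : Fermat.Agent.S43lib.B2.Bridge.GoodPrime N (↑S : Set ℕ),
        idx₀ p N i = Fermat.Agent.S43lib.B2.Bridge.goodIdx₀ ℓ ∧
        evOf p N (𝒪 := 𝒪) (tOf S θ) (MvPolynomial.X i) =
          θ (CuspForm.heckeAlgebra.T ℓ.2.1 ℓ.2.2.1 ℓ.2.2.2)) ∨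
      (∃ u : (ZMod N)ˣ, idx₀ p N i = Sum.inr u ∧
        evOf p N (𝒪 := 𝒪) (tOf S θ) (MvPolynomial.X i) = 1) := by
    rintro (ℓ | n)
    · left
      refine ⟨⟨ℓ.1, ℓ.2.1, ℓ.2.2.1, hS' ℓ.1 ℓ.2.1 ℓ.2.2.1 ℓ.2.2.2⟩, rfl, ?_⟩
      rw [evOf_X_inl, tOf_eq]
    · right
      exact ⟨_, rfl, evOf_X_inr p N (tOf S θ) n⟩
  have hne' : (Fermat.Agent.S43lib.B1.lvlSys χ₀ (idx₀ p N)
      (Fermat.Agent.S43lib.B1.commStmt N)).NonEis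
      (RingHom.ker (evOf p N (𝒪 := 𝒪) (tOf S θ))) := by
    refine ⟨Sum.inl ⟨ℓ₀, hℓ₀, hℓ₀N, hℓ₀p⟩, ?_⟩
    rw [RingHom.mem_ker, map_sub, evOf_X_inl, evOf_C, map_natCast]
    have hcard : Fintype.card (Fermat.Agent.S43lib.B1.lvlIota N
        (Sum.inl (Sum.inl ⟨ℓ₀, hℓ₀, hℓ₀N⟩))) = ℓ₀ + 1 := by
      haveI : NeZero ℓ₀ := ⟨hℓ₀.ne_zero⟩
      rw [Fintype.card_eq_nat_card]
      show Nat.card (OnePoint (ZMod ℓ₀)) = ℓ₀ + 1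
      rw [show OnePoint (ZMod ℓ₀) = Option (ZMod ℓ₀) from rfl, Finite.card_option,
        Nat.card_zmod]
    have hcard' : Fintype.card ((Fermat.Agent.S43lib.B1.lvlSys χ₀ (idx₀ p N)
        (Fermat.Agent.S43lib.B1.commStmt N)).ι (Sum.inl ⟨ℓ₀, hℓ₀, hℓ₀N, hℓ₀p⟩)) =
        ℓ₀ + 1 := hcard
    rw [hcard', Nat.add_comm]
    exact sub_ne_zero.mpr hne
  exact Fermat.Agent.S43lib.B2.Bridge.nontrivial_F_reg χ₀ (idx₀ p N)
    (Fermat.Agent.S43lib.B1.commStmt N) 𝒪 θ (evOf p N (𝒪 := 𝒪) (tOf S θ)) hev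
    (RingHom.ker (evOf p N (𝒪 := 𝒪) (tOf S θ))) (fun s => RingHom.mem_ker) hne'

end bridge

/-! ### The level-lowering step at `2` modulo `3` -/

section final

local notation "Zb" => integralClosure ℤ ℂ

/-- **R7a = LLsq at `(p, q) = (3, 2)`**: for `W[3]` irreducible, `M'` odd and divisible by a prime
`r ≡ 2 (mod 3)`: residually modular mod `3` of level `4 M'` implies residually modular mod `3` of level
`2 M'`. -/
theorem llsqTwoThree (W : WeierstrassCurve ℤ) (hΔ : W.Δ ≠ 0) (hirr : W.ModRepIsIrreducible 3)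
    (M' : ℕ) (hM'pos : 0 < M') (hM' : Odd M') (hr : ∃ r : ℕ, r.Prime ∧ r ∣ M' ∧ r % 3 = 2)
    (hmod : W.IsResiduallyModularOfLevel 3 (4 * M')) :
    W.IsResiduallyModularOfLevel 3 (2 * M') := by
  classical
  haveI hp3 : Fact (Nat.Prime 3) := ⟨Nat.prime_three⟩
  obtain ⟨𝒪, i1, i2, i3, i4, i5, i6, i7, hp𝒪, -, -⟩ := exists_coeff_ring_zmod 3 (by decide)
  letI : Algebra (ZMod 3) (ResidueField 𝒪) := ZMod.algebra (ResidueField 𝒪) 3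
  haveI : NeZero M' := ⟨hM'pos.ne'⟩
  rw [Nat.mul_comm 4 M'] at hmod
  rw [Nat.mul_comm 2 M']
  obtain ⟨r, hrp, hrM, hr3⟩ := hr
  -- the ring
  have h3 : (3 : 𝒪) ∈ maximalIdeal 𝒪 := by
    have : ((3 : ℕ) : 𝒪) = 3 := Nat.cast_ofNat
    rw [← this]
    exact hp𝒪
  have h2u : IsUnit (2 : 𝒪) := by
    by_contra hnu
    have h2 : (2 : 𝒪) ∈ maximalIdeal 𝒪 := (mem_maximalIdeal _).2 hnu
    have h1 : (1 : 𝒪) ∈ maximalIdeal 𝒪 := by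
      have := (maximalIdeal 𝒪).sub_mem h3 h2
      have e : (3 : 𝒪) - 2 = 1 := by norm_num
      rwa [e] at this
    exact (maximalIdeal.isMaximal 𝒪).ne_top ((Ideal.eq_top_iff_one _).2 h1)
  letI : Invertible (2 : 𝒪) := h2u.invertible
  obtain ⟨ϖ, hϖirr⟩ := IsDiscreteValuationRing.exists_irreducible 𝒪
  have hϖ : maximalIdeal 𝒪 = Ideal.span {ϖ} := hϖirr.maximalIdeal_eq
  -- the sets of primes
  set S : Finset ℕ := (M' * 4).primeFactors ∪ {3} with hSdef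
  set S' : Finset ℕ := S ∪ W.Δ.natAbs.primeFactors with hS'def
  have hM4 : M' * 4 ≠ 0 := Nat.mul_ne_zero hM'pos.ne' (by norm_num)
  have hpS : 3 ∈ S := Finset.mem_union_right _ (Finset.mem_singleton_self 3)
  have hMS : ∀ q : ℕ, q.Prime → q ∣ M' * 4 → q ∈ S := fun q hq hd =>
    Finset.mem_union_left _ (Nat.mem_primeFactors.2 ⟨hq, hd, hM4⟩)
  have hSout : ∀ ℓ : ℕ, ℓ.Prime → ¬ ℓ ∣ M' * 4 → ℓ ≠ 3 → ℓ ∉ S := by
    intro ℓ hℓ hℓN hℓ3 h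
    rw [hSdef, Finset.mem_union, Finset.mem_singleton] at h
    rcases h with h | h
    · exact hℓN (Nat.dvd_of_mem_primeFactors h)
    · exact hℓ3 h
  -- level `2M'` versus level `4M'`
  have hdvd24 : ∀ ℓ : ℕ, ℓ.Prime → ¬ ℓ ∣ M' * 2 → ¬ ℓ ∣ M' * 4 := by
    intro ℓ hℓ h2 h4
    have e : M' * 4 = M' * 2 * 2 := by ring
    rw [e] at h4
    rcases (Nat.Prime.dvd_mul hℓ).1 h4 with h | h
    · exact h2 h
    · exact h2 (Dvd.dvd.mul_left h M')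
  -- the character `θ`
  obtain ⟨θ, hθ⟩ := exists_thetaW_of_isResiduallyModularOfLevel 3 Nat.prime_three W hΔ
    (dvd_refl (M' * 4)) S hpS hMS hmod (ResidueField 𝒪)
  set t : ℕ → ResidueField 𝒪 := tOf S θ with htdef
  have htgood : ∀ ℓ : ℕ, ℓ.Prime → ℓ ∉ S' → t ℓ = ((W.apOfModel ℓ : ℤ) : ResidueField 𝒪) := by
    intro ℓ hℓ hℓS'
    rw [hS'def, Finset.mem_union, not_or] at hℓS'
    have hℓN : ¬ ℓ ∣ M' * 4 := fun hd => hℓS'.1 (hMS ℓ hℓ hd)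
    have hℓS : ℓ ∉ (↑S : Set ℕ) := fun h => hℓS'.1 (Finset.mem_coe.1 h)
    have hgood : W.IsGoodPrimeFor ℓ := by
      intro hd
      apply hℓS'.2
      rw [Nat.mem_primeFactors]
      exact ⟨hℓ, Int.natCast_dvd.mp hd, Int.natAbs_ne_zero.mpr hΔ⟩
    rw [htdef, tOf_eq S θ hℓ hℓN hℓS]
    exact hθ ℓ hℓ hℓN hℓS hgood
  -- the non-Eisenstein prime
  obtain ⟨ℓ₀, hℓ₀, hℓ₀S', hℓ₀3, hℓ₀good, hℓ₀1, hℓ₀ne⟩ :=
    exists_nonEis_prime W hΔ 3 (by decide) hirr (m := M' * 4) (Nat.pos_of_ne_zero hM4) S'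
  have hℓ₀S : ℓ₀ ∉ S := fun h => hℓ₀S' (Finset.mem_union_left _ h)
  have hℓ₀N4 : ¬ ℓ₀ ∣ M' * 4 := fun hd => hℓ₀S (hMS ℓ₀ hℓ₀ hd)
  have hℓ₀N2 : ¬ ℓ₀ ∣ M' * 2 := by
    intro hd
    apply hℓ₀N4
    have e : M' * 4 = M' * 2 * 2 := by ring
    rw [e]
    exact Dvd.dvd.mul_right hd 2
  have hne : t ℓ₀ ≠ ((1 + ℓ₀ : ℕ) : ResidueField 𝒪) := by
    rw [htgood ℓ₀ hℓ₀ hℓ₀S']
    intro heq
    apply hℓ₀ne
    apply (algebraMap (ZMod 3) (ResidueField 𝒪)).injective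
    rw [map_intCast, map_natCast]
    exact heq
  -- the Hecke module at level `4M'`
  have hnt4 : Nontrivial (Mod0 (𝒪 := 𝒪) 3 (1 : (ZMod (M' * 4))ˣ →* (ZMod 1)ˣ) t) :=
    nontrivial_Mod0_of_theta 3 (1 : (ZMod (M' * 4))ˣ →* (ZMod 1)ˣ) S hSout θ hℓ₀ hℓ₀N4 hℓ₀3 hne
  -- the core
  have hnt2 : Nontrivial (Mod0 (𝒪 := 𝒪) 3 (1 : (ZMod (M' * 2))ˣ →* (ZMod 1)ˣ) t) := by
    refine nontrivial_Mod0_two_of_four 3 hM' (Fermat.Agent.S59lib.Wa.noOrderThree_Gamma0 hrp hrM hr3)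
      hϖ h3 (1 : (ZMod (M' * 2))ˣ →* (ZMod 1)ˣ) (1 : (ZMod (M' * 4))ˣ →* (ZMod 1)ˣ) t
      ⟨⟨ℓ₀, hℓ₀, hℓ₀N2, hℓ₀3⟩, ?_⟩ hnt4
    show t ℓ₀ ≠ ((ℓ₀ + 1 : ℕ) : ResidueField 𝒪)
    rw [Nat.add_comm]
    exact hne
  -- the readout
  have hS'2 : ∀ q : ℕ, q.Prime → q ∣ M' * 2 → q ∈ S' := by
    intro q hq hd
    refine Finset.mem_union_left _ (hMS q hq ?_)
    have e : M' * 4 = M' * 2 * 2 := by ring
    rw [e]
    exact Dvd.dvd.mul_right hd 2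
  have hℓ₀12 : M' * 2 ∣ ℓ₀ - 1 := by
    refine dvd_trans ?_ hℓ₀1
    have e : M' * 4 = M' * 2 * 2 := by ring
    rw [e]
    exact Dvd.intro _ rfl
  obtain ⟨θ₀, hθ₀⟩ := exists_modp_char_of_nontrivial_Mod0 3
    (1 : (ZMod (M' * 2))ˣ →* (ZMod 1)ˣ) t hp𝒪 hnt2 S' hS'2 (Finset.mem_union_left _ hpS)
    hℓ₀ hℓ₀S' hℓ₀12 hne (fun ℓ => W.apOfModel ℓ) (fun ℓ hℓ _ hℓS' => htgood ℓ hℓ hℓS')
  -- the eigenform
  obtain ⟨g, 𝔪', hg, h𝔪', hp𝔪', hcong⟩ := exists_eigenform_of_modp_char (M := M' * 2)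
    (↑S' : Set ℕ) θ₀
  refine ⟨g, 𝔪', hg, h𝔪', hp𝔪', ?_⟩
  intro ℓ hℓ hgood hℓN hℓ3
  have hℓS' : ℓ ∉ S' := by
    intro h
    rw [hS'def, Finset.mem_union] at h
    rcases h with h | h
    · exact hSout ℓ hℓ (hdvd24 ℓ hℓ hℓN) hℓ3 h
    · exact hgood (Int.natCast_dvd.2 (Nat.dvd_of_mem_primeFactors h))
  have hℓS'c : ℓ ∉ (↑S' : Set ℕ) := fun h => hℓS' (Finset.mem_coe.1 h)
  exact hcong ℓ hℓ hℓN hℓS'c (W.apOfModel ℓ) (hθ₀ ℓ hℓ hℓN hℓS'c)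

end final

end Fermat.Agent.S59lib.S3Proj
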