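/-
S59lib / S3Proj / Block32  (helper3) — Project I.

**The instance `(p, q) = (3, 2)` of `LLsqBlock`**: for a semistable `W` with `W[3]` irreducible,
  `4 ∣ M`, `8 ∤ M`, `W` residually modular mod `3` of level `M`  ⟹  residually modular mod `3` of level `M / 2`.

* `exists_neg_det_trace_ne` : some `σ ∈ G_ℚ` has `det ρ̄(σ) = -1` and `tr ρ̄(σ) ≠ 0` (otherwise `ρ̄(ker χ₃)` is
  abelian, contradicting helper4's `hTW_three_core`);
* `exists_aux_prime_three` : **the auxiliary prime** `r₀ ≡ 2 (mod 3)`, `r₀ ∉ S₀`, good for `W`, `3 ∤ a_{r₀}(W)`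
  (main's weak Chebotarev `S56lib.TWSel.exists_frobenius_zpowers_eq`);
* `llsqBlock_three_two` : add `r₀` (helper1's `AuxPrime.isResiduallyModularOfLevel_mul`), lower `4 → 2`
  (`llsqTwoThree`), remove `r₀` (helper1's `AuxPrime.removeAux`).
-/
import Fermat.Agent.S59lib.S3Proj.Main
import Fermat.Agent.S59lib.BigImg.WRes
import Fermat.Agent.S59lib.AuxPrime.Remove
import Fermat.Agent.S56lib.TWSel.WeakCheb2

set_option autoImplicit false
set_option linter.unusedSectionVars false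
set_option linter.unusedVariables false
set_option linter.style.haveILetI false

open scoped TensorProduct

noncomputable section

namespace Fermat.Agent.S59lib.S3Proj

open ExtCitation Fermat.Agent.S56lib.TW Fermat.Agent.S44lib.Q1 Fermat.Agent.S58lib.Tate
open Fermat.Agent.S59lib.BigImg Polynomial Matrix

local notation "Qb" => AlgebraicClosure ℚ
local notation "GQ" => (AlgebraicClosure ℚ ≃ₐ[ℚ] AlgebraicClosure ℚ)

/-! ### Linear algebra -/

/-- a `2 × 2` matrix with trace `0` and determinant `-1` is an involution -/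
theorem mul_self_eq_one_of_trace_det {R : Type*} [CommRing R] (M : Matrix (Fin 2) (Fin 2) R)
    (ht : M.trace = 0) (hd : M.det = -1) : M * M = 1 := by
  rw [Matrix.trace_fin_two] at ht
  rw [Matrix.det_fin_two] at hd
  ext i j
  fin_cases i <;> fin_cases j
  · simp only [Fin.zero_eta, Fin.isValue, Matrix.mul_apply, Fin.sum_univ_two, Matrix.one_apply_eq]
    linear_combination (M 0 0) * ht - hd
  · simp only [Fin.zero_eta, Fin.isValue, Fin.mk_one, Matrix.mul_apply, Fin.sum_univ_two, ne_eq,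
      zero_ne_one, not_false_eq_true, Matrix.one_apply_ne]
    linear_combination (M 0 1) * ht
  · simp only [Fin.mk_one, Fin.isValue, Fin.zero_eta, Matrix.mul_apply, Fin.sum_univ_two, ne_eq,
      one_ne_zero, not_false_eq_true, Matrix.one_apply_ne]
    linear_combination (M 1 0) * ht
  · simp only [Fin.mk_one, Fin.isValue, Matrix.mul_apply, Fin.sum_univ_two, Matrix.one_apply_eq]
    linear_combination (M 1 1) * ht - hd

theorem zmod3_neg_one_ne_one : (-1 : ZMod 3) ≠ 1 := by decide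

theorem zmod3_cases (z : ZMod 3) (h1 : z ≠ 1) (h0 : z ≠ 0) : z = -1 := by
  revert z
  decide

theorem zmod3_neg_one_eq_two : (-1 : ZMod 3) = ((2 : ℕ) : ZMod 3) := by decide

/-- Cayley–Hamilton for `2 × 2` matrices -/
theorem mul_self_eq_of_fin_two {R : Type*} [CommRing R] (M : Matrix (Fin 2) (Fin 2) R) :
    M * M = M.trace • M - M.det • (1 : Matrix (Fin 2) (Fin 2) R) := by
  ext i j
  fin_cases i <;> fin_cases j <;>
    simp [Matrix.mul_apply, Fin.sum_univ_two, Matrix.trace_fin_two, Matrix.det_fin_two] <;> ring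

/-- an abelian image on a subgroup is reducible on that subgroup, over an algebraically closed field -/
theorem false_of_abelian_on {K : Type} [Field K] [IsAlgClosed K] (ρ : ResidualGaloisRep K)
    (G : Subgroup GQ)
    (hirr : ∀ V : Submodule K ρ.V, (∀ σ ∈ G, ∀ x ∈ V, ρ.ρ σ x ∈ V) → V = ⊥ ∨ V = ⊤)
    (hab : ∀ g ∈ G, ∀ h ∈ G, ρ.ρ g * ρ.ρ h = ρ.ρ h * ρ.ρ g) : False := by
  haveI : Module.Finite K ρ.V := Module.finite_of_finrank_eq_succ ρ.finrank_eq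
  haveI : Nontrivial ρ.V :=
    Module.nontrivial_of_finrank_pos (R := K) (by rw [ρ.finrank_eq]; norm_num)
  have hscal : ∀ g ∈ G, ∃ μ : K, ∀ x, ρ.ρ g x = μ • x := by
    intro g hg
    obtain ⟨μ, hμ⟩ := Module.End.exists_eigenvalue (ρ.ρ g)
    refine ⟨μ, ?_⟩
    have hstab : ∀ σ ∈ G, ∀ x ∈ Module.End.eigenspace (ρ.ρ g) μ,
        ρ.ρ σ x ∈ Module.End.eigenspace (ρ.ρ g) μ := by
      intro σ hσ x hx
      rw [Module.End.mem_eigenspace_iff] at hx ⊢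
      have := LinearMap.congr_fun (hab g hg σ hσ) x
      rw [Module.End.mul_apply, Module.End.mul_apply] at this
      rw [this, hx, map_smul]
    rcases hirr _ hstab with h | h
    · exact absurd h hμ
    · intro x
      have hx : x ∈ Module.End.eigenspace (ρ.ρ g) μ := by rw [h]; exact Submodule.mem_top
      exact Module.End.mem_eigenspace_iff.1 hx
  obtain ⟨x₁, hx₁⟩ := exists_ne (0 : ρ.V)
  have hstab : ∀ σ ∈ G, ∀ x ∈ (K ∙ x₁), ρ.ρ σ x ∈ (K ∙ x₁) := by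
    intro σ hσ x hx
    obtain ⟨μ, hμ⟩ := hscal σ hσ
    rw [hμ]
    exact Submodule.smul_mem _ _ hx
  rcases hirr _ hstab with h | h
  · exact hx₁ ((Submodule.span_singleton_eq_bot).1 h)
  · have h1 := finrank_span_singleton (K := K) hx₁
    rw [h, finrank_top, ρ.finrank_eq] at h1
    norm_num at h1

/-! ### An element with determinant `-1` and non-zero trace -/

section aux

variable (W : WeierstrassCurve ℤ) (hΔ : W.Δ ≠ 0)

theorem det_rhoE_three (σ : GQ) :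
    (rhoE W hΔ 3 σ).det = ((cycloChar 3 σ : (ZMod 3)ˣ) : ZMod 3) := by
  haveI : Fact (Nat.Prime 3) := ⟨Nat.prime_three⟩
  rw [← wRes_det W hΔ 3 σ]
  exact (LinearMap.det_toLin' (rhoE W hΔ 3 σ)).symm

include hΔ in
/-- **some `σ` has `det ρ̄(σ) = -1` and `tr ρ̄(σ) ≠ 0`** -/
theorem exists_neg_det_trace_ne (hss : W.IsSemistableModel) (hirr : W.ModRepIsIrreducible 3) :
    ∃ σ : GQ, (rhoE W hΔ 3 σ).det = -1 ∧ (rhoE W hΔ 3 σ).trace ≠ 0 := by
  classical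
  haveI : Fact (Nat.Prime 3) := ⟨Nat.prime_three⟩
  by_contra hcon
  push Not at hcon
  set ρ₀ := resRepE W hΔ 3 with hρ₀
  let K := AlgebraicClosure (ZMod 3)
  set G : Subgroup GQ := (cycloChar 3).ker with hG
  have hGidx : G.index = 2 := by
    rw [hG, Subgroup.index_ker, MonoidHom.range_eq_top.2 (cycloChar_surjective 3)]
    rw [Nat.card_congr (Subgroup.topEquiv (G := (ZMod 3)ˣ)).toEquiv, Nat.card_eq_fintype_card,
      ZMod.card_units_eq_totient, Nat.totient_prime Nat.prime_three]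
  -- involutions outside `G`
  have hinv : ∀ τ : GQ, cycloChar 3 τ = -1 → rhoE W hΔ 3 τ * rhoE W hΔ 3 τ = 1 := by
    intro τ hτ
    have hd : (rhoE W hΔ 3 τ).det = -1 := by
      rw [det_rhoE_three, hτ, Units.val_neg, Units.val_one]
    exact mul_self_eq_one_of_trace_det _ (hcon τ hd) hd
  obtain ⟨σ₀, hσ₀⟩ := cycloChar_surjective 3 (-1)
  have hσ₀2 : rhoE W hΔ 3 σ₀ * rhoE W hΔ 3 σ₀ = 1 := hinv σ₀ hσ₀
  -- conjugation by `σ₀` inverts `ρ̄(G)`
  have hconj : ∀ h ∈ G, rhoE W hΔ 3 σ₀ * rhoE W hΔ 3 h * rhoE W hΔ 3 σ₀ = rhoE W hΔ 3 h⁻¹ := by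
    intro h hh
    have hh1 : cycloChar 3 h = 1 := MonoidHom.mem_ker.1 hh
    have h1 := hinv (σ₀ * h) (by rw [map_mul, hσ₀, hh1, mul_one])
    rw [map_mul] at h1
    have h2 : rhoE W hΔ 3 h * rhoE W hΔ 3 h⁻¹ = 1 := by
      rw [← map_mul, mul_inv_cancel, map_one]
    calc rhoE W hΔ 3 σ₀ * rhoE W hΔ 3 h * rhoE W hΔ 3 σ₀
        = rhoE W hΔ 3 σ₀ * rhoE W hΔ 3 h * rhoE W hΔ 3 σ₀ *
            (rhoE W hΔ 3 h * rhoE W hΔ 3 h⁻¹) := by rw [h2, mul_one]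
      _ = (rhoE W hΔ 3 σ₀ * rhoE W hΔ 3 h * (rhoE W hΔ 3 σ₀ * rhoE W hΔ 3 h)) *
            rhoE W hΔ 3 h⁻¹ := by simp only [mul_assoc]
      _ = rhoE W hΔ 3 h⁻¹ := by rw [h1, one_mul]
  -- `ρ̄(G)` is abelian
  have hcomm : ∀ g ∈ G, ∀ h ∈ G, rhoE W hΔ 3 (g * h) = rhoE W hΔ 3 (h * g) := by
    intro g hg h hh
    have hgh : g * h ∈ G := G.mul_mem hg hh
    have e1 : rhoE W hΔ 3 (g * h)⁻¹ = rhoE W hΔ 3 (h * g)⁻¹ := by
      rw [← hconj _ hgh, map_mul]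
      have : rhoE W hΔ 3 σ₀ * (rhoE W hΔ 3 g * rhoE W hΔ 3 h) * rhoE W hΔ 3 σ₀ =
          (rhoE W hΔ 3 σ₀ * rhoE W hΔ 3 g * rhoE W hΔ 3 σ₀) *
            (rhoE W hΔ 3 σ₀ * rhoE W hΔ 3 h * rhoE W hΔ 3 σ₀) := by
        calc rhoE W hΔ 3 σ₀ * (rhoE W hΔ 3 g * rhoE W hΔ 3 h) * rhoE W hΔ 3 σ₀
            = rhoE W hΔ 3 σ₀ * rhoE W hΔ 3 g * 1 * (rhoE W hΔ 3 h * rhoE W hΔ 3 σ₀) := by
              simp only [mul_assoc, one_mul]
          _ = _ := by rw [← hσ₀2]; simp only [mul_assoc]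
      rw [this, hconj g hg, hconj h hh, ← map_mul, _root_.mul_inv_rev]
    have e2 : ∀ x y : GQ, rhoE W hΔ 3 x⁻¹ = rhoE W hΔ 3 y⁻¹ → rhoE W hΔ 3 x = rhoE W hΔ 3 y := by
      intro x y hxy
      calc rhoE W hΔ 3 x = rhoE W hΔ 3 x * (rhoE W hΔ 3 y⁻¹ * rhoE W hΔ 3 y) := by
              rw [← map_mul, inv_mul_cancel, map_one, mul_one]
        _ = rhoE W hΔ 3 x * rhoE W hΔ 3 x⁻¹ * rhoE W hΔ 3 y := by rw [← hxy, mul_assoc]
        _ = rhoE W hΔ 3 y := by rw [← map_mul, mul_inv_cancel, map_one, one_mul]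
    exact e2 _ _ e1
  -- contradiction with `hTW`
  have hirr₀ : ρ₀.IsIrreducible := wRes_isIrreducible W hΔ 3 hirr
  have hK : (ρ₀.baseChange K).IsIrreducible :=
    isIrreducible_baseChange_of_cyclo 3 (by decide) ρ₀ hirr₀ (wRes_det W hΔ 3) K
  refine false_of_abelian_on (ρ₀.baseChange K) G (fun V hV => ?_) ?_
  · exact hTW_three_core ρ₀ (wRes_det W hΔ 3)
      (fun q hq hq3 A hA σ hσ => wRes_unip W hΔ 3 hss (by decide) q hq hq3 A hA σ hσ) K hK G hGidx V hV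
  · intro g hg h hh
    have h1 : ρ₀.ρ (g * h) = ρ₀.ρ (h * g) := by
      rw [hρ₀, resRepE_ρ, resRepE_ρ, hcomm g hg h hh]
    rw [← map_mul, ← map_mul]
    show (ρ₀.ρ (g * h)).baseChange K = (ρ₀.ρ (h * g)).baseChange K
    rw [h1]

include hΔ in
/-- **the auxiliary prime `r₀ ≡ 2 (mod 3)`**: outside a given finite set, good for `W`, `3 ∤ a_{r₀}(W)`. -/
theorem exists_aux_prime_three (hss : W.IsSemistableModel) (hirr : W.ModRepIsIrreducible 3)
    (S₀ : Finset ℕ) :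
    ∃ r : ℕ, r.Prime ∧ r ∉ S₀ ∧ r % 3 = 2 ∧ ¬ (r : ℤ) ∣ W.Δ ∧ ¬ (3 : ℤ) ∣ W.apOfModel r := by
  classical
  haveI : Fact (Nat.Prime 3) := ⟨Nat.prime_three⟩
  obtain ⟨σ, hσd, hσt⟩ := exists_neg_det_trace_ne W hΔ hss hirr
  set ρ₀ := resRepE W hΔ 3 with hρ₀
  obtain ⟨L, hL, hLρ⟩ := ρ₀.factorsThroughFiniteLevel
  haveI := hL
  obtain ⟨F, hF⟩ : ∃ F : IntermediateField ℚ Qb, F = IntermediateField.normalClosure ℚ L Qb :=
    ⟨_, rfl⟩
  haveI : Normal ℚ F := by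
    rw [hF]
    exact normalClosure.normal _ _ _
  haveI : FiniteDimensional ℚ F := by
    rw [hF]
    exact normalClosure.is_finiteDimensional _ _ _
  haveI : IsGalois ℚ F := ⟨⟩
  have hLF : L ≤ F := by
    rw [hF]
    exact IntermediateField.le_normalClosure L
  have hρF : ∀ s : GQ, (∀ x ∈ F, s x = x) → rhoE W hΔ 3 s = 1 := by
    intro s hs
    have h1 : ρ₀.ρ s = 1 := hLρ s fun x hx => hs x (hLF hx)
    rw [hρ₀, resRepE_ρ] at h1
    have h2 : Matrix.toLin' (rhoE W hΔ 3 s) = Matrix.toLin' 1 := by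
      rw [Matrix.toLin'_one]
      exact h1
    exact Matrix.toLin'.injective h2
  obtain ⟨ℓ, A₀, φ₀, j, a, hℓ, hℓS₀, hA₀, hφ₀, hσφ, hφσ⟩ :=
    Fermat.Agent.S56lib.TWSel.exists_frobenius_zpowers_eq F σ
      (S₀ ∪ ({3} ∪ W.Δ.natAbs.primeFactors))
  rw [Finset.mem_union, not_or] at hℓS₀
  have hℓS2 := hℓS₀.2
  simp only [Finset.mem_union, Finset.mem_singleton, not_or] at hℓS2
  have hgood : ¬ (ℓ : ℤ) ∣ W.Δ := by
    intro hd
    apply hℓS2.2
    rw [Nat.mem_primeFactors]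
    exact ⟨hℓ, Int.natCast_dvd.mp hd, Int.natAbs_ne_zero.mpr hΔ⟩
  obtain ⟨ht, hd⟩ := trace_det_rhoE_frob W hΔ 3 hℓ hℓS2.1 hgood hA₀ hφ₀
  -- `ρ̄(σ) = ρ̄(φ₀)^j`
  have hσeq : rhoE W hΔ 3 σ = rhoE W hΔ 3 φ₀ ^ j := by
    have h1 : rhoE W hΔ 3 ((φ₀ ^ j)⁻¹ * σ) = 1 := by
      apply hρF
      intro x hx
      rw [AlgEquiv.mul_apply, hσφ x hx]
      exact (φ₀ ^ j).symm_apply_apply x
    have hσ' : σ = φ₀ ^ j * ((φ₀ ^ j)⁻¹ * σ) := by group
    conv_lhs => rw [hσ', map_mul, h1, mul_one, map_pow]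
  -- the determinant
  have hdet1 : (rhoE W hΔ 3 φ₀).det ≠ 1 := by
    intro h1
    have := congrArg Matrix.det hσeq
    rw [Matrix.det_pow, h1, one_pow, hσd] at this
    exact zmod3_neg_one_ne_one this
  have hℓ3 : ((ℓ : ℕ) : ZMod 3) = -1 := by
    rw [hd] at hdet1
    have h0 : ((ℓ : ℕ) : ZMod 3) ≠ 0 := by
      rw [Ne, ZMod.natCast_eq_zero_iff]
      intro h3
      exact hℓS2.1 ((Nat.prime_dvd_prime_iff_eq Nat.prime_three hℓ).1 h3).symm
    exact zmod3_cases _ hdet1 h0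
  have hmod : ℓ % 3 = 2 := by
    have h1 : ((ℓ : ℕ) : ZMod 3) = ((2 : ℕ) : ZMod 3) := by
      rw [hℓ3]
      exact zmod3_neg_one_eq_two
    have h2 := (ZMod.natCast_eq_natCast_iff' ℓ 2 3).1 h1
    omega
  -- the trace
  have htr : (rhoE W hΔ 3 φ₀).trace ≠ 0 := by
    intro h0
    have hd' : (rhoE W hΔ 3 φ₀).det = -1 := by rw [hd, hℓ3]
    have hφ2 : rhoE W hΔ 3 φ₀ * rhoE W hΔ 3 φ₀ = 1 := mul_self_eq_one_of_trace_det _ h0 hd'
    have hσ2 : rhoE W hΔ 3 σ * rhoE W hΔ 3 σ = 1 := by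
      rw [hσeq, ← pow_add, ← two_mul, pow_mul, pow_two, hφ2, one_pow]
    have hCH := mul_self_eq_of_fin_two (rhoE W hΔ 3 σ)
    rw [hσ2, hσd] at hCH
    have h3 : (rhoE W hΔ 3 σ).trace • rhoE W hΔ 3 σ = 0 := by
      have h6 := hCH
      rw [neg_smul, one_smul, sub_neg_eq_add] at h6
      exact (add_eq_right.1 h6.symm)
    have h4 := congrArg Matrix.det h3
    rw [Matrix.det_smul, hσd, Matrix.det_zero, Fintype.card_fin]
      at h4
    apply hσt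
    have h5 : (rhoE W hΔ 3 σ).trace ^ 2 = 0 := by
      have : (rhoE W hΔ 3 σ).trace ^ 2 * -1 = 0 := h4
      rwa [mul_neg, mul_one, neg_eq_zero] at this
    exact pow_eq_zero_iff (two_ne_zero) |>.1 h5
  refine ⟨ℓ, hℓ, hℓS₀.1, hmod, hgood, fun h3 => htr ?_⟩
  rw [ht]
  exact (ZMod.intCast_zmod_eq_zero_iff_dvd _ 3).2 (by exact_mod_cast h3)

end aux

/-! ### The block -/

/-- **`LLsqBlock` at `(p, q) = (3, 2)`.** -/
theorem llsqBlock_three_two (W : WeierstrassCurve ℤ) (hΔ : W.Δ ≠ 0) (hss : W.IsSemistableModel)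
    (hirr : W.ModRepIsIrreducible 3) (M : ℕ) (hM : 0 < M) (h4 : 2 ^ 2 ∣ M) (h8 : ¬ 2 ^ 3 ∣ M)
    (hmod : W.IsResiduallyModularOfLevel 3 M) : W.IsResiduallyModularOfLevel 3 (M / 2) := by
  classical
  obtain ⟨M'', rfl⟩ := h4
  have hM''pos : 0 < M'' := by
    rcases Nat.eq_zero_or_pos M'' with h | h
    · rw [h] at hM
      simp at hM
    · exact h
  have hM''odd : Odd M'' := by
    rw [← Nat.not_even_iff_odd]
    rintro ⟨c, hc⟩
    apply h8
    exact ⟨c, by rw [hc]; ring⟩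
  obtain ⟨r, hr, hrS, hr3, hrΔ, hra⟩ := exists_aux_prime_three W hΔ hss hirr
    ((2 ^ 2 * M'').primeFactors ∪ {3})
  rw [Finset.mem_union, not_or, Finset.mem_singleton] at hrS
  have hrM : ¬ r ∣ 2 ^ 2 * M'' := fun hd => hrS.1 (Nat.mem_primeFactors.2 ⟨hr, hd, hM.ne'⟩)
  have hr2 : r ≠ 2 := by
    rintro rfl
    exact hrM (Dvd.intro _ (by ring_nf : 2 * (2 * M'') = 2 ^ 2 * M''))
  have hrodd : Odd r := hr.odd_of_ne_two hr2
  -- add `r`
  have h1 : W.IsResiduallyModularOfLevel 3 (2 ^ 2 * M'' * r) :=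
    Fermat.Agent.S59lib.AuxPrime.isResiduallyModularOfLevel_mul hM.ne' hr.ne_zero hmod
  have e1 : 2 ^ 2 * M'' * r = 4 * (M'' * r) := by ring
  rw [e1] at h1
  -- lower `4 → 2`
  have h2 : W.IsResiduallyModularOfLevel 3 (2 * (M'' * r)) :=
    llsqTwoThree W hΔ hirr (M'' * r) (Nat.mul_pos hM''pos hr.pos) (hM''odd.mul hrodd)
      ⟨r, hr, Dvd.intro_left _ rfl, hr3⟩ h1
  have e2 : 2 * (M'' * r) = 2 * M'' * r := by ring
  rw [e2] at h2
  -- remove `r`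
  have hrM2 : ¬ r ∣ 2 * M'' := by
    intro hd
    apply hrM
    have : 2 ^ 2 * M'' = 2 * (2 * M'') := by ring
    rw [this]
    exact Dvd.dvd.mul_left hd 2
  have hlev : ¬ (((3 : ℕ) : ℤ)) ∣ W.apOfModel r ^ 2 - ((r : ℤ) + 1) ^ 2 := by
    intro hd
    have h3r : (3 : ℤ) ∣ (r : ℤ) + 1 := by
      have h3r' : 3 ∣ r + 1 := by omega
      have : ((3 : ℕ) : ℤ) ∣ ((r + 1 : ℕ) : ℤ) := Int.natCast_dvd_natCast.2 h3r'
      push_cast at this
      exact this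
    have h3a2 : (3 : ℤ) ∣ W.apOfModel r ^ 2 := by
      have := dvd_add hd (Dvd.dvd.mul_left h3r ((r : ℤ) + 1))
      have e : W.apOfModel r ^ 2 - ((r : ℤ) + 1) ^ 2 + ((r : ℤ) + 1) * ((r : ℤ) + 1) =
          W.apOfModel r ^ 2 := by ring
      rw [e] at this
      exact_mod_cast this
    exact hra (Int.Prime.dvd_pow' Nat.prime_three h3a2)
  have h3 := Fermat.Agent.S59lib.AuxPrime.removeAux 3 Nat.prime_three W hΔ (2 * M'') r
    (Nat.mul_ne_zero two_ne_zero hM''pos.ne') hr hrM2 (fun h => by rw [h] at hr3; omega) hrΔ hlev h2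
  have e3 : 2 ^ 2 * M'' / 2 = 2 * M'' := by
    have : 2 ^ 2 * M'' = 2 * M'' * 2 := by ring
    rw [this, Nat.mul_div_cancel _ (by norm_num : 0 < 2)]
  rw [e3]
  exact h3

end Fermat.Agent.S59lib.S3Proj
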