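/-
S59lib / S3Proj / Mods  (helper3) — Project I, item R7a (`S₃`-dévissage at the prime `2` for `p = 3`).

Coefficient modules for the dévissage: for a group `G`, a character `χ : G →* ℤˣ` and a `G`-set `X`,
* `TwMod χ A` : `A` with the action `g • a = χ g • a`;
* `FunTw χ X A` : functions `X → A` with the action `(g • f) x = χ g • f (g⁻¹ • x)`;
and the equivariant maps between them: constants, summation, reduction of the coefficients, and for a point
`x₀ : X` whose stabiliser is `{1, s}` with `sgn s = -1` the exact sequence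
`0 → FunTw sgn X A → FunTw 1 G A → FunTw 1 X A → 0`.
-/
import Mathlib
import Fermat.Agent.S43lib.B1.ZCoh

set_option autoImplicit false
set_option linter.unusedSectionVars false
set_option linter.unusedVariables false

noncomputable section

namespace Fermat.Agent.S59lib.S3Proj

open Fermat.Agent.S43lib.B1

/-! ### The twisted trivial module -/

/-- `A` with the action `g • a = χ g • a` -/
def TwMod {G : Type} [Group G] (χ : G →* ℤˣ) (A : Type) : Type := A

namespace TwMod

variable {G : Type} [Group G] {χ : G →* ℤˣ} {A : Type} [AddCommGroup A]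

instance : AddCommGroup (TwMod χ A) := inferInstanceAs (AddCommGroup A)

instance {R : Type*} [Semiring R] [Module R A] : Module R (TwMod χ A) :=
  inferInstanceAs (Module R A)

/-- the underlying element -/
def out (a : TwMod χ A) : A := a

/-- the element of the twisted module -/
def mk (χ : G →* ℤˣ) (a : A) : TwMod χ A := a

instance : DistribMulAction G (TwMod χ A) where
  smul g a := mk χ (((χ g : ℤˣ) : ℤ) • out a)
  one_smul a := by
    show ((χ 1 : ℤˣ) : ℤ) • out a = a
    rw [map_one, Units.val_one, one_smul]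
    rfl
  mul_smul g h a := by
    show ((χ (g * h) : ℤˣ) : ℤ) • out a = ((χ g : ℤˣ) : ℤ) • (((χ h : ℤˣ) : ℤ) • out a)
    rw [map_mul, Units.val_mul, mul_smul]
  smul_zero g := by
    show ((χ g : ℤˣ) : ℤ) • (0 : A) = 0
    rw [smul_zero]
  smul_add g a b := by
    show ((χ g : ℤˣ) : ℤ) • (out a + out b) = ((χ g : ℤˣ) : ℤ) • out a + ((χ g : ℤˣ) : ℤ) • out b
    rw [smul_add]

theorem smul_def (g : G) (a : TwMod χ A) : g • a = mk χ (((χ g : ℤˣ) : ℤ) • out a) := rfl

instance {R : Type*} [Semiring R] [Module R A] : SMulCommClass G R (TwMod χ A) :=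
  ⟨fun g r a => by
    show ((χ g : ℤˣ) : ℤ) • (r • out a) = r • (((χ g : ℤˣ) : ℤ) • out a)
    rw [smul_comm]⟩

instance {R : Type*} [Semiring R] [Module R A] [Module.Finite R A] : Module.Finite R (TwMod χ A) :=
  inferInstanceAs (Module.Finite R A)

end TwMod

/-! ### Twisted functions on a `G`-set -/

/-- functions on a `G`-set `X` with the action `(g • f) x = χ g • f (g⁻¹ • x)` -/
structure FunTw {G : Type} [Group G] (χ : G →* ℤˣ) (X : Type) (A : Type) where
  /-- the underlying function -/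
  toFun : X → A

namespace FunTw

variable {G : Type} [Group G] {χ : G →* ℤˣ} {X A : Type}

instance : CoeFun (FunTw χ X A) (fun _ => X → A) := ⟨FunTw.toFun⟩

/-- the identification with functions -/
def equiv : FunTw χ X A ≃ (X → A) := ⟨FunTw.toFun, FunTw.mk, fun _ => rfl, fun _ => rfl⟩

@[ext] theorem ext {f f' : FunTw χ X A} (h : ∀ x, f x = f' x) : f = f' := by
  cases f; cases f'
  congr 1
  exact funext h

@[simp] theorem mk_apply (f : X → A) (x : X) : (FunTw.mk f : FunTw χ X A) x = f x := rfl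

variable [AddCommGroup A]

instance : AddCommGroup (FunTw χ X A) := equiv.addCommGroup

instance {R : Type*} [Semiring R] [Module R A] : Module R (FunTw χ X A) := equiv.module R

@[simp] theorem add_apply (f f' : FunTw χ X A) (x : X) : (f + f') x = f x + f' x := rfl
@[simp] theorem zero_apply (x : X) : (0 : FunTw χ X A) x = 0 := rfl
@[simp] theorem neg_apply (f : FunTw χ X A) (x : X) : (-f) x = -f x := rfl
@[simp] theorem sub_apply (f f' : FunTw χ X A) (x : X) : (f - f') x = f x - f' x := rfl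
@[simp] theorem smul_apply' {R : Type*} [Semiring R] [Module R A] (r : R) (f : FunTw χ X A) (x : X) :
    (r • f) x = r • f x := rfl

variable [MulAction G X]

instance : DistribMulAction G (FunTw χ X A) where
  smul g f := ⟨fun x => ((χ g : ℤˣ) : ℤ) • f (g⁻¹ • x)⟩
  one_smul f := by
    ext x
    show ((χ 1 : ℤˣ) : ℤ) • f ((1 : G)⁻¹ • x) = f x
    rw [map_one, Units.val_one, one_smul, inv_one, one_smul]
  mul_smul g h f := by
    ext x
    show ((χ (g * h) : ℤˣ) : ℤ) • f ((g * h)⁻¹ • x) =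
      ((χ g : ℤˣ) : ℤ) • (((χ h : ℤˣ) : ℤ) • f (h⁻¹ • g⁻¹ • x))
    rw [map_mul, Units.val_mul, mul_smul, mul_inv_rev, mul_smul]
  smul_zero g := by
    ext x
    show ((χ g : ℤˣ) : ℤ) • (0 : A) = 0
    rw [smul_zero]
  smul_add g f f' := by
    ext x
    show ((χ g : ℤˣ) : ℤ) • (f (g⁻¹ • x) + f' (g⁻¹ • x)) =
      ((χ g : ℤˣ) : ℤ) • f (g⁻¹ • x) + ((χ g : ℤˣ) : ℤ) • f' (g⁻¹ • x)
    rw [smul_add]

@[simp] theorem smul_apply (g : G) (f : FunTw χ X A) (x : X) :
    (g • f) x = ((χ g : ℤˣ) : ℤ) • f (g⁻¹ • x) := rfl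

instance {R : Type*} [Semiring R] [Module R A] : SMulCommClass G R (FunTw χ X A) :=
  ⟨fun g r f => by
    ext x
    show ((χ g : ℤˣ) : ℤ) • (r • f (g⁻¹ • x)) = r • (((χ g : ℤˣ) : ℤ) • f (g⁻¹ • x))
    rw [smul_comm]⟩

instance {R : Type*} [Semiring R] [Module R A] [Module.Finite R A] [Finite X] :
    Module.Finite R (FunTw χ X A) :=
  Module.Finite.equiv (Equiv.linearEquiv R (equiv (χ := χ) (X := X) (A := A))).symm

end FunTw

/-! ### The equivariant maps -/

section maps

variable {G : Type} [Group G] (χ : G →* ℤˣ) (X : Type) [MulAction G X]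
variable (R : Type) [CommRing R] (A : Type) [AddCommGroup A] [Module R A]

/-- the constant functions -/
def constMap : TwMod χ A →ₗ[R] FunTw χ X A where
  toFun a := ⟨fun _ => TwMod.out a⟩
  map_add' _ _ := rfl
  map_smul' _ _ := rfl

theorem constMap_apply (a : TwMod χ A) (x : X) : constMap χ X R A a x = TwMod.out a := rfl

theorem isEquivar_constMap : IsEquivar G (constMap χ X R A) := fun g a => by
  ext x
  rfl

theorem constMap_injective [Nonempty X] : Function.Injective (constMap χ X R A) := by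
  intro a b h
  obtain ⟨x⟩ := ‹Nonempty X›
  exact congrArg (fun f : FunTw χ X A => f x) h

variable [Fintype X]

/-- summation over `X` -/
def sumMap : FunTw χ X A →ₗ[R] TwMod χ A where
  toFun f := TwMod.mk χ (∑ x, f x)
  map_add' f f' := by
    show ∑ x, (f x + f' x) = ∑ x, f x + ∑ x, f' x
    rw [Finset.sum_add_distrib]
  map_smul' r f := by
    show ∑ x, r • f x = r • ∑ x, f x
    rw [Finset.smul_sum]

theorem sumMap_apply (f : FunTw χ X A) : TwMod.out (sumMap χ X R A f) = ∑ x, f x := rfl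

theorem isEquivar_sumMap : IsEquivar G (sumMap χ X R A) := fun g f => by
  show ∑ x, ((χ g : ℤˣ) : ℤ) • f (g⁻¹ • x) = ((χ g : ℤˣ) : ℤ) • ∑ x, f x
  rw [← Finset.smul_sum]
  congr 1
  exact Equiv.sum_comp (MulAction.toPerm g⁻¹) (fun x => f x)

theorem sumMap_surjective [DecidableEq X] [Nonempty X] : Function.Surjective (sumMap χ X R A) := by
  intro a
  obtain ⟨x₀⟩ := ‹Nonempty X›
  refine ⟨⟨fun x => if x = x₀ then TwMod.out a else 0⟩, ?_⟩
  show ∑ x, (if x = x₀ then TwMod.out a else 0) = a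
  rw [Finset.sum_ite_eq' Finset.univ x₀]
  simp
  rfl

end maps

/-! ### Reduction of the coefficients -/

section red

variable {G : Type} [Group G] (χ : G →* ℤˣ) (X : Type) [MulAction G X]
variable (R : Type) [CommRing R] {A B : Type} [AddCommGroup A] [Module R A] [AddCommGroup B]
  [Module R B]

/-- composition of the values with a linear map -/
def mapCoef (u : A →ₗ[R] B) : FunTw χ X A →ₗ[R] FunTw χ X B where
  toFun f := ⟨fun x => u (f x)⟩
  map_add' f f' := by
    ext x
    show u (f x + f' x) = u (f x) + u (f' x)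
    rw [map_add]
  map_smul' r f := by
    ext x
    show u (r • f x) = r • u (f x)
    rw [map_smul]

theorem mapCoef_apply (u : A →ₗ[R] B) (f : FunTw χ X A) (x : X) : mapCoef χ X R u f x = u (f x) := rfl

theorem isEquivar_mapCoef (u : A →ₗ[R] B) : IsEquivar G (mapCoef χ X R u) := fun g f => by
  ext x
  show u (((χ g : ℤˣ) : ℤ) • f (g⁻¹ • x)) = ((χ g : ℤˣ) : ℤ) • u (f (g⁻¹ • x))
  rw [map_zsmul]

theorem mapCoef_surjective {u : A →ₗ[R] B} (hu : Function.Surjective u) :
    Function.Surjective (mapCoef χ X R u) := by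
  intro f
  choose l hl using hu
  exact ⟨⟨fun x => l (f x)⟩, by ext x; exact hl _⟩

theorem mapCoef_injective {u : A →ₗ[R] B} (hu : Function.Injective u) :
    Function.Injective (mapCoef χ X R u) := by
  intro f f' h
  ext x
  exact hu (congrArg (fun k : FunTw χ X B => k x) h)

end red

/-! ### The regular module as an extension -/

section reg

variable {G : Type} [Group G] [Fintype G] [DecidableEq G] (sgn : G →* ℤˣ)
variable (X : Type) [MulAction G X] [DecidableEq X] (x₀ : X)
variable (R : Type) [CommRing R] (A : Type) [AddCommGroup A] [Module R A]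

/-- `h ↦ (g ↦ sgn g • h (g • x₀))` -/
def jMap : FunTw sgn X A →ₗ[R] FunTw (1 : G →* ℤˣ) G A where
  toFun h := ⟨fun g => ((sgn g : ℤˣ) : ℤ) • h (g • x₀)⟩
  map_add' h h' := by
    ext g
    show ((sgn g : ℤˣ) : ℤ) • (h (g • x₀) + h' (g • x₀)) = _
    rw [smul_add]
    rfl
  map_smul' r h := by
    ext g
    show ((sgn g : ℤˣ) : ℤ) • (r • h (g • x₀)) = r • (((sgn g : ℤˣ) : ℤ) • h (g • x₀))
    rw [smul_comm]

theorem jMap_apply (h : FunTw sgn X A) (g : G) :
    jMap sgn X x₀ R A h g = ((sgn g : ℤˣ) : ℤ) • h (g • x₀) := rfl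

theorem units_int_mul_self (u : ℤˣ) : ((u : ℤ)) * (u : ℤ) = 1 := by
  rcases Int.units_eq_one_or u with h | h <;> simp [h]

theorem isEquivar_jMap : IsEquivar G (jMap sgn X x₀ R A) := fun a h => by
  ext g
  show ((sgn g : ℤˣ) : ℤ) • (((sgn a : ℤˣ) : ℤ) • h (a⁻¹ • g • x₀)) =
    (((1 : G →* ℤˣ) a : ℤˣ) : ℤ) • (((sgn (a⁻¹ • g) : ℤˣ) : ℤ) • h ((a⁻¹ • g) • x₀))
  rw [MonoidHom.one_apply, Units.val_one, one_smul, smul_eq_mul, map_mul, map_inv, Units.val_mul,
    mul_smul, ← mul_smul, ← mul_smul, ← mul_smul]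
  congr 1
  have h1 : (((sgn a)⁻¹ : ℤˣ) : ℤ) = ((sgn a : ℤˣ) : ℤ) := by
    rw [Int.units_inv_eq_self]
  rw [h1, mul_comm]

/-- summation over the fibres of `g ↦ g • x₀` -/
def pushMap : FunTw (1 : G →* ℤˣ) G A →ₗ[R] FunTw (1 : G →* ℤˣ) X A where
  toFun f := ⟨fun x => ∑ g, if g • x₀ = x then f g else 0⟩
  map_add' f f' := by
    ext x
    show (∑ g, if g • x₀ = x then (f g + f' g) else 0) =
      (∑ g, if g • x₀ = x then f g else 0) + ∑ g, if g • x₀ = x then f' g else 0
    rw [← Finset.sum_add_distrib]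
    refine Finset.sum_congr rfl fun g _ => ?_
    split_ifs <;> simp
  map_smul' r f := by
    ext x
    show (∑ g, if g • x₀ = x then r • f g else 0) = r • ∑ g, if g • x₀ = x then f g else 0
    rw [Finset.smul_sum]
    refine Finset.sum_congr rfl fun g _ => ?_
    split_ifs <;> simp

theorem pushMap_apply (f : FunTw (1 : G →* ℤˣ) G A) (x : X) :
    pushMap (G := G) X x₀ R A f x = ∑ g, if g • x₀ = x then f g else 0 := rfl

theorem isEquivar_pushMap : IsEquivar G (pushMap (G := G) X x₀ R A) := fun a f => by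
  ext x
  show (∑ g, if g • x₀ = x then (((1 : G →* ℤˣ) a : ℤˣ) : ℤ) • f (a⁻¹ • g) else 0) =
    (((1 : G →* ℤˣ) a : ℤˣ) : ℤ) • ∑ g, if g • x₀ = a⁻¹ • x then f g else 0
  rw [MonoidHom.one_apply, Units.val_one, one_smul]
  simp only [one_smul]
  rw [← Equiv.sum_comp (Equiv.mulLeft a) (fun g => if g • x₀ = x then f (a⁻¹ • g) else 0)]
  refine Finset.sum_congr rfl fun g _ => ?_
  have h1 : (Equiv.mulLeft a g) • x₀ = x ↔ g • x₀ = a⁻¹ • x := by
    rw [Equiv.coe_mulLeft, mul_smul, eq_inv_smul_iff]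
  have h2 : a⁻¹ • (Equiv.mulLeft a g) = g := by
    rw [Equiv.coe_mulLeft, smul_eq_mul, inv_mul_cancel_left]
  by_cases h : g • x₀ = a⁻¹ • x
  · rw [if_pos h, if_pos (h1.2 h), h2]
  · rw [if_neg h, if_neg (fun h' => h (h1.1 h'))]

end reg

end Fermat.Agent.S59lib.S3Proj
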