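/-
S59lib / S3Proj / Seq  (helper3) — Project I, item R7a.

The exact sequences of the `S₃`-dévissage.
* `0 → FunTw sgn X A → FunTw 1 G A → FunTw 1 X A → 0` for a point `x₀ : X` with stabiliser `{1, s}`, `sgn s = -1`,
  and a transitive action;
* for `|X| = 3` (`e : X ≃ Fin 3`), `sgn` the sign of the permutation of `X`, and coefficients `k` killed by `3`:
  `0 → TwMod χ k → Aug χ → TwMod χ' k → 0` (`χ' = χ · sgn`), `Aug χ = ker (sumMap)`, with the map
  `lamMap : f ↦ f (e⁻¹ 1) - f (e⁻¹ 2)`.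
-/
import Fermat.Agent.S59lib.S3Proj.Mods
import Fermat.Agent.S43lib.B1.RExact

set_option autoImplicit false
set_option linter.unusedSectionVars false
set_option linter.unusedVariables false
set_option linter.style.haveILetI false

noncomputable section

namespace Fermat.Agent.S59lib.S3Proj

open Fermat.Agent.S43lib.B1

/-! ### The regular module -/

section reg

variable {G : Type} [Group G] [Fintype G] [DecidableEq G] (sgn : G →* ℤˣ)
variable (X : Type) [MulAction G X] [DecidableEq X] (x₀ : X)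
variable (R : Type) [CommRing R] (A : Type) [AddCommGroup A] [Module R A]
variable (s : G) (hs1 : s ≠ 1) (hsgn : sgn s = -1)
  (hfib : ∀ g h : G, h • x₀ = g • x₀ ↔ (h = g ∨ h = g * s))
  (htr : ∀ x : X, ∃ g : G, g • x₀ = x)

include htr in
theorem jMap_injective : Function.Injective (jMap sgn X x₀ R A) := by
  intro h h' hh
  ext x
  obtain ⟨g, rfl⟩ := htr x
  have h1 := congrArg (fun f : FunTw (1 : G →* ℤˣ) G A => ((sgn g : ℤˣ) : ℤ) • f g) hh
  simp only [jMap_apply, ← mul_smul, units_int_mul_self, one_smul] at h1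
  exact h1

include hs1 hfib in
/-- a sum over a fibre of `g ↦ g • x₀` -/
theorem sum_fibre (φ : G → A) (g : G) :
    (∑ h, if h • x₀ = g • x₀ then φ h else 0) = φ g + φ (g * s) := by
  have hne : g ≠ g * s := fun h => hs1 (by
    have := mul_left_cancel (a := g) (b := 1) (c := s) (by rw [mul_one]; exact h)
    exact this.symm)
  have h1 : ∀ h : G, (if h • x₀ = g • x₀ then φ h else 0) =
      (if h = g then φ h else 0) + (if h = g * s then φ h else 0) := by
    intro h
    by_cases hg : h = g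
    · have : h ≠ g * s := fun h' => hne (hg.symm.trans h')
      rw [if_pos ((hfib g h).2 (Or.inl hg)), if_pos hg, if_neg this, add_zero]
    · by_cases hgs : h = g * s
      · rw [if_pos ((hfib g h).2 (Or.inr hgs)), if_neg hg, if_pos hgs, zero_add]
      · have : ¬ h • x₀ = g • x₀ := fun h' => by
          rcases (hfib g h).1 h' with h'' | h''
          · exact hg h''
          · exact hgs h''
        rw [if_neg this, if_neg hg, if_neg hgs, add_zero]
  simp_rw [h1]
  rw [Finset.sum_add_distrib, Finset.sum_ite_eq' Finset.univ g, Finset.sum_ite_eq' Finset.univ (g * s)]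
  simp

include hs1 hsgn hfib htr in
theorem pushMap_jMap (h : FunTw sgn X A) : pushMap (G := G) X x₀ R A (jMap sgn X x₀ R A h) = 0 := by
  ext x
  obtain ⟨g, rfl⟩ := htr x
  rw [pushMap_apply, sum_fibre X x₀ A s hs1 hfib (fun h' => jMap sgn X x₀ R A h h') g]
  simp only [jMap_apply]
  have h1 : (g * s) • x₀ = g • x₀ := (hfib g (g * s)).2 (Or.inr rfl)
  rw [h1, map_mul, hsgn, Units.val_mul, Units.val_neg, Units.val_one, mul_neg, mul_one, neg_smul,
    add_neg_cancel]
  rfl

include hs1 hsgn hfib htr in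
theorem pushMap_eq_zero_iff (f : FunTw (1 : G →* ℤˣ) G A) :
    pushMap (G := G) X x₀ R A f = 0 ↔ ∃ h, jMap sgn X x₀ R A h = f := by
  constructor
  · intro hf
    choose rep hrep using htr
    refine ⟨⟨fun x => ((sgn (rep x) : ℤˣ) : ℤ) • f (rep x)⟩, ?_⟩
    ext g
    rw [jMap_apply]
    show ((sgn g : ℤˣ) : ℤ) • (((sgn (rep (g • x₀)) : ℤˣ) : ℤ) • f (rep (g • x₀))) = f g
    have h0 := congrArg (fun k : FunTw (1 : G →* ℤˣ) X A => k (g • x₀)) hf
    simp only [pushMap_apply, FunTw.zero_apply] at h0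
    rw [sum_fibre X x₀ A s hs1 hfib (fun h' => f h') g] at h0
    rcases (hfib g (rep (g • x₀))).1 (hrep (g • x₀)) with h1 | h1
    · rw [h1, ← mul_smul, units_int_mul_self, one_smul]
    · rw [h1, map_mul, hsgn, Units.val_mul, Units.val_neg, Units.val_one, mul_neg, mul_one,
        ← mul_smul, mul_neg, units_int_mul_self, neg_smul, one_smul]
      exact (eq_neg_of_add_eq_zero_left h0).symm
  · rintro ⟨h, rfl⟩
    exact pushMap_jMap sgn X x₀ R A s hs1 hsgn hfib htr h

include hs1 hfib htr in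
theorem pushMap_surjective : Function.Surjective (pushMap (G := G) X x₀ R A) := by
  intro k
  choose rep hrep using htr
  refine ⟨⟨fun g => if g = rep (g • x₀) then k (g • x₀) else 0⟩, ?_⟩
  ext x
  rw [pushMap_apply, ← hrep x,
    sum_fibre X x₀ A s hs1 hfib (fun g => if g = rep (g • x₀) then k (g • x₀) else 0) (rep x)]
  have h1 : (rep x * s) • x₀ = rep x • x₀ := (hfib (rep x) (rep x * s)).2 (Or.inr rfl)
  have h2 : rep (rep x • x₀) = rep x := by rw [hrep x]
  have hne : rep x * s ≠ rep x := fun h => hs1 (by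
    have := mul_left_cancel (a := rep x) (b := s) (c := 1) (by rw [mul_one]; exact h)
    exact this)
  show (if rep x = rep (rep x • x₀) then k (rep x • x₀) else 0) +
    (if rep x * s = rep ((rep x * s) • x₀) then k ((rep x * s) • x₀) else 0) = k (rep x • x₀)
  rw [h1, h2, if_pos rfl, if_neg hne, add_zero]

end reg

/-! ### The augmentation module for `|X| = 3` -/

section aug

variable {G : Type} [Group G] (χ χ' : G →* ℤˣ) (X : Type) [MulAction G X] [Fintype X] [DecidableEq X]
variable (e : X ≃ Fin 3)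
variable (R : Type) [CommRing R] (k : Type) [AddCommGroup k] [Module R k]

theorem augStable : ∀ (g : G), ∀ w ∈ LinearMap.ker (sumMap χ X R k), g • w ∈ LinearMap.ker (sumMap χ X R k) := by
  intro g w hw
  rw [LinearMap.mem_ker] at hw ⊢
  rw [isEquivar_sumMap χ X R k g w, hw, smul_zero]

/-- the augmentation module: functions of sum zero -/
abbrev Aug : Type := SubG (LinearMap.ker (sumMap χ X R k)) (augStable χ X R k)

variable (h3 : ∀ a : k, (3 : ℤ) • a = 0)

include h3 in
theorem const_mem_aug (e : X ≃ Fin 3) (a : TwMod χ k) : constMap χ X R k a ∈ LinearMap.ker (sumMap χ X R k) := by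
  rw [LinearMap.mem_ker]
  show ∑ x : X, TwMod.out a = 0
  rw [Finset.sum_const, Finset.card_univ, Fintype.card_congr e, Fintype.card_fin]
  have := h3 (TwMod.out a)
  rw [← natCast_zsmul] 
  exact this

/-- constants in the augmentation module -/
def constAug : TwMod χ k →ₗ[R] Aug χ X R k :=
  SubG.lift (LinearMap.ker (sumMap χ X R k)) (augStable χ X R k) (constMap χ X R k)
    (const_mem_aug χ X R k h3 e)

theorem isEquivar_constAug : IsEquivar G (constAug χ X e R k h3) :=
  SubG.isEquivar_lift _ _ (isEquivar_constMap χ X R k) _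

theorem constAug_injective : Function.Injective (constAug χ X e R k h3) := by
  intro a b h
  have h1 := congrArg (SubG.incl (LinearMap.ker (sumMap χ X R k)) (augStable χ X R k)) h
  unfold constAug at h1
  rw [SubG.incl_lift, SubG.incl_lift] at h1
  haveI : Nonempty X := ⟨e.symm 0⟩
  exact constMap_injective χ X R k h1

/-- `f ↦ f (e⁻¹ 1) - f (e⁻¹ 2)` -/
def lamMap : Aug χ X R k →ₗ[R] TwMod χ' k where
  toFun f := TwMod.mk χ' ((SubG.incl _ _ f : FunTw χ X k) (e.symm 1) -
    (SubG.incl _ _ f : FunTw χ X k) (e.symm 2))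
  map_add' f f' := by
    show ((SubG.incl _ _ f : FunTw χ X k) (e.symm 1) + (SubG.incl _ _ f' : FunTw χ X k) (e.symm 1)) -
      ((SubG.incl _ _ f : FunTw χ X k) (e.symm 2) + (SubG.incl _ _ f' : FunTw χ X k) (e.symm 2)) =
      ((SubG.incl _ _ f : FunTw χ X k) (e.symm 1) - (SubG.incl _ _ f : FunTw χ X k) (e.symm 2)) +
      ((SubG.incl _ _ f' : FunTw χ X k) (e.symm 1) - (SubG.incl _ _ f' : FunTw χ X k) (e.symm 2))
    abel
  map_smul' r f := by
    show r • (SubG.incl _ _ f : FunTw χ X k) (e.symm 1) - r • (SubG.incl _ _ f : FunTw χ X k) (e.symm 2) =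
      r • ((SubG.incl _ _ f : FunTw χ X k) (e.symm 1) - (SubG.incl _ _ f : FunTw χ X k) (e.symm 2))
    rw [smul_sub]

theorem lamMap_apply (f : Aug χ X R k) :
    TwMod.out (lamMap χ χ' X e R k f) = (SubG.incl _ _ f : FunTw χ X k) (e.symm 1) -
      (SubG.incl _ _ f : FunTw χ X k) (e.symm 2) := rfl

/-- the sum of a function on `X` through `e` -/
theorem sum_eq_three (φ : X → k) : ∑ x, φ x = φ (e.symm 0) + φ (e.symm 1) + φ (e.symm 2) := by
  rw [← Equiv.sum_comp e.symm φ, Fin.sum_univ_three]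

end aug

/-! ### The map `lamMap` -/

open Equiv in
/-- the six permutations of `Fin 3` -/
theorem perm3_cases (τ : Perm (Fin 3)) :
    (Perm.sign τ = 1 ∧ ((τ⁻¹ 1 = 1 ∧ τ⁻¹ 2 = 2) ∨ (τ⁻¹ 1 = 2 ∧ τ⁻¹ 2 = 0) ∨ (τ⁻¹ 1 = 0 ∧ τ⁻¹ 2 = 1))) ∨
    (Perm.sign τ = -1 ∧ ((τ⁻¹ 1 = 2 ∧ τ⁻¹ 2 = 1) ∨ (τ⁻¹ 1 = 0 ∧ τ⁻¹ 2 = 2) ∨ (τ⁻¹ 1 = 1 ∧ τ⁻¹ 2 = 0))) := by
  revert τ
  decide

open Equiv in
/-- the key identity: on functions of sum zero with values killed by `3`, `φ ↦ φ 1 - φ 2` is `sign`-equivariant -/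
theorem perm3_lam {k : Type} [AddCommGroup k] (h3 : ∀ a : k, (3 : ℤ) • a = 0) (τ : Perm (Fin 3))
    (φ : Fin 3 → k) (hφ : φ 0 + φ 1 + φ 2 = 0) :
    φ (τ⁻¹ 1) - φ (τ⁻¹ 2) = ((Perm.sign τ : ℤˣ) : ℤ) • (φ 1 - φ 2) := by
  have h0 := h3 (φ 0)
  have h1 := h3 (φ 1)
  have h2 := h3 (φ 2)
  rcases perm3_cases τ with ⟨hs, h | h | h⟩ | ⟨hs, h | h | h⟩
  · rw [hs, h.1, h.2, Units.val_one, one_smul]
  · rw [hs, h.1, h.2, Units.val_one, one_smul, ← sub_eq_zero]
    have : φ 2 - φ 0 - (φ 1 - φ 2) = (3 : ℤ) • φ 2 - (φ 0 + φ 1 + φ 2) := by abel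
    rw [this, h2, hφ, sub_zero]
  · rw [hs, h.1, h.2, Units.val_one, one_smul, ← sub_eq_zero]
    have : φ 0 - φ 1 - (φ 1 - φ 2) = (φ 0 + φ 1 + φ 2) - (3 : ℤ) • φ 1 := by abel
    rw [this, h1, hφ, sub_zero]
  · rw [hs, h.1, h.2, Units.val_neg, Units.val_one, neg_smul, one_smul, neg_sub]
  · rw [hs, h.1, h.2, Units.val_neg, Units.val_one, neg_smul, one_smul, neg_sub, ← sub_eq_zero]
    have : φ 0 - φ 2 - (φ 2 - φ 1) = (φ 0 + φ 1 + φ 2) - (3 : ℤ) • φ 2 := by abel
    rw [this, h2, hφ, sub_zero]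
  · rw [hs, h.1, h.2, Units.val_neg, Units.val_one, neg_smul, one_smul, neg_sub, ← sub_eq_zero]
    have : φ 1 - φ 0 - (φ 2 - φ 1) = (3 : ℤ) • φ 1 - (φ 0 + φ 1 + φ 2) := by abel
    rw [this, h1, hφ, sub_zero]

section lam

variable {G : Type} [Group G] (χ χ' : G →* ℤˣ) (X : Type) [MulAction G X] [Fintype X] [DecidableEq X]
variable (e : X ≃ Fin 3)
variable (R : Type) [CommRing R] (k : Type) [AddCommGroup k] [Module R k]
variable (h3 : ∀ a : k, (3 : ℤ) • a = 0)

/-- the sign of the permutation of `X` induced by `g` -/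
def permSign (G : Type) [Group G] (X : Type) [MulAction G X] [Fintype X] [DecidableEq X] : G →* ℤˣ :=
  Equiv.Perm.sign.comp (MulAction.toPermHom G X)

theorem permSign_apply (g : G) : permSign G X g = Equiv.Perm.sign (MulAction.toPerm g : Equiv.Perm X) := rfl

variable (hχ : ∀ g, χ' g = χ g * permSign G X g)

include h3 hχ in
theorem isEquivar_lamMap : IsEquivar G (lamMap χ χ' X e R k) := fun g f => by
  set F : FunTw χ X k := SubG.incl _ _ f with hF
  have hFsum : ∑ x, F x = 0 := by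
    have := f.2
    rw [LinearMap.mem_ker] at this
    exact this
  set τ : Equiv.Perm (Fin 3) := e.permCongr (MulAction.toPerm g) with hτ
  have hτinv : ∀ i : Fin 3, g⁻¹ • e.symm i = e.symm (τ⁻¹ i) := by
    intro i
    have h1 : e (g⁻¹ • e.symm i) = τ⁻¹ i := by
      rw [Equiv.Perm.eq_inv_iff_eq, hτ, Equiv.permCongr_apply, Equiv.symm_apply_apply]
      show e (g • g⁻¹ • e.symm i) = i
      rw [smul_inv_smul, Equiv.apply_symm_apply]
    rw [← h1, Equiv.symm_apply_apply]
  have hsign : Equiv.Perm.sign τ = permSign G X g := by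
    rw [hτ, Equiv.Perm.sign_permCongr]
    rfl
  have hφ : (fun i => F (e.symm i)) 0 + (fun i => F (e.symm i)) 1 + (fun i => F (e.symm i)) 2 = 0 := by
    rw [← sum_eq_three X e k (fun x => F x)]
    exact hFsum
  have key := perm3_lam h3 τ (fun i => F (e.symm i)) hφ
  show ((χ g : ℤˣ) : ℤ) • F (g⁻¹ • e.symm 1) - ((χ g : ℤˣ) : ℤ) • F (g⁻¹ • e.symm 2) =
    ((χ' g : ℤˣ) : ℤ) • (F (e.symm 1) - F (e.symm 2))
  rw [hτinv, hτinv, ← smul_sub, hχ g, Units.val_mul, mul_smul, ← hsign]
  exact congrArg (fun a => ((χ g : ℤˣ) : ℤ) • a) key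

include h3 in
theorem lamMap_eq_zero_iff (f : Aug χ X R k) :
    lamMap χ χ' X e R k f = 0 ↔ ∃ a, constAug χ X e R k h3 a = f := by
  set F : FunTw χ X k := SubG.incl _ _ f with hF
  have hFsum : F (e.symm 0) + F (e.symm 1) + F (e.symm 2) = 0 := by
    have := f.2
    rw [LinearMap.mem_ker] at this
    rw [← sum_eq_three X e k (fun x => F x)]
    exact this
  constructor
  · intro h
    have h12 : F (e.symm 1) = F (e.symm 2) := sub_eq_zero.1 h
    have h01 : F (e.symm 0) = F (e.symm 1) := by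
      have h1 := h3 (F (e.symm 1))
      rw [← h12] at hFsum
      have : F (e.symm 0) - F (e.symm 1) = (F (e.symm 0) + F (e.symm 1) + F (e.symm 1)) -
          (3 : ℤ) • F (e.symm 1) := by abel
      rw [← sub_eq_zero, this, hFsum, h1, sub_zero]
    refine ⟨TwMod.mk χ (F (e.symm 1)), ?_⟩
    apply SubG.incl_injective
    unfold constAug
    rw [SubG.incl_lift]
    ext x
    show F (e.symm 1) = F x
    obtain ⟨i, rfl⟩ := e.symm.surjective x
    fin_cases i
    · exact h01.symm
    · rfl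
    · exact h12
  · rintro ⟨a, rfl⟩
    show (SubG.incl _ _ (constAug χ X e R k h3 a) : FunTw χ X k) (e.symm 1) -
      (SubG.incl _ _ (constAug χ X e R k h3 a) : FunTw χ X k) (e.symm 2) = 0
    unfold constAug
    rw [SubG.incl_lift, constMap_apply, constMap_apply, sub_self]

include h3 in
theorem lamMap_surjective : Function.Surjective (lamMap χ χ' X e R k) := by
  intro a
  set F : FunTw χ X k := ⟨fun x => if e x = 1 then -TwMod.out a else if e x = 2 then TwMod.out a else 0⟩
    with hF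
  have hF0 : F (e.symm 0) = 0 := by
    show (if e (e.symm 0) = 1 then -TwMod.out a else if e (e.symm 0) = 2 then TwMod.out a else 0) = 0
    rw [Equiv.apply_symm_apply]
    simp
  have hF1 : F (e.symm 1) = -TwMod.out a := by
    show (if e (e.symm 1) = 1 then -TwMod.out a else if e (e.symm 1) = 2 then TwMod.out a else 0) = _
    rw [Equiv.apply_symm_apply]
    simp
  have hF2 : F (e.symm 2) = TwMod.out a := by
    show (if e (e.symm 2) = 1 then -TwMod.out a else if e (e.symm 2) = 2 then TwMod.out a else 0) = _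
    rw [Equiv.apply_symm_apply]
    simp
  have hmem : F ∈ LinearMap.ker (sumMap χ X R k) := by
    rw [LinearMap.mem_ker]
    show ∑ x, F x = 0
    rw [sum_eq_three X e k (fun x => F x), hF0, hF1, hF2]
    abel
  refine ⟨⟨F, hmem⟩, ?_⟩
  show F (e.symm 1) - F (e.symm 2) = a
  rw [hF1, hF2]
  have h1 := h3 (TwMod.out a)
  have : -TwMod.out a - TwMod.out a = TwMod.out a - (3 : ℤ) • TwMod.out a := by abel
  rw [this, h1, sub_zero]
  rfl

end lam

end Fermat.Agent.S59lib.S3Proj
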