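/-
S59lib / S3Proj / Abs  (helper3) — Project I, item R7a.

**The abstract `S₃`-dévissage.**  Let `S : HeckeSys Γ G I` be a right exact Hecke system, `𝔪` a non-Eisenstein
maximal ideal of `𝒪[X_I]` (`𝒪` complete local noetherian with principal maximal ideal, `3 ∈ 𝔪_𝒪`), so that
`W ↦ S.F 𝒪 W 𝔪` is exact and has values in finite `𝒪`-modules.  Let `G` act transitively on a set `X` with
three elements, the stabiliser of `x₀` being `{1, s}` with `s` acting on `X` by an odd permutation.  Then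

  `S.F 𝒪 (FunTw 1 X 𝒪) 𝔪 = 0  ⟹  S.F 𝒪 (FunTw 1 G 𝒪) 𝔪 = 0`.

(`k[X]` is uniserial with factors `1, sgn, 1`; `k[X] ⊗ sgn` has factors `sgn, 1, sgn`; Nakayama;
`0 → 𝒪[X] ⊗ sgn → 𝒪[G] → 𝒪[X] → 0`.)
-/
import Fermat.Agent.S59lib.S3Proj.Seq
import Fermat.Agent.S43lib.B1.Count
import Fermat.Agent.S43lib.B1.Fun

set_option autoImplicit false
set_option linter.unusedSectionVars false
set_option linter.unusedVariables false
set_option linter.style.haveILetI false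

noncomputable section

namespace Fermat.Agent.S59lib.S3Proj

open Fermat.Agent.S43lib.B1 IsLocalRing MvPolynomial

/-! ### Vanishing of the localised cohomology along maps of coefficients -/

section basic

variable {Γ G : Type} [Group Γ] [Group G] {I : Type} (S : HeckeSys Γ G I)
variable {𝒪 : Type} [CommRing 𝒪]
variable (𝔪 : Ideal (MvPolynomial I 𝒪)) [𝔪.IsPrime]
variable {W : Type} [AddCommGroup W] [Module 𝒪 W] [DistribMulAction G W] [SMulCommClass G 𝒪 W]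
variable {W' : Type} [AddCommGroup W'] [Module 𝒪 W'] [DistribMulAction G W'] [SMulCommClass G 𝒪 W']
variable {W'' : Type} [AddCommGroup W''] [Module 𝒪 W''] [DistribMulAction G W'']
  [SMulCommClass G 𝒪 W'']

theorem subsingleton_of_injective (hne : S.NonEis 𝔪) {u : W' →ₗ[𝒪] W} (hu : IsEquivar G u)
    (hinj : Function.Injective u) (h : Subsingleton (S.F 𝒪 W 𝔪)) : Subsingleton (S.F 𝒪 W' 𝔪) :=
  (S.Fmap_injective hne hu hinj).subsingleton

theorem subsingleton_of_surjective (hS : S.RightExact 𝒪) {v : W →ₗ[𝒪] W''} (hv : IsEquivar G v)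
    (hsurj : Function.Surjective v) (h : Subsingleton (S.F 𝒪 W 𝔪)) : Subsingleton (S.F 𝒪 W'' 𝔪) :=
  (S.Fmap_surjective 𝔪 hS hv hsurj).subsingleton

theorem subsingleton_of_exact {u : W' →ₗ[𝒪] W} (hu : IsEquivar G u) {v : W →ₗ[𝒪] W''}
    (hv : IsEquivar G v) (hinj : Function.Injective u) (hsurj : Function.Surjective v)
    (hex : ∀ w, v w = 0 ↔ ∃ w', u w' = w) (h' : Subsingleton (S.F 𝒪 W' 𝔪))
    (h'' : Subsingleton (S.F 𝒪 W'' 𝔪)) : Subsingleton (S.F 𝒪 W 𝔪) := by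
  refine ⟨fun a b => ?_⟩
  have hE := S.Fmap_exact 𝔪 hu hv hinj hsurj hex
  have key : ∀ y : S.F 𝒪 W 𝔪, y = 0 := by
    intro y
    obtain ⟨y', rfl⟩ := (hE y).1 (Subsingleton.elim _ _)
    rw [Subsingleton.elim y' 0, map_zero]
  rw [key a, key b]

end basic

/-! ### Nakayama -/

section nak

variable {Γ G : Type} [Group Γ] [Group.FG Γ] [Group G] {I : Type} (S : HeckeSys Γ G I)
variable {𝒪 : Type} [CommRing 𝒪] [IsLocalRing 𝒪] [IsNoetherianRing 𝒪]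
  [IsAdicComplete (maximalIdeal 𝒪) 𝒪]
variable (𝔪 : Ideal (MvPolynomial I 𝒪)) [h𝔪 : 𝔪.IsMaximal]
variable {W : Type} [AddCommGroup W] [Module 𝒪 W] [DistribMulAction G W] [SMulCommClass G 𝒪 W]
  [Module.Finite 𝒪 W]
variable {W'' : Type} [AddCommGroup W''] [Module 𝒪 W''] [DistribMulAction G W'']
  [SMulCommClass G 𝒪 W'']

theorem subsingleton_of_red (hS : S.RightExact 𝒪) {ϖ : 𝒪} (hϖ : ϖ ∈ maximalIdeal 𝒪)
    {v : W →ₗ[𝒪] W''} (hv : IsEquivar G v) (hsurj : Function.Surjective v)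
    (hex : ∀ w, v w = 0 ↔ ∃ w', ϖ • w' = w) (h'' : Subsingleton (S.F 𝒪 W'' 𝔪)) :
    Subsingleton (S.F 𝒪 W 𝔪) := by
  have hid : IsEquivar G (LinearMap.id : W →ₗ[𝒪] W) := HeckeSys.isEquivar_id
  have hu : IsEquivar G (ϖ • (LinearMap.id : W →ₗ[𝒪] W)) := hid.smul ϖ
  have hE := S.Fmap_exact_right 𝔪 hS hu hv hsurj
    (fun w => by rw [hex w]; rfl)
  have hdiv : ∀ y : S.F 𝒪 W 𝔪, ∃ y', ϖ • y' = y := by
    intro y
    obtain ⟨y', hy'⟩ := (hE y).1 (Subsingleton.elim _ _)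
    refine ⟨y', ?_⟩
    have h1 := S.Fmap_smul_apply 𝔪 hid ϖ y'
    rw [S.Fmap_id 𝔪] at h1
    rw [← hy', h1]
    rfl
  have hfin : Module.Finite 𝒪 (S.F 𝒪 W 𝔪) := inferInstance
  have htop : (⊤ : Submodule 𝒪 (S.F 𝒪 W 𝔪)) = ⊥ := by
    refine Submodule.eq_bot_of_le_smul_of_le_jacobson_bot (maximalIdeal 𝒪) ⊤ Module.Finite.fg_top ?_
      (le_of_eq (IsLocalRing.jacobson_eq_maximalIdeal ⊥ bot_ne_top).symm)
    intro y _
    obtain ⟨y', rfl⟩ := hdiv y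
    exact Submodule.smul_mem_smul hϖ Submodule.mem_top
  refine ⟨fun a b => ?_⟩
  have ha : a ∈ (⊤ : Submodule 𝒪 (S.F 𝒪 W 𝔪)) := Submodule.mem_top
  have hb : b ∈ (⊤ : Submodule 𝒪 (S.F 𝒪 W 𝔪)) := Submodule.mem_top
  rw [htop, Submodule.mem_bot] at ha hb
  rw [ha, hb]

end nak

/-! ### The dévissage -/

section main

variable {Γ G : Type} [Group Γ] [Group.FG Γ] [Group G] [Fintype G] [DecidableEq G] {I : Type}
  (S : HeckeSys Γ G I)
variable {𝒪 : Type} [CommRing 𝒪] [IsLocalRing 𝒪] [IsNoetherianRing 𝒪]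
  [IsAdicComplete (maximalIdeal 𝒪) 𝒪]
variable (𝔪 : Ideal (MvPolynomial I 𝒪)) [h𝔪 : 𝔪.IsMaximal]
variable (X : Type) [MulAction G X] [Fintype X] [DecidableEq X] (e : X ≃ Fin 3) (x₀ : X)

theorem three_smul_residue (h3 : (3 : 𝒪) ∈ maximalIdeal 𝒪) (a : ResidueField 𝒪) : (3 : ℤ) • a = 0 := by
  have h1 : ((3 : ℤ) : ResidueField 𝒪) = 0 := by
    have : residue 𝒪 (3 : 𝒪) = 0 := (residue_eq_zero_iff _).2 h3
    rw [map_ofNat] at this
    exact_mod_cast this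
  rw [zsmul_eq_mul, h1, zero_mul]

theorem permSign_mul_self (g : G) : permSign G X g * permSign G X g = 1 := by
  rcases Int.units_eq_one_or (permSign G X g) with h | h <;> rw [h] <;> rfl

include e in
/-- **The `S₃`-dévissage.** -/
theorem subsingleton_F_reg (hS : S.RightExact 𝒪) (hne : S.NonEis 𝔪)
    (s : G) (hs1 : s ≠ 1) (hsgn : permSign G X s = -1)
    (hfib : ∀ g h : G, h • x₀ = g • x₀ ↔ (h = g ∨ h = g * s))
    (htr : ∀ x : X, ∃ g : G, g • x₀ = x)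
    {ϖ : 𝒪} (hϖ : maximalIdeal 𝒪 = Ideal.span {ϖ}) (h3 : (3 : 𝒪) ∈ maximalIdeal 𝒪)
    (h : Subsingleton (S.F 𝒪 (FunTw (1 : G →* ℤˣ) X 𝒪) 𝔪)) :
    Subsingleton (S.F 𝒪 (FunTw (1 : G →* ℤˣ) G 𝒪) 𝔪) := by
  haveI : 𝔪.IsPrime := h𝔪.isPrime
  haveI : Nonempty X := ⟨x₀⟩
  set k := ResidueField 𝒪 with hk
  set sg : G →* ℤˣ := permSign G X with hsg
  have h3k : ∀ a : k, (3 : ℤ) • a = 0 := three_smul_residue h3
  have hϖm : ϖ ∈ maximalIdeal 𝒪 := by rw [hϖ]; exact Ideal.mem_span_singleton_self ϖ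
  -- the reduction of the coefficients
  have hres : Function.Surjective (Algebra.linearMap 𝒪 k) := residue_surjective
  have hresker : ∀ (χ : G →* ℤˣ) (w : FunTw χ X 𝒪),
      mapCoef χ X 𝒪 (Algebra.linearMap 𝒪 k) w = 0 ↔ ∃ w', ϖ • w' = w := by
    intro χ w
    constructor
    · intro hw
      have h1 : ∀ x, ∃ b, ϖ * b = w x := by
        intro x
        have h2 : residue 𝒪 (w x) = 0 := congrArg (fun f : FunTw χ X k => f x) hw
        rw [residue_eq_zero_iff, hϖ, Ideal.mem_span_singleton'] at h2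
        obtain ⟨b, hb⟩ := h2
        exact ⟨b, by rw [mul_comm]; exact hb⟩
      choose b hb using h1
      exact ⟨⟨b⟩, by ext x; exact hb x⟩
    · rintro ⟨w', rfl⟩
      ext x
      show residue 𝒪 (ϖ * w' x) = 0
      rw [map_mul, (residue_eq_zero_iff ϖ).2 hϖm, zero_mul]
  -- (a) `F (k[X]) = 0`
  have ha : Subsingleton (S.F 𝒪 (FunTw (1 : G →* ℤˣ) X k) 𝔪) :=
    subsingleton_of_surjective S 𝔪 hS (isEquivar_mapCoef 1 X 𝒪 (Algebra.linearMap 𝒪 k))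
      (mapCoef_surjective 1 X 𝒪 hres) h
  -- (b) `F (k) = 0`
  have hb : Subsingleton (S.F 𝒪 (TwMod (1 : G →* ℤˣ) k) 𝔪) :=
    subsingleton_of_injective S 𝔪 hne (isEquivar_constMap 1 X 𝒪 k) (constMap_injective 1 X 𝒪 k) ha
  -- (c) `F (Aug) = 0`
  have hc : Subsingleton (S.F 𝒪 (Aug (1 : G →* ℤˣ) X 𝒪 k) 𝔪) :=
    subsingleton_of_injective S 𝔪 hne (SubG.isEquivar_incl _ _) (SubG.incl_injective _ _) ha
  -- (d) `F (k(sgn)) = 0`
  have hd : Subsingleton (S.F 𝒪 (TwMod sg k) 𝔪) :=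
    subsingleton_of_surjective S 𝔪 hS
      (isEquivar_lamMap 1 sg X e 𝒪 k h3k (fun g => by rw [MonoidHom.one_apply, one_mul]))
      (lamMap_surjective 1 sg X e 𝒪 k h3k) hc
  -- (e) `F (Aug ⊗ sgn) = 0`
  have he : Subsingleton (S.F 𝒪 (Aug sg X 𝒪 k) 𝔪) :=
    subsingleton_of_exact S 𝔪 (isEquivar_constAug sg X e 𝒪 k h3k)
      (isEquivar_lamMap sg 1 X e 𝒪 k h3k
        (fun g => by rw [MonoidHom.one_apply, permSign_mul_self]))
      (constAug_injective sg X e 𝒪 k h3k) (lamMap_surjective sg 1 X e 𝒪 k h3k)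
      (lamMap_eq_zero_iff sg 1 X e 𝒪 k h3k) hd hb
  -- (f) `F (k[X] ⊗ sgn) = 0`
  have hf : Subsingleton (S.F 𝒪 (FunTw sg X k) 𝔪) := by
    refine subsingleton_of_exact S 𝔪 (SubG.isEquivar_incl _ (augStable sg X 𝒪 k))
      (isEquivar_sumMap sg X 𝒪 k) (SubG.incl_injective _ _) (sumMap_surjective sg X 𝒪 k) ?_ he hd
    intro w
    constructor
    · intro hw
      exact ⟨⟨w, hw⟩, rfl⟩
    · rintro ⟨w', rfl⟩
      exact w'.2
  -- (g) Nakayama: `F (𝒪[X] ⊗ sgn) = 0`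
  have hg : Subsingleton (S.F 𝒪 (FunTw sg X 𝒪) 𝔪) :=
    subsingleton_of_red S 𝔪 hS hϖm (isEquivar_mapCoef sg X 𝒪 (Algebra.linearMap 𝒪 k))
      (mapCoef_surjective sg X 𝒪 hres) (hresker sg) hf
  -- (h) the regular module
  exact subsingleton_of_exact S 𝔪 (isEquivar_jMap sg X x₀ 𝒪 𝒪) (isEquivar_pushMap X x₀ 𝒪 𝒪)
    (jMap_injective sg X x₀ 𝒪 𝒪 htr) (pushMap_surjective X x₀ 𝒪 𝒪 s hs1 hfib htr)
    (pushMap_eq_zero_iff sg X x₀ 𝒪 𝒪 s hs1 hsgn hfib htr) hg h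

end main

end Fermat.Agent.S59lib.S3Proj
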