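/-
S59lib / S3Proj / Pi2  (helper3) — Project I, item R7a.

Reduction modulo `2` on `Γ₀(M)`, `M` odd: `pi2 M : Γ₀(M) →* SL(2, ZMod 2)`, onto (with lifts in `Γ₁(M)`-shape);
the action of `G2 = SL(2, ZMod 2)` on the three nonzero vectors `X2` of `𝔽₂²`: transitive, the stabiliser of
`e1 = (1, 0)` is `{1, uu}`, `uu` acts by a transposition; `pi2 γ • e1 = e1 ↔ 2 ∣ γ₁₀`;
the conjugation `kap : Γ₀(M * 4) →* Γ₀(M)`, `(a b; c d) ↦ (a 2b; c/2 d)`, an isomorphism onto `ker (pi2 M)`.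
-/
import Mathlib
import Fermat.Agent.S43lib.B1.Comm
import Fermat.Agent.S59lib.S3Proj.Seq

set_option autoImplicit false
set_option linter.unusedSectionVars false
set_option linter.unusedVariables false
set_option linter.style.haveILetI false

noncomputable section

namespace Fermat.Agent.S59lib.S3Proj

open CongruenceSubgroup Matrix.SpecialLinearGroup Fermat.Agent.S43lib.B1
open scoped MatrixGroups

/-! ### The finite group `SL₂(𝔽₂)` and its action on the nonzero vectors -/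

/-- `SL₂(𝔽₂)` -/
abbrev G2 : Type := SL(2, ZMod 2)

/-- the nonzero vectors of `𝔽₂²` -/
abbrev X2 : Type := {v : Fin 2 → ZMod 2 // v ≠ 0}

instance : MulAction G2 X2 where
  smul g v := ⟨(g : Matrix (Fin 2) (Fin 2) (ZMod 2)).mulVec v.1, fun h => v.2 (by
    have h1 : ((g⁻¹ : G2) : Matrix (Fin 2) (Fin 2) (ZMod 2)).mulVec
        ((g : Matrix (Fin 2) (Fin 2) (ZMod 2)).mulVec v.1) = v.1 := by
      rw [Matrix.mulVec_mulVec, ← Matrix.SpecialLinearGroup.coe_mul, inv_mul_cancel,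
        Matrix.SpecialLinearGroup.coe_one, Matrix.one_mulVec]
    rw [← h1, h, Matrix.mulVec_zero])⟩
  one_smul v := Subtype.ext (by
    show ((1 : G2) : Matrix (Fin 2) (Fin 2) (ZMod 2)).mulVec v.1 = v.1
    rw [Matrix.SpecialLinearGroup.coe_one, Matrix.one_mulVec])
  mul_smul g h v := Subtype.ext (by
    show ((g * h : G2) : Matrix (Fin 2) (Fin 2) (ZMod 2)).mulVec v.1 =
      (g : Matrix (Fin 2) (Fin 2) (ZMod 2)).mulVec ((h : Matrix (Fin 2) (Fin 2) (ZMod 2)).mulVec v.1)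
    rw [Matrix.SpecialLinearGroup.coe_mul, Matrix.mulVec_mulVec])

theorem smul_X2_val (g : G2) (v : X2) :
    ((g • v : X2) : Fin 2 → ZMod 2) = (g : Matrix (Fin 2) (Fin 2) (ZMod 2)).mulVec v.1 := rfl

/-- the base point `(1, 0)` -/
def e1 : X2 := ⟨![1, 0], by decide⟩

/-- the upper unipotent element -/
def uu : G2 := ⟨!![1, 1; 0, 1], by decide⟩

/-- the lower unipotent element -/
def ll : G2 := ⟨!![1, 0; 1, 1], by decide⟩

theorem card_X2 : Fintype.card X2 = 3 := by decide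

/-- an enumeration of `X2` -/
def eX2 : X2 ≃ Fin 3 := Fintype.equivFinOfCardEq card_X2

theorem uu_ne_one : uu ≠ 1 := by decide

theorem G2_cases (g : G2) :
    g = 1 ∨ g = uu ∨ g = ll ∨ g = uu * ll ∨ g = ll * uu ∨ g = uu * ll * uu := by
  revert g
  decide

theorem X2_trans : ∀ x : X2, ∃ g : G2, g • e1 = x := by decide

theorem X2_fib : ∀ g h : G2, h • e1 = g • e1 ↔ (h = g ∨ h = g * uu) := by decide

theorem permSign_uu : permSign G2 X2 uu = -1 := by
  unfold permSign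
  rw [MonoidHom.comp_apply]
  decide

/-- the regular action: fibres of `g ↦ g * 1` -/
theorem G2_smul_one_iff (g : G2) : g • (1 : G2) = 1 ↔ g = 1 := by
  rw [smul_eq_mul, mul_one]

/-! ### Reduction modulo `2` -/

/-- reduction modulo `2` of integral matrices -/
def rm : MZ →+* Matrix (Fin 2) (Fin 2) (ZMod 2) := (Int.castRingHom (ZMod 2)).mapMatrix

theorem rm_apply (P : MZ) (i j : Fin 2) : rm P i j = ((P i j : ℤ) : ZMod 2) := rfl

/-- reduction modulo `2` on `Γ₀(M)` -/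
def pi2 (M : ℕ) : ↥(Gamma0 M) →* G2 :=
  (Matrix.SpecialLinearGroup.map (Int.castRingHom (ZMod 2))).comp (Gamma0 M).subtype

theorem pi2_coe {M : ℕ} (γ : ↥(Gamma0 M)) :
    ((pi2 M γ : G2) : Matrix (Fin 2) (Fin 2) (ZMod 2)) = rm (toMZ γ) := rfl

theorem pi2_apply {M : ℕ} (γ : ↥(Gamma0 M)) (i j : Fin 2) :
    (pi2 M γ : G2) i j = ((toMZ γ i j : ℤ) : ZMod 2) := rfl

/-- `P ≡ 1` modulo `2` -/
def IsOne2 (P : MZ) : Prop := rm P = 1

theorem IsOne2.mul {A B : MZ} (hA : IsOne2 A) (hB : IsOne2 B) : IsOne2 (A * B) := by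
  unfold IsOne2 at *
  rw [map_mul, hA, hB, one_mul]

theorem pi2_eq_one_iff {M : ℕ} (γ : ↥(Gamma0 M)) : pi2 M γ = 1 ↔ IsOne2 (toMZ γ) := by
  constructor
  · intro h
    have := congrArg (fun g : G2 => (g : Matrix (Fin 2) (Fin 2) (ZMod 2))) h
    exact this
  · intro h
    apply Subtype.ext
    exact h

/-- `A = d B` with `A ≡ B ≡ 1` modulo `2` forces `d ≡ 1` -/
theorem pi2_eq_one_of_rel {M : ℕ} {A B : MZ} (hA : IsOne2 A) (hB : IsOne2 B) (d : ↥(Gamma0 M))
    (h : A = toMZ d * B) : pi2 M d = 1 := by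
  rw [pi2_eq_one_iff]
  have h1 := congrArg rm h
  rw [map_mul] at h1
  unfold IsOne2 at *
  rw [hA, hB, mul_one] at h1
  exact h1.symm

theorem isOne2_iff (P : MZ) :
    IsOne2 P ↔ Odd (P 0 0) ∧ Even (P 0 1) ∧ Even (P 1 0) ∧ Odd (P 1 1) := by
  unfold IsOne2
  constructor
  · intro h
    have h00 := congrFun (congrFun h 0) 0
    have h01 := congrFun (congrFun h 0) 1
    have h10 := congrFun (congrFun h 1) 0
    have h11 := congrFun (congrFun h 1) 1
    rw [rm_apply] at h00 h01 h10 h11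
    simp only [Matrix.one_apply_eq, Matrix.one_apply_ne, ne_eq, zero_ne_one, one_ne_zero,
      not_false_eq_true, Fin.isValue] at h00 h01 h10 h11
    refine ⟨ZMod.intCast_eq_one_iff_odd.1 h00, ?_, ?_, ZMod.intCast_eq_one_iff_odd.1 h11⟩
    · exact (ZMod.intCast_zmod_eq_zero_iff_dvd _ 2).1 h01 |> even_iff_two_dvd.2
    · exact (ZMod.intCast_zmod_eq_zero_iff_dvd _ 2).1 h10 |> even_iff_two_dvd.2
  · rintro ⟨h00, h01, h10, h11⟩
    ext i j
    rw [rm_apply]
    fin_cases i <;> fin_cases j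
    · exact ZMod.intCast_eq_one_iff_odd.2 h00
    · exact (ZMod.intCast_zmod_eq_zero_iff_dvd _ 2).2 (even_iff_two_dvd.1 h01)
    · exact (ZMod.intCast_zmod_eq_zero_iff_dvd _ 2).2 (even_iff_two_dvd.1 h10)
    · exact ZMod.intCast_eq_one_iff_odd.2 h11

/-! ### The stabiliser of `e1` -/

theorem pi2_smul_e1_iff {M : ℕ} (γ : ↥(Gamma0 M)) :
    pi2 M γ • e1 = e1 ↔ (2 : ℤ) ∣ toMZ γ 1 0 := by
  have hdet : (toMZ γ 0 0 : ZMod 2) * (toMZ γ 1 1 : ZMod 2) -
      (toMZ γ 0 1 : ZMod 2) * (toMZ γ 1 0 : ZMod 2) = 1 := by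
    have h := toMZ_det γ
    rw [Matrix.det_fin_two] at h
    have h1 := congrArg (Int.cast : ℤ → ZMod 2) h
    push_cast at h1
    exact h1
  have hval : ((pi2 M γ • e1 : X2) : Fin 2 → ZMod 2) =
      ![((toMZ γ 0 0 : ℤ) : ZMod 2), ((toMZ γ 1 0 : ℤ) : ZMod 2)] := by
    rw [smul_X2_val]
    funext i
    fin_cases i
    · simp [e1, Matrix.mulVec, dotProduct, pi2_apply]
    · simp [e1, Matrix.mulVec, dotProduct, pi2_apply]
  constructor
  · intro h
    have h1 := congrArg (fun v : X2 => (v : Fin 2 → ZMod 2) 1) h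
    simp only [hval] at h1
    have h2 : ((toMZ γ 1 0 : ℤ) : ZMod 2) = 0 := h1
    exact (ZMod.intCast_zmod_eq_zero_iff_dvd _ 2).1 h2
  · intro h
    have h2 : ((toMZ γ 1 0 : ℤ) : ZMod 2) = 0 := (ZMod.intCast_zmod_eq_zero_iff_dvd _ 2).2 h
    rw [h2, mul_zero, sub_zero] at hdet
    have h3 : ((toMZ γ 0 0 : ℤ) : ZMod 2) = 1 := by
      generalize ((toMZ γ 0 0 : ℤ) : ZMod 2) = a at hdet
      generalize ((toMZ γ 1 1 : ℤ) : ZMod 2) = b at hdet
      revert a b
      decide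
    apply Subtype.ext
    rw [hval, h2, h3]
    rfl

/-! ### Lifts -/

section lift

variable (M : ℕ) (hM : Odd M)

/-- `(1 M; 0 1)` -/
def liftU : ↥(Gamma0 M) := ofMZ !![1, (M : ℤ); 0, 1] (by simp [Matrix.det_fin_two]) (dvd_zero _)

/-- `(1 0; M 1)` -/
def liftL : ↥(Gamma0 M) := ofMZ !![1, 0; (M : ℤ), 1] (by simp [Matrix.det_fin_two]) (dvd_refl _)

theorem shape1_liftU : Shape1 M (toMZ (liftU M)) := by
  constructor
  · show (M : ℤ) ∣ 0
    exact dvd_zero _
  · show ((1 : ℤ) : ZMod M) = 1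
    simp

theorem shape1_liftL : Shape1 M (toMZ (liftL M)) := by
  constructor
  · show (M : ℤ) ∣ (M : ℤ)
    exact dvd_refl _
  · show ((1 : ℤ) : ZMod M) = 1
    simp

include hM in
theorem pi2_liftU : pi2 M (liftU M) = uu := by
  have h1 : ((M : ℕ) : ZMod 2) = 1 := ZMod.natCast_eq_one_iff_odd.2 hM
  apply Subtype.ext
  ext i j
  rw [pi2_coe, rm_apply]
  have h2 : toMZ (liftU M) = !![1, (M : ℤ); 0, 1] := rfl
  rw [h2]
  fin_cases i <;> fin_cases j <;> simp [uu, h1]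

include hM in
theorem pi2_liftL : pi2 M (liftL M) = ll := by
  have h1 : ((M : ℕ) : ZMod 2) = 1 := ZMod.natCast_eq_one_iff_odd.2 hM
  apply Subtype.ext
  ext i j
  rw [pi2_coe, rm_apply]
  have h2 : toMZ (liftL M) = !![1, 0; (M : ℤ), 1] := rfl
  rw [h2]
  fin_cases i <;> fin_cases j <;> simp [ll, h1]

theorem shape1_one : Shape1 M (toMZ (1 : ↥(Gamma0 M))) := by
  rw [toMZ_one]
  constructor
  · show (M : ℤ) ∣ 0
    exact dvd_zero _
  · show ((1 : ℤ) : ZMod M) = 1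
    simp

include hM in
/-- every element of `SL₂(𝔽₂)` lifts to an element of `Γ₀(M)` of shape `(1 *; 0 *)` modulo `M` -/
theorem exists_lift (g : G2) : ∃ γ : ↥(Gamma0 M), pi2 M γ = g ∧ Shape1 M (toMZ γ) := by
  have hU := pi2_liftU M hM
  have hL := pi2_liftL M hM
  have sU := shape1_liftU M
  have sL := shape1_liftL M
  rcases G2_cases g with h | h | h | h | h | h
  · exact ⟨1, by rw [map_one, h], shape1_one M⟩
  · exact ⟨liftU M, by rw [hU, h], sU⟩
  · exact ⟨liftL M, by rw [hL, h], sL⟩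
  · exact ⟨liftU M * liftL M, by rw [map_mul, hU, hL, h], by rw [toMZ_mul]; exact sU.mul sL⟩
  · exact ⟨liftL M * liftU M, by rw [map_mul, hU, hL, h], by rw [toMZ_mul]; exact sL.mul sU⟩
  · exact ⟨liftU M * liftL M * liftU M, by rw [map_mul, map_mul, hU, hL, h], by
      rw [toMZ_mul, toMZ_mul]; exact (sU.mul sL).mul sU⟩

include hM in
theorem pi2_surjective : Function.Surjective (pi2 M) := fun g =>
  (exists_lift M hM g).imp fun _ h => h.1

end lift

end Fermat.Agent.S59lib.S3Proj
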