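/-
S59lib / S3Proj / Kap  (helper3) — Project I, item R7a.

Conjugation by `dg = diag(2, 1)`: `kap : Γ₀(M * 4) →* Γ₀(M)`, `(a b; c d) ↦ (a 2b; c/2 d)`, characterised by
`dg * γ = kap γ * dg`; it is injective with image `ker (pi2 M)` (`M` odd).  The conjugates `halfConj P = dg⁻¹ P dg`
of the integral matrices `P ≡ 1` modulo `2`.
-/
import Fermat.Agent.S59lib.S3Proj.Pi2

set_option autoImplicit false
set_option linter.unusedSectionVars false
set_option linter.unusedVariables false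
set_option linter.style.haveILetI false

noncomputable section

namespace Fermat.Agent.S59lib.S3Proj

open CongruenceSubgroup Matrix.SpecialLinearGroup Fermat.Agent.S43lib.B1
open scoped MatrixGroups

/-- the diagonal matrix `(2, 1)` -/
def dg : MZ := !![2, 0; 0, 1]

theorem dg_det : dg.det = 2 := by
  simp [dg, Matrix.det_fin_two]

theorem dg_det_ne : dg.det ≠ 0 := by
  rw [dg_det]
  norm_num

theorem dg_mul_left_cancel {A B : MZ} (h : dg * A = dg * B) : A = B :=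
  (Matrix.isRegular_of_isLeftRegular_det (IsRegular.of_ne_zero dg_det_ne).left).left h

/-- `dg P dg⁻¹` for `2 ∣ P₁₀` -/
def dblConj (P : MZ) : MZ := !![P 0 0, 2 * P 0 1; P 1 0 / 2, P 1 1]

/-- `dg⁻¹ P dg` for `2 ∣ P₀₁` -/
def halfConj (P : MZ) : MZ := !![P 0 0, P 0 1 / 2; 2 * P 1 0, P 1 1]

theorem dg_mul_eq (P : MZ) (h : (2 : ℤ) ∣ P 1 0) : dg * P = dblConj P * dg := by
  obtain ⟨t, ht⟩ := h
  ext i j
  fin_cases i <;> fin_cases j <;>
    simp [dg, dblConj, Matrix.mul_apply, Fin.sum_univ_two, ht, mul_comm]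

theorem dg_mul_halfConj (P : MZ) (h : (2 : ℤ) ∣ P 0 1) : dg * halfConj P = P * dg := by
  obtain ⟨t, ht⟩ := h
  ext i j
  fin_cases i <;> fin_cases j <;>
    simp [dg, halfConj, Matrix.mul_apply, Fin.sum_univ_two, ht, mul_comm]

theorem dblConj_det (P : MZ) (h : (2 : ℤ) ∣ P 1 0) : (dblConj P).det = P.det := by
  obtain ⟨t, ht⟩ := h
  simp only [dblConj, Matrix.det_fin_two_of, Matrix.det_fin_two P, ht]
  rw [Int.mul_ediv_cancel_left _ (by norm_num : (2 : ℤ) ≠ 0)]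
  ring

theorem halfConj_det (P : MZ) (h : (2 : ℤ) ∣ P 0 1) : (halfConj P).det = P.det := by
  obtain ⟨t, ht⟩ := h
  simp only [halfConj, Matrix.det_fin_two_of, Matrix.det_fin_two P, ht]
  rw [Int.mul_ediv_cancel_left _ (by norm_num : (2 : ℤ) ≠ 0)]
  ring

theorem dblConj_halfConj (P : MZ) (h01 : (2 : ℤ) ∣ P 0 1) : dblConj (halfConj P) = P := by
  obtain ⟨t, ht⟩ := h01
  ext i j
  fin_cases i <;> fin_cases j <;> simp [dblConj, halfConj, ht]

section kap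

variable (M : ℕ)

theorem four_dvd_10 (γ : ↥(Gamma0 (M * 4))) : ((M : ℤ) * 4) ∣ toMZ γ 1 0 := by
  have := toMZ_10 γ
  push_cast at this
  exact this

theorem two_dvd_10 (γ : ↥(Gamma0 (M * 4))) : (2 : ℤ) ∣ toMZ γ 1 0 :=
  dvd_trans ⟨(M : ℤ) * 2, by ring⟩ (four_dvd_10 M γ)

/-- the underlying function of `kap` -/
def kapFun (γ : ↥(Gamma0 (M * 4))) : ↥(Gamma0 M) :=
  ofMZ (dblConj (toMZ γ)) (by rw [dblConj_det _ (two_dvd_10 M γ), toMZ_det]) (by
    show (M : ℤ) ∣ toMZ γ 1 0 / 2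
    obtain ⟨t, ht⟩ := four_dvd_10 M γ
    rw [ht, show (M : ℤ) * 4 * t = 2 * ((M : ℤ) * (2 * t)) by ring,
      Int.mul_ediv_cancel_left _ (by norm_num : (2 : ℤ) ≠ 0)]
    exact Dvd.intro _ rfl)

theorem kapFun_rel (γ : ↥(Gamma0 (M * 4))) : dg * toMZ γ = toMZ (kapFun M γ) * dg :=
  dg_mul_eq _ (two_dvd_10 M γ)

/-- conjugation by `diag(2, 1)` -/
def kap : ↥(Gamma0 (M * 4)) →* ↥(Gamma0 M) :=
  MonoidHom.mk' (kapFun M) (by
    intro a b
    apply toMZ_injective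
    refine MZ_mul_right_cancel dg_det_ne ?_
    calc toMZ (kapFun M (a * b)) * dg = dg * toMZ (a * b) := (kapFun_rel M _).symm
      _ = dg * toMZ a * toMZ b := by rw [toMZ_mul, Matrix.mul_assoc]
      _ = toMZ (kapFun M a) * dg * toMZ b := by rw [kapFun_rel]
      _ = toMZ (kapFun M a) * (toMZ (kapFun M b) * dg) := by rw [Matrix.mul_assoc, kapFun_rel]
      _ = toMZ (kapFun M a * kapFun M b) * dg := by rw [toMZ_mul, Matrix.mul_assoc])

theorem kap_rel (γ : ↥(Gamma0 (M * 4))) : dg * toMZ γ = toMZ (kap M γ) * dg := kapFun_rel M γ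

theorem toMZ_kap (γ : ↥(Gamma0 (M * 4))) : toMZ (kap M γ) = dblConj (toMZ γ) := rfl

theorem kap_injective : Function.Injective (kap M) := by
  intro a b h
  apply toMZ_injective
  apply dg_mul_left_cancel
  rw [kap_rel, kap_rel, h]

theorem pi2_kap (γ : ↥(Gamma0 (M * 4))) : pi2 M (kap M γ) = 1 := by
  rw [pi2_eq_one_iff, toMZ_kap, isOne2_iff]
  obtain ⟨t, ht⟩ := four_dvd_10 M γ
  have hdet := toMZ_det γ
  rw [Matrix.det_fin_two, ht] at hdet
  have hodd : Odd (toMZ γ 0 0 * toMZ γ 1 1) := by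
    have : toMZ γ 0 0 * toMZ γ 1 1 = 2 * (toMZ γ 0 1 * ((M : ℤ) * 2 * t)) + 1 := by
      linear_combination hdet
    exact ⟨_, this⟩
  rw [Int.odd_mul] at hodd
  refine ⟨hodd.1, ?_, ?_, hodd.2⟩
  · show Even (2 * toMZ γ 0 1)
    exact even_two_mul _
  · show Even (toMZ γ 1 0 / 2)
    rw [ht, show (M : ℤ) * 4 * t = 2 * (2 * ((M : ℤ) * t)) by ring,
      Int.mul_ediv_cancel_left _ (by norm_num : (2 : ℤ) ≠ 0)]
    exact even_two_mul _

variable (hM : Odd M)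

include hM in
theorem exists_kap_eq (γ : ↥(Gamma0 M)) (h : pi2 M γ = 1) : ∃ γ' : ↥(Gamma0 (M * 4)), kap M γ' = γ := by
  rw [pi2_eq_one_iff, isOne2_iff] at h
  obtain ⟨-, h01, h10, -⟩ := h
  have h01' : (2 : ℤ) ∣ toMZ γ 0 1 := even_iff_two_dvd.1 h01
  have h10' : (2 : ℤ) ∣ toMZ γ 1 0 := even_iff_two_dvd.1 h10
  have hM10 : (M : ℤ) ∣ toMZ γ 1 0 := toMZ_10 γ
  have hcop : IsCoprime (2 : ℤ) (M : ℤ) := by
    have : Nat.Coprime 2 M := Nat.coprime_two_left.2 hM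
    exact_mod_cast Nat.isCoprime_iff_coprime.2 this
  have h2M : (2 * (M : ℤ)) ∣ toMZ γ 1 0 := hcop.mul_dvd h10' hM10
  refine ⟨ofMZ (halfConj (toMZ γ)) (by rw [halfConj_det _ h01', toMZ_det]) ?_, ?_⟩
  · show (((M * 4 : ℕ)) : ℤ) ∣ 2 * toMZ γ 1 0
    obtain ⟨t, ht⟩ := h2M
    rw [ht]
    push_cast
    exact ⟨t, by ring⟩
  · apply toMZ_injective
    rw [toMZ_kap, toMZ_ofMZ, dblConj_halfConj _ h01']

end kap

end Fermat.Agent.S59lib.S3Proj
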