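/-
S59lib / S3Proj / Data  (helper3) — Project I, item R7a.

The Hecke system on `Γ₀(M)` (`M` odd) for the reduction `pi2 M : Γ₀(M) →* SL(2, ZMod 2)`:
* `RepFam.twist` : left multiplication of a representative family by elements of `Γ₀(M)` of shape `(1 *; 0 *)`;
* `mData` : the coset datum of `T_ℓ` (`ℓ ∤ 2 M`), representatives `≡ 1` modulo `2`, equivariant for `pi2 M`;
* `conjRel_pi2` : commutation up to conjugation by elements of `ker (pi2 M)`;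
* `sys2 p M` : the Hecke system (operators `T_ℓ`, `ℓ ∤ 2 M`, `ℓ ≠ p`).
-/
import Fermat.Agent.S59lib.S3Proj.Kap
import Fermat.Agent.S59lib.Wa.LevelFreeThree

set_option autoImplicit false
set_option linter.unusedSectionVars false
set_option linter.unusedVariables false
set_option linter.style.haveILetI false

noncomputable section

namespace Fermat.Agent.S59lib.S3Proj

open CongruenceSubgroup Matrix.SpecialLinearGroup Fermat.Agent.S43lib.B1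
open Fermat.Agent.S16lib.LH Fermat.Agent.S41lib.HC Fermat.Agent.S48lib.W1
open scoped MatrixGroups

/-! ### Twisting a representative family -/

section twist

variable {M : ℕ} [NeZero M] {n : ℤ} {ι : Type*}

/-- left multiplication of the representatives by elements of `Γ₀(M)` of shape `(1 *; 0 *)` -/
def repFamTwist (F : RepFam M n ι) (ε : ι → ↥(Gamma0 M)) (hε : ∀ x, Shape1 M (toMZ (ε x))) :
    RepFam M n ι where
  P x := toMZ (ε x) * F.P x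
  shape x := (hε x).mul (F.shape x)
  det_eq x := by rw [Matrix.det_mul, toMZ_det, one_mul, F.det_eq]
  peel g hg hn := by
    obtain ⟨x, g', hg', h⟩ := F.peel g hg hn
    refine ⟨x, g' * toMZ (ε x)⁻¹, hg'.mul_toMZ _, ?_⟩
    rw [h, Matrix.mul_assoc, ← Matrix.mul_assoc (toMZ (ε x)⁻¹), toMZ_inv_mul, Matrix.one_mul]
  uniq g' g'' x x' h' h'' heq := by
    refine F.uniq (g' * toMZ (ε x)) (g'' * toMZ (ε x')) x x' ?_ ?_ ?_
    · rw [Matrix.det_mul, toMZ_det, mul_one]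
      exact h'
    · rw [Matrix.det_mul, toMZ_det, mul_one]
      exact h''
    · rw [Matrix.mul_assoc, Matrix.mul_assoc]
      exact heq

theorem repFamTwist_P (F : RepFam M n ι) (ε : ι → ↥(Gamma0 M)) (hε : ∀ x, Shape1 M (toMZ (ε x)))
    (x : ι) : (repFamTwist F ε hε).P x = toMZ (ε x) * F.P x := rfl

theorem relTwist {F : RepFam M n ι} {D : CosetData ↥(Gamma0 M) ↥(Gamma0 M) ι}
    (h : F.Rel D) (ε : ι → ↥(Gamma0 M)) (hε : ∀ x, Shape1 M (toMZ (ε x))) :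
    (repFamTwist F ε hε).Rel (conjBy D ε) := by
  intro γ x
  show toMZ (ε x) * F.P x * toMZ γ =
    toMZ (ε x * D.c γ x * (ε (D.σ γ x))⁻¹) * (toMZ (ε (D.σ γ x)) * F.P (D.σ γ x))
  rw [Matrix.mul_assoc, h γ x, ← Matrix.mul_assoc (toMZ (ε x * D.c γ x * (ε (D.σ γ x))⁻¹)),
    ← toMZ_mul, inv_mul_cancel_right, toMZ_mul, Matrix.mul_assoc]

end twist

/-! ### Commutation for `pi2` -/

section comm

variable {M : ℕ} [NeZero M] {n₁ n₂ : ℤ} {ι κ : Type*} [Fintype ι] [Fintype κ]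
  {D₁ : CosetData ↥(Gamma0 M) ↥(Gamma0 M) ι} {D₂ : CosetData ↥(Gamma0 M) ↥(Gamma0 M) κ}
  (F₁ : RepFam M n₁ ι) (F₂ : RepFam M n₂ κ)

include F₁ F₂ in
/-- **Commutation from representative families `≡ 1` modulo `2` of coprime determinants.** -/
theorem conjRel_pi2 (hcop : IsCoprime n₁ n₂) (hn₁ : n₁ ≠ 0) (hn₂ : n₂ ≠ 0)
    (rel₁ : F₁.Rel D₁) (rel₂ : F₂.Rel D₂) (h₁ : ∀ x, IsOne2 (F₁.P x)) (h₂ : ∀ y, IsOne2 (F₂.P y)) :
    ConjRel (pi2 M) D₁ D₂ := by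
  classical
  let Q₁₂ : ι × κ → MZ := fun p => F₂.P p.2 * F₁.P p.1
  let Q₂₁ : κ × ι → MZ := fun k => F₁.P k.2 * F₂.P k.1
  have hQ₁₂ : ∀ p, Shape1 M (Q₁₂ p) := fun p => (F₂.shape p.2).mul (F₁.shape p.1)
  have hQ₂₁ : ∀ k, Shape1 M (Q₂₁ k) := fun k => (F₁.shape k.2).mul (F₂.shape k.1)
  have oQ₁₂ : ∀ p, IsOne2 (Q₁₂ p) := fun p => (h₂ p.2).mul (h₁ p.1)
  have oQ₂₁ : ∀ k, IsOne2 (Q₂₁ k) := fun k => (h₁ k.2).mul (h₂ k.1)
  have h₁₂ : ∀ γ p, Q₁₂ p * toMZ γ =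
      toMZ ((D₁.comp D₂).c γ p) * Q₁₂ ((D₁.comp D₂).σ γ p) := by
    intro γ p
    show F₂.P p.2 * F₁.P p.1 * toMZ γ = toMZ (D₂.c (D₁.c γ p.1) p.2) *
      (F₂.P (D₂.σ (D₁.c γ p.1) p.2) * F₁.P (D₁.σ γ p.1))
    rw [Matrix.mul_assoc, rel₁ γ p.1, ← Matrix.mul_assoc, rel₂ (D₁.c γ p.1) p.2,
      Matrix.mul_assoc]
  have h₂₁ : ∀ γ k, Q₂₁ k * toMZ γ =
      toMZ ((D₂.comp D₁).c γ k) * Q₂₁ ((D₂.comp D₁).σ γ k) := by
    intro γ k
    show F₁.P k.2 * F₂.P k.1 * toMZ γ = toMZ (D₁.c (D₂.c γ k.1) k.2) *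
      (F₁.P (D₁.σ (D₂.c γ k.1) k.2) * F₂.P (D₂.σ γ k.1))
    rw [Matrix.mul_assoc, rel₂ γ k.1, ← Matrix.mul_assoc, rel₁ (D₂.c γ k.1) k.2,
      Matrix.mul_assoc]
  have hE : ∀ p : ι × κ, ∃ (k : κ × ι) (d : ↥(Gamma0 M)), Q₁₂ p = toMZ d * Q₂₁ k := by
    intro p
    have hdet : (Q₁₂ p).det = n₁ * n₂ := by
      show (F₂.P p.2 * F₁.P p.1).det = _
      rw [Matrix.det_mul, F₁.det_eq, F₂.det_eq, mul_comm]
    obtain ⟨x, y, d, hd⟩ := F₁.exists_pair F₂ hn₁ hn₂ (Q₁₂ p) (hQ₁₂ p).shapeU hdet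
    exact ⟨(y, x), d, hd⟩
  choose e d hd using hE
  have hU₁₂ : ∀ (c c' : ↥(Gamma0 M)) (p p' : ι × κ),
      toMZ c * Q₁₂ p = toMZ c' * Q₁₂ p' → p = p' := by
    intro c c' p p' h
    obtain ⟨h1, h2, -⟩ := F₂.uniq_pair F₁ hcop.symm hn₂ hn₁ c c' p.2 p'.2 p.1 p'.1 h
    exact Prod.ext h2 h1
  have hU₂₁ : ∀ (c c' : ↥(Gamma0 M)) (k k' : κ × ι),
      toMZ c * Q₂₁ k = toMZ c' * Q₂₁ k' → k = k' ∧ c = c' := by
    intro c c' k k' h
    obtain ⟨h1, h2, h3⟩ := F₁.uniq_pair F₂ hcop hn₁ hn₂ c c' k.2 k'.2 k.1 k'.1 h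
    exact ⟨Prod.ext h2 h1, h3⟩
  have hinj : Function.Injective e := by
    intro p p' hpp'
    have e1 : toMZ (d p)⁻¹ * Q₁₂ p = Q₂₁ (e p) := by
      rw [hd p, ← Matrix.mul_assoc, toMZ_inv_mul, Matrix.one_mul]
    have e2 : toMZ (d p')⁻¹ * Q₁₂ p' = Q₂₁ (e p') := by
      rw [hd p', ← Matrix.mul_assoc, toMZ_inv_mul, Matrix.one_mul]
    refine hU₁₂ (d p)⁻¹ (d p')⁻¹ p p' ?_
    rw [e1, e2, hpp']
  have hbij : Function.Bijective e :=
    (Fintype.bijective_iff_injective_and_card e).mpr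
      ⟨hinj, by rw [Fintype.card_prod, Fintype.card_prod, mul_comm]⟩
  refine ⟨Equiv.ofBijective e hbij, fun p => (d p)⁻¹, fun p => ?_, fun γ p => ?_⟩
  · rw [map_inv, pi2_eq_one_of_rel (oQ₁₂ p) (oQ₂₁ (e p)) (d p) (hd p), inv_one]
  · rw [inv_inv]
    show (D₂.comp D₁).c γ (e p) = (d p)⁻¹ * (D₁.comp D₂).c γ p * d ((D₁.comp D₂).σ γ p)
    have e1 := h₂₁ γ (e p)
    have e2 : Q₂₁ (e p) * toMZ γ =
        toMZ ((d p)⁻¹ * (D₁.comp D₂).c γ p * d ((D₁.comp D₂).σ γ p)) *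
          Q₂₁ (e ((D₁.comp D₂).σ γ p)) := by
      have e3 : Q₂₁ (e p) = toMZ (d p)⁻¹ * Q₁₂ p := by
        rw [hd p, ← Matrix.mul_assoc, toMZ_inv_mul, Matrix.one_mul]
      rw [e3, Matrix.mul_assoc, h₁₂ γ p, hd ((D₁.comp D₂).σ γ p), toMZ_mul, toMZ_mul]
      simp only [Matrix.mul_assoc]
    rw [e1] at e2
    exact (hU₂₁ _ _ _ _ e2).2

/-- equivariance for `pi2` from representatives `≡ 1` modulo `2` -/
theorem isEquivariant_pi2_of_rel (rel₁ : F₁.Rel D₁) (h₁ : ∀ x, IsOne2 (F₁.P x)) :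
    CosetData.IsEquivariant (pi2 M) D₁ := by
  intro γ x
  have h := congrArg rm (rel₁ γ x)
  rw [map_mul, map_mul] at h
  have a1 : rm (F₁.P x) = 1 := h₁ x
  have a2 : rm (F₁.P (D₁.σ γ x)) = 1 := h₁ _
  rw [a1, a2, one_mul, mul_one] at h
  apply Subtype.ext
  rw [pi2_coe, pi2_coe]
  exact h.symm

end comm

/-! ### The normalised datum of `T_ℓ` -/

section T

variable {M ℓ : ℕ} [NeZero M] [Fact ℓ.Prime] (hM : Odd M) (hℓM : ¬ ℓ ∣ M) (hℓ2 : ℓ ≠ 2)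

include hℓ2 in
theorem odd_ell : Odd ℓ := (Fact.out : ℓ.Prime).odd_of_ne_two hℓ2

include hℓ2 in
theorem det_rm_tRepN (x : OnePoint (ZMod ℓ)) : (rm (tRepN hℓM x)).det = 1 := by
  have h1 : (rm (tRepN hℓM x)).det = Int.castRingHom (ZMod 2) (tRepN hℓM x).det :=
    (RingHom.map_det _ _).symm
  have h2 : (tRepN hℓM x).det = (ℓ : ℤ) := (tFam hℓM).det_eq x
  rw [h1, h2, eq_intCast, Int.cast_natCast]
  exact ZMod.natCast_eq_one_iff_odd.2 (odd_ell hℓ2)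

/-- the reduction modulo `2` of the representative `tRepN x` -/
def red2 (x : OnePoint (ZMod ℓ)) : G2 := ⟨rm (tRepN hℓM x), det_rm_tRepN hℓM hℓ2 x⟩

/-- the normalising elements for `pi2` -/
def epsSec (x : OnePoint (ZMod ℓ)) : ↥(Gamma0 M) :=
  Classical.choose (exists_lift M hM (red2 hℓM hℓ2 x)⁻¹)

theorem pi2_epsSec (x : OnePoint (ZMod ℓ)) :
    pi2 M (epsSec hM hℓM hℓ2 x) = (red2 hℓM hℓ2 x)⁻¹ :=
  (Classical.choose_spec (exists_lift M hM (red2 hℓM hℓ2 x)⁻¹)).1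

theorem shape1_epsSec (x : OnePoint (ZMod ℓ)) : Shape1 M (toMZ (epsSec hM hℓM hℓ2 x)) :=
  (Classical.choose_spec (exists_lift M hM (red2 hℓM hℓ2 x)⁻¹)).2

/-- the coset datum of `T_ℓ` normalised for `pi2` -/
def mData : CosetData ↥(Gamma0 M) ↥(Gamma0 M) (OnePoint (ZMod ℓ)) :=
  conjBy (nData hℓM) (epsSec hM hℓM hℓ2)

/-- its representative family -/
def mFam : RepFam M (ℓ : ℤ) (OnePoint (ZMod ℓ)) :=
  repFamTwist (tFam hℓM) (epsSec hM hℓM hℓ2) (shape1_epsSec hM hℓM hℓ2)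

theorem mFam_rel : (mFam hM hℓM hℓ2).Rel (mData hM hℓM hℓ2) :=
  relTwist (tFam_rel hℓM) _ _

theorem mFam_isOne2 (x : OnePoint (ZMod ℓ)) : IsOne2 ((mFam hM hℓM hℓ2).P x) := by
  show rm (toMZ (epsSec hM hℓM hℓ2 x) * tRepN hℓM x) = 1
  rw [map_mul, ← pi2_coe, pi2_epsSec]
  have h1 : rm (tRepN hℓM x) = ((red2 hℓM hℓ2 x : G2) : Matrix (Fin 2) (Fin 2) (ZMod 2)) := rfl
  rw [h1, ← Matrix.SpecialLinearGroup.coe_mul, inv_mul_cancel, Matrix.SpecialLinearGroup.coe_one]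

theorem mData_equivariant : CosetData.IsEquivariant (pi2 M) (mData hM hℓM hℓ2) :=
  isEquivariant_pi2_of_rel (mFam hM hℓM hℓ2) (mFam_rel hM hℓM hℓ2) (mFam_isOne2 hM hℓM hℓ2)

end T

/-! ### The Hecke system -/

section sys

variable (p M : ℕ) [NeZero M]

/-- the index type: the primes `ℓ ∤ 2 M`, `ℓ ≠ p` -/
abbrev I2 : Type := {ℓ : ℕ // ℓ.Prime ∧ ¬ ℓ ∣ M * 2 ∧ ℓ ≠ p}

variable {p M}

theorem I2.not_dvd (i : I2 p M) : ¬ i.1 ∣ M := fun h => i.2.2.1 (h.mul_right 2)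

theorem I2.ne_two (i : I2 p M) : i.1 ≠ 2 := fun h => i.2.2.1 (by rw [h]; exact Dvd.intro_left M rfl)

variable (hM : Odd M)

/-- the coset datum of the index `i` -/
def sysD (i : I2 p M) : CosetData ↥(Gamma0 M) ↥(Gamma0 M) (OnePoint (ZMod i.1)) :=
  haveI : Fact i.1.Prime := ⟨i.2.1⟩
  mData hM i.not_dvd i.ne_two

/-- the representative family of the index `i` -/
def sysFam (i : I2 p M) : RepFam M ((i.1 : ℕ) : ℤ) (OnePoint (ZMod i.1)) :=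
  haveI : Fact i.1.Prime := ⟨i.2.1⟩
  mFam hM i.not_dvd i.ne_two

theorem sysFam_rel (i : I2 p M) : (sysFam hM i).Rel (sysD hM i) :=
  haveI : Fact i.1.Prime := ⟨i.2.1⟩
  mFam_rel hM i.not_dvd i.ne_two

theorem sysFam_isOne2 (i : I2 p M) (x : OnePoint (ZMod i.1)) : IsOne2 ((sysFam hM i).P x) :=
  haveI : Fact i.1.Prime := ⟨i.2.1⟩
  mFam_isOne2 hM i.not_dvd i.ne_two x

instance sysFintype (i : I2 p M) : Fintype (OnePoint (ZMod i.1)) := by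
  haveI : NeZero i.1 := ⟨i.2.1.ne_zero⟩
  exact inferInstance

theorem sysD_equivariant (i : I2 p M) : CosetData.IsEquivariant (pi2 M) (sysD hM i) :=
  haveI : Fact i.1.Prime := ⟨i.2.1⟩
  mData_equivariant hM i.not_dvd i.ne_two

theorem sysD_comm (i j : I2 p M) : ConjRel (pi2 M) (sysD hM i) (sysD hM j) := by
  by_cases hij : i = j
  · subst hij
    exact ⟨Equiv.refl _, fun _ => 1, fun _ => map_one _, fun γ q => by simp⟩
  · have hne : i.1 ≠ j.1 := fun h => hij (Subtype.ext h)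
    have hcop : IsCoprime ((i.1 : ℕ) : ℤ) ((j.1 : ℕ) : ℤ) :=
      Nat.isCoprime_iff_coprime.mpr ((Nat.coprime_primes i.2.1 j.2.1).mpr hne)
    have h0 : ∀ k : I2 p M, ((k.1 : ℕ) : ℤ) ≠ 0 := fun k => by
      exact_mod_cast k.2.1.ne_zero
    exact conjRel_pi2 (sysFam hM i) (sysFam hM j) hcop (h0 i) (h0 j) (sysFam_rel hM i)
      (sysFam_rel hM j) (sysFam_isOne2 hM i) (sysFam_isOne2 hM j)

variable (p) in
/-- **the Hecke system on `Γ₀(M)` over `SL₂(𝔽₂)`** -/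
def sys2 : HeckeSys ↥(Gamma0 M) G2 (I2 p M) where
  π := pi2 M
  ι i := OnePoint (ZMod i.1)
  fin i := sysFintype i
  D i := sysD hM i
  equi i := sysD_equivariant hM i
  comm i j := sysD_comm hM i j

theorem pi2_neg_one : pi2 M ⟨-1, neg_one_mem_Gamma0 M⟩ = 1 := by
  apply Subtype.ext
  ext i j
  rw [pi2_coe, rm_apply]
  show (((-1 : SL(2, ℤ)) : Matrix (Fin 2) (Fin 2) ℤ) i j : ZMod 2) = (1 : Matrix (Fin 2) (Fin 2) (ZMod 2)) i j
  rw [Matrix.SpecialLinearGroup.coe_neg, Matrix.SpecialLinearGroup.coe_one]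
  fin_cases i <;> fin_cases j <;> simp

open Fermat.Agent.S59lib.Wa in
/-- right exactness for levels without elements of order three -/
theorem sys2_rightExact (h3 : NoOrderThree (Gamma0 M)) (𝒪 : Type) [CommRing 𝒪] [Invertible (2 : 𝒪)] :
    (sys2 p hM).RightExact 𝒪 := by
  intro W W'' _ _ _ _ _ _ _ _ v hv hsurj
  exact Z1_map_surjective_of_noOrderThree (R := 𝒪) (π := pi2 M) (neg_one_mem_Gamma0 M) pi2_neg_one h3
    v hv hsurj

end sys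

end Fermat.Agent.S59lib.S3Proj
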