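/-
S59lib / S3Proj / Shapiro  (helper3) — Project I, item R7a.

**Shapiro's lemma in degree one, with Hecke operators.**  `π : Γ →* G`, `X` a `G`-set, `x₀ : X`,
`ι : Γ' →* Γ` with `π (ι γ') • x₀ = x₀`.  The map
  `shH : H¹_π(Γ, Fun(X, A)) → H¹(Γ', A)`,  `[f] ↦ [γ' ↦ f (ι γ') x₀]`
(`A` with trivial action) is
* injective if `Γ` is transitive on `X` and `ι(Γ')` is the full stabiliser of `x₀`;
* surjective if moreover `ι` is injective;
* compatible with the operators of coset data `D` on `Γ`, `D'` on `Γ'` with `ι (D'.c γ' x) = D.c (ι γ') x`.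
The pull-back `pullData` of an equivariant coset datum along such an `ι`.
-/
import Fermat.Agent.S59lib.S3Proj.Mods
import Fermat.Agent.S43lib.B1.Pull

set_option autoImplicit false
set_option linter.unusedSectionVars false
set_option linter.unusedVariables false
set_option linter.style.haveILetI false

noncomputable section

namespace Fermat.Agent.S59lib.S3Proj

open Fermat.Agent.S43lib.B1 Fermat.Agent.S41lib.HC

section shapiro

variable {Γ Γ' G G' : Type} [Group Γ] [Group Γ'] [Group G] [Group G'] (π : Γ →* G) (π' : Γ' →* G')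
variable (ι : Γ' →* Γ)
variable (X : Type) [MulAction G X] (x₀ : X)
variable (R : Type) [CommRing R] (A : Type) [AddCommGroup A] [Module R A] [DistribMulAction G' A]
  [SMulCommClass G' R A]
variable (htriv : ∀ (g : G') (a : A), g • a = a)
variable (hstab : ∀ γ', π (ι γ') • x₀ = x₀)

local notation "𝟙" => (1 : G →* ℤˣ)

theorem funTw_one_smul_apply (g : G) (f : FunTw 𝟙 X A) (x : X) : (g • f) x = f (g⁻¹ • x) := by
  rw [FunTw.smul_apply, MonoidHom.one_apply, Units.val_one, one_smul]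

include htriv hstab in
theorem shFun_mem (f : ↥(Z1 π R (FunTw 𝟙 X A))) :
    (fun γ' => (f : Γ → FunTw 𝟙 X A) (ι γ') x₀) ∈ Z1 π' R A := by
  intro γ δ
  show (f : Γ → FunTw 𝟙 X A) (ι (γ * δ)) x₀ =
    (f : Γ → FunTw 𝟙 X A) (ι γ) x₀ + π' γ • (f : Γ → FunTw 𝟙 X A) (ι δ) x₀
  rw [map_mul, f.2, FunTw.add_apply, funTw_one_smul_apply, htriv]
  congr 2
  rw [inv_smul_eq_iff, hstab]

/-- Shapiro's map on crossed homomorphisms -/
def shZ : ↥(Z1 π R (FunTw 𝟙 X A)) →ₗ[R] ↥(Z1 π' R A) where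
  toFun f := ⟨fun γ' => (f : Γ → FunTw 𝟙 X A) (ι γ') x₀, shFun_mem π π' ι X x₀ R A htriv hstab f⟩
  map_add' f f' := rfl
  map_smul' r f := rfl

@[simp] theorem shZ_apply (f : ↥(Z1 π R (FunTw 𝟙 X A))) (γ' : Γ') :
    ((shZ π π' ι X x₀ R A htriv hstab f : ↥(Z1 π' R A)) : Γ' → A) γ' =
      (f : Γ → FunTw 𝟙 X A) (ι γ') x₀ := rfl

/-- Shapiro's map -/
def shH : H1 π R (FunTw 𝟙 X A) →ₗ[R] H1 π' R A :=
  (B1z π R (FunTw 𝟙 X A)).mapQ (B1z π' R A) (shZ π π' ι X x₀ R A htriv hstab) (by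
    rintro f ⟨w, hw⟩
    refine ⟨0, ?_⟩
    funext γ'
    show π' γ' • (0 : A) - 0 = (f : Γ → FunTw 𝟙 X A) (ι γ') x₀
    have h1 : (f : Γ → FunTw 𝟙 X A) (ι γ') = π (ι γ') • w - w := (congrFun hw (ι γ')).symm
    rw [h1, FunTw.sub_apply, funTw_one_smul_apply, smul_zero, sub_zero]
    have : (π (ι γ'))⁻¹ • x₀ = x₀ := by rw [inv_smul_eq_iff, hstab]
    rw [this, sub_self])

@[simp] theorem shH_mk (f : ↥(Z1 π R (FunTw 𝟙 X A))) :
    shH π π' ι X x₀ R A htriv hstab (H1.mk π R (FunTw 𝟙 X A) f) =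
      H1.mk π' R A (shZ π π' ι X x₀ R A htriv hstab f) := rfl

/-! ### Hecke operators -/

theorem shH_heckeH {κ : Type} [Fintype κ] {D : CosetData Γ Γ κ} {D' : CosetData Γ' Γ' κ}
    (hD : CosetData.IsEquivariant π D) (hD' : CosetData.IsEquivariant π' D')
    (hc : ∀ γ' x, ι (D'.c γ' x) = D.c (ι γ') x) (y : H1 π R (FunTw 𝟙 X A)) :
    shH π π' ι X x₀ R A htriv hstab (heckeH R (FunTw 𝟙 X A) hD y) =
      heckeH R A hD' (shH π π' ι X x₀ R A htriv hstab y) := by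
  obtain ⟨f, rfl⟩ := H1.mk_surjective π R (FunTw 𝟙 X A) y
  rw [heckeH_mk, shH_mk, shH_mk, heckeH_mk]
  congr 1
  apply Subtype.ext
  funext γ'
  show (∑ x, (f : Γ → FunTw 𝟙 X A) (D.c (ι γ') x)) x₀ =
    ∑ x, (f : Γ → FunTw 𝟙 X A) (ι (D'.c γ' x)) x₀
  simp_rw [hc]
  have : ∀ (s : Finset κ) (F : κ → FunTw 𝟙 X A), (∑ x ∈ s, F x) x₀ = ∑ x ∈ s, F x x₀ := by
    intro s F
    classical
    induction s using Finset.induction_on with
    | empty => simp
    | insert a s ha ih => rw [Finset.sum_insert ha, Finset.sum_insert ha, FunTw.add_apply, ih]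
  exact this _ _

/-! ### Injectivity -/

variable (htr : ∀ x : X, ∃ γ : Γ, π γ • x₀ = x)
variable (him : ∀ γ : Γ, π γ • x₀ = x₀ → ∃ γ', ι γ' = γ)

include htriv hstab htr him in
theorem shH_injective : Function.Injective (shH π π' ι X x₀ R A htriv hstab) := by
  rw [← LinearMap.ker_eq_bot, LinearMap.ker_eq_bot']
  intro y hy
  obtain ⟨f, rfl⟩ := H1.mk_surjective π R (FunTw 𝟙 X A) y
  rw [shH_mk, H1.mk_eq_zero_iff] at hy
  obtain ⟨a, ha⟩ := hy
  have hf := f.2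
  -- `f` vanishes at `x₀` on the stabiliser
  have h0 : ∀ δ : Γ, π δ • x₀ = x₀ → (f : Γ → FunTw 𝟙 X A) δ x₀ = 0 := by
    intro δ hδ
    obtain ⟨δ', rfl⟩ := him δ hδ
    have := ha δ'
    rw [shZ_apply, htriv, sub_self] at this
    exact this
  -- well-definedness
  have hwd : ∀ (γ₁ γ₂ : Γ) (y : X), π γ₁ • x₀ = y → π γ₂ • x₀ = y →
      (f : Γ → FunTw 𝟙 X A) γ₁ y = (f : Γ → FunTw 𝟙 X A) γ₂ y := by
    intro γ₁ γ₂ y h1 h2
    have hδ : π (γ₁⁻¹ * γ₂) • x₀ = x₀ := by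
      rw [map_mul, map_inv, mul_smul, h2, inv_smul_eq_iff, h1]
    have h3 : γ₂ = γ₁ * (γ₁⁻¹ * γ₂) := by rw [mul_inv_cancel_left]
    conv_rhs => rw [h3]
    rw [hf, FunTw.add_apply, funTw_one_smul_apply]
    have h4 : (π γ₁)⁻¹ • y = x₀ := by rw [inv_smul_eq_iff, h1]
    rw [h4, h0 _ hδ, add_zero]
  choose r hr using htr
  rw [H1.mk_eq_zero_iff]
  refine ⟨⟨fun x => -((f : Γ → FunTw 𝟙 X A) (r x) x)⟩, fun γ => ?_⟩
  ext y
  rw [FunTw.sub_apply, funTw_one_smul_apply]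
  show (f : Γ → FunTw 𝟙 X A) γ y = -((f : Γ → FunTw 𝟙 X A) (r ((π γ)⁻¹ • y)) ((π γ)⁻¹ • y)) -
    -((f : Γ → FunTw 𝟙 X A) (r y) y)
  -- `α = γ⁻¹ * r y`
  have hα : π (γ⁻¹ * r y) • x₀ = (π γ)⁻¹ • y := by
    rw [map_mul, map_inv, mul_smul, hr]
  rw [hwd (r ((π γ)⁻¹ • y)) (γ⁻¹ * r y) ((π γ)⁻¹ • y) (hr _) hα, hf, FunTw.add_apply,
    funTw_one_smul_apply, Z1_inv hf, FunTw.neg_apply, funTw_one_smul_apply, map_inv, inv_inv,
    smul_inv_smul]
  abel

/-! ### Surjectivity -/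

variable (hinj : Function.Injective ι)

include htriv hstab htr him hinj in
theorem shH_surjective : Function.Surjective (shH π π' ι X x₀ R A htriv hstab) := by
  intro y'
  obtain ⟨f', rfl⟩ := H1.mk_surjective π' R A y'
  have hf' : ∀ γ δ : Γ', (f' : Γ' → A) (γ * δ) = (f' : Γ' → A) γ + (f' : Γ' → A) δ := by
    intro γ δ
    rw [f'.2, htriv]
  have hf'1 : (f' : Γ' → A) 1 = 0 := Z1_one f'.2
  have hf'inv : ∀ γ : Γ', (f' : Γ' → A) γ⁻¹ = -(f' : Γ' → A) γ := by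
    intro γ
    have := hf' γ γ⁻¹
    rw [mul_inv_cancel, hf'1] at this
    exact (neg_eq_of_add_eq_zero_right this.symm).symm
  choose r hr using htr
  -- the cocycle `c γ y = ι⁻¹ ((r y)⁻¹ * γ * r (γ⁻¹ y))`
  have hfix : ∀ (γ : Γ) (y : X), π ((r y)⁻¹ * γ * r ((π γ)⁻¹ • y)) • x₀ = x₀ := by
    intro γ y
    rw [map_mul, map_mul, map_inv, mul_smul, mul_smul, hr, smul_inv_smul, inv_smul_eq_iff, hr]
  choose c hc using fun (γ : Γ) (y : X) => him _ (hfix γ y)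
  have hcmul : ∀ (γ δ : Γ) (y : X), c (γ * δ) y = c γ y * c δ ((π γ)⁻¹ • y) := by
    intro γ δ y
    apply hinj
    rw [map_mul, hc, hc, hc]
    have : (π (γ * δ))⁻¹ • y = (π δ)⁻¹ • (π γ)⁻¹ • y := by
      rw [map_mul, mul_inv_rev, mul_smul]
    rw [this]
    group
  have hZ : (fun γ => (⟨fun y => (f' : Γ' → A) (c γ y)⟩ : FunTw 𝟙 X A)) ∈ Z1 π R (FunTw 𝟙 X A) := by
    intro γ δ
    ext y
    rw [FunTw.add_apply, funTw_one_smul_apply]
    show (f' : Γ' → A) (c (γ * δ) y) = (f' : Γ' → A) (c γ y) + (f' : Γ' → A) (c δ ((π γ)⁻¹ • y))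
    rw [hcmul, hf']
  refine ⟨H1.mk π R (FunTw 𝟙 X A) ⟨_, hZ⟩, ?_⟩
  rw [shH_mk]
  congr 1
  apply Subtype.ext
  funext γ'
  show (f' : Γ' → A) (c (ι γ') x₀) = (f' : Γ' → A) γ'
  -- `r x₀` is in the image of `ι`
  obtain ⟨ρ₀, hρ₀⟩ := him (r x₀) (hr x₀)
  have h1 : c (ι γ') x₀ = ρ₀⁻¹ * γ' * ρ₀ := by
    apply hinj
    rw [hc, map_mul, map_mul, map_inv, hρ₀]
    have : (π (ι γ'))⁻¹ • x₀ = x₀ := by rw [inv_smul_eq_iff, hstab]
    rw [this]
  rw [h1, hf', hf', hf'inv]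
  abel

end shapiro

/-! ### The pull-back of a coset datum -/

section pull

variable {Γ Γ' G : Type} [Group Γ] [Group Γ'] [Group G] (π : Γ →* G) (ι : Γ' →* Γ)
variable (X : Type) [MulAction G X] (x₀ : X)
variable (hstab : ∀ γ', π (ι γ') • x₀ = x₀)
variable (him : ∀ γ : Γ, π γ • x₀ = x₀ → ∃ γ', ι γ' = γ) (hinj : Function.Injective ι)
variable {κ : Type} (D : CosetData Γ Γ κ) (hD : CosetData.IsEquivariant π D)

include hstab hD in
theorem pull_fix (γ' : Γ') (x : κ) : π (D.c (ι γ') x) • x₀ = x₀ := by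
  rw [hD, hstab]

/-- the pull-back of an equivariant coset datum to the stabiliser of `x₀` -/
def pullData : CosetData Γ' Γ' κ where
  σ γ' := D.σ (ι γ')
  c γ' x := Classical.choose (him _ (pull_fix π ι X x₀ hstab D hD γ' x))
  σ_mul γ δ x := by rw [map_mul, D.σ_mul]
  c_mul γ δ x := by
    apply hinj
    have h1 := Classical.choose_spec (him _ (pull_fix π ι X x₀ hstab D hD (γ * δ) x))
    have h2 := Classical.choose_spec (him _ (pull_fix π ι X x₀ hstab D hD γ x))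
    have h3 := Classical.choose_spec (him _ (pull_fix π ι X x₀ hstab D hD δ (D.σ (ι γ) x)))
    refine h1.trans ?_
    rw [map_mul ι (Classical.choose _) (Classical.choose _), h2, h3, map_mul, D.c_mul]

theorem pullData_c (γ' : Γ') (x : κ) :
    ι ((pullData π ι X x₀ hstab him hinj D hD).c γ' x) = D.c (ι γ') x :=
  Classical.choose_spec (him _ (pull_fix π ι X x₀ hstab D hD γ' x))

theorem pullData_σ (γ' : Γ') : (pullData π ι X x₀ hstab him hinj D hD).σ γ' = D.σ (ι γ') := rfl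

end pull

end Fermat.Agent.S59lib.S3Proj
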