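/-
S59lib / S3Proj / Cmp  (helper3) — Project I, item R7a.

Comparison of Hecke operators:
* `heckeH_eq_of_conj` : two equivariant coset data which are conjugate (after a bijection of the index
  sets) by elements of `ker π` induce the same operator on `H¹`;
* `exists_conj_of_fam` : a coset datum on `Γ₀(N)` with integral representatives of determinant `n`
  and shape `(u *; 0 *)` is conjugate to the datum of any representative family `RepFam N n κ`;
* the pull-backs of the data of `sys2` to `Γ₀(2 M)` (stabiliser of `e1`) and to `Γ₀(4 M)` (through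
  `kap`, kernel of `pi2`) induce the standard operators `T_ℓ` of these levels.
-/
import Fermat.Agent.S59lib.S3Proj.Data
import Fermat.Agent.S59lib.S3Proj.Shapiro
import Fermat.Agent.S43lib.B1.TWLevel

set_option autoImplicit false
set_option linter.unusedSectionVars false
set_option linter.unusedVariables false
set_option linter.style.haveILetI false

noncomputable section

namespace Fermat.Agent.S59lib.S3Proj

open CongruenceSubgroup Matrix.SpecialLinearGroup Fermat.Agent.S43lib.B1
open Fermat.Agent.S16lib.LH Fermat.Agent.S41lib.HC Fermat.Agent.S48lib.W1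
open Fermat.Agent.S31lib.PET
open scoped MatrixGroups

/-! ### Conjugate coset data induce the same operator -/

section conj

variable {Γ G : Type*} [Group Γ] [Group G] {π : Γ →* G}
variable (R : Type*) [CommRing R]
variable (W : Type*) [AddCommGroup W] [Module R W] [DistribMulAction G W] [SMulCommClass G R W]

theorem heckeH_eq_of_conj {ι κ : Type*} [Fintype ι] [Fintype κ] {D : CosetData Γ Γ ι}
    {D' : CosetData Γ Γ κ} (hD : CosetData.IsEquivariant π D)
    (hD' : CosetData.IsEquivariant π D') (e : ι ≃ κ) (d : ι → Γ) (hd : ∀ x, π (d x) = 1)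
    (hc : ∀ γ x, D'.c γ (e x) = d x * D.c γ x * (d (D.σ γ x))⁻¹) (y : H1 π R W) :
    heckeH R W hD' y = heckeH R W hD y := by
  obtain ⟨f, rfl⟩ := H1.mk_surjective π R W y
  rw [heckeH_mk, heckeH_mk, ← sub_eq_zero, ← map_sub, H1.mk_eq_zero_iff]
  have hf := f.2
  refine ⟨- ∑ x, (f : Γ → W) (d x), fun γ => ?_⟩
  show ∑ z, (f : Γ → W) (D'.c γ z) - ∑ x, (f : Γ → W) (D.c γ x) =
    π γ • (- ∑ x, (f : Γ → W) (d x)) - (- ∑ x, (f : Γ → W) (d x))
  have h1 : ∀ x, (f : Γ → W) (D'.c γ (e x)) =
      (f : Γ → W) (d x) + (f : Γ → W) (D.c γ x) - π γ • (f : Γ → W) (d (D.σ γ x)) := by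
    intro x
    rw [hc, hf, hf, hd, one_smul, Z1_inv hf, hd, inv_one, one_smul, map_mul, hd, one_mul, hD,
      smul_neg]
    abel
  rw [← Equiv.sum_comp e (fun z => (f : Γ → W) (D'.c γ z))]
  simp_rw [h1]
  rw [Finset.sum_sub_distrib, Finset.sum_add_distrib, ← Finset.smul_sum,
    Equiv.sum_comp (D.σ γ) (fun x => (f : Γ → W) (d x)), smul_neg]
  abel

end conj

/-! ### Comparison with a representative family -/

section fam

variable {N : ℕ} [NeZero N] {n : ℤ} {κ κ' : Type*} [Fintype κ] [Fintype κ']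

/-- a coset datum with integral representatives `P'` is conjugate to the datum of a representative
family of the same determinant -/
theorem exists_conj_of_fam (F : RepFam N n κ) {D : CosetData ↥(Gamma0 N) ↥(Gamma0 N) κ}
    (rel : F.Rel D) (hn : n ≠ 0) (P' : κ' → MZ) (hP' : ∀ x, ShapeU N (P' x))
    (hdet : ∀ x, (P' x).det = n) {D' : CosetData ↥(Gamma0 N) ↥(Gamma0 N) κ'}
    (rel' : ∀ γ x, P' x * toMZ γ = toMZ (D'.c γ x) * P' (D'.σ γ x))
    (huniq : ∀ (c c' : ↥(Gamma0 N)) (x x' : κ'), toMZ c * P' x = toMZ c' * P' x' → x = x')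
    (hcard : Fintype.card κ' = Fintype.card κ) :
    ∃ (e : κ' ≃ κ) (d : κ' → ↥(Gamma0 N)), (∀ x, P' x = toMZ (d x) * F.P (e x)) ∧
      ∀ γ x, D.c γ (e x) = (d x)⁻¹ * D'.c γ x * ((d (D'.σ γ x))⁻¹)⁻¹ := by
  classical
  have hE : ∀ x : κ', ∃ (y : κ) (d : ↥(Gamma0 N)), P' x = toMZ d * F.P y := by
    intro x
    obtain ⟨y, g', hg', hgy⟩ := F.peel (P' x) (hP' x) (by rw [hdet x])
    have hdetd : g'.det = 1 := by
      have h1 : (P' x).det = g'.det * n := by rw [hgy, Matrix.det_mul, F.det_eq]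
      rw [hdet x] at h1
      have h2 : 1 * n = g'.det * n := by rw [one_mul]; exact h1
      exact (mul_right_cancel₀ hn h2).symm
    exact ⟨y, ofMZ g' hdetd hg'.1, by rw [toMZ_ofMZ]; exact hgy⟩
  choose e d hd using hE
  have hinj : Function.Injective e := by
    intro x x' hxx'
    have e1 : toMZ (d x)⁻¹ * P' x = F.P (e x) := by
      rw [hd x, ← Matrix.mul_assoc, toMZ_inv_mul, Matrix.one_mul]
    have e2 : toMZ (d x')⁻¹ * P' x' = F.P (e x') := by
      rw [hd x', ← Matrix.mul_assoc, toMZ_inv_mul, Matrix.one_mul]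
    refine huniq (d x)⁻¹ (d x')⁻¹ x x' ?_
    rw [e1, e2, hxx']
  have hbij : Function.Bijective e :=
    (Fintype.bijective_iff_injective_and_card e).mpr ⟨hinj, hcard⟩
  refine ⟨Equiv.ofBijective e hbij, d, hd, fun γ x => ?_⟩
  rw [inv_inv]
  show D.c γ (e x) = (d x)⁻¹ * D'.c γ x * d (D'.σ γ x)
  have e1 := rel γ (e x)
  have e2 : F.P (e x) * toMZ γ =
      toMZ ((d x)⁻¹ * D'.c γ x * d (D'.σ γ x)) * F.P (e (D'.σ γ x)) := by
    have e3 : F.P (e x) = toMZ (d x)⁻¹ * P' x := by
      rw [hd x, ← Matrix.mul_assoc, toMZ_inv_mul, Matrix.one_mul]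
    rw [e3, Matrix.mul_assoc, rel' γ x, hd (D'.σ γ x), toMZ_mul, toMZ_mul]
    simp only [Matrix.mul_assoc]
  rw [e1] at e2
  have hσ : D.σ γ (e x) = e (D'.σ γ x) := by
    refine F.uniq _ _ _ _ ?_ ?_ e2
    · rw [toMZ_det]
      exact isCoprime_one_left
    · rw [toMZ_det]
      exact isCoprime_one_left
  rw [hσ] at e2
  apply toMZ_injective
  exact MZ_mul_right_cancel (B := F.P (e (D'.σ γ x))) (by rw [F.det_eq]; exact hn) e2

end fam

end Fermat.Agent.S59lib.S3Proj
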