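/-
S59lib / S3Proj / Lvl  (helper3) — Project I, item R7a.

The pull-backs of the coset data of `sys2 p hM` (on `Γ₀(M)`, `M` odd, over `SL₂(𝔽₂)`)
* to `Γ₀(2 M)` (the stabiliser of `e1`, through the inclusion), and
* to `Γ₀(4 M)` (the kernel of `pi2 M`, through `kap M`)
induce the standard operators `T_ℓ` of these levels on `H¹` with trivial coefficients; hence Shapiro's
maps `sh2`, `sh4` intertwine the operators of `sys2` with `lvlOp`.
-/
import Fermat.Agent.S59lib.S3Proj.Cmp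

set_option autoImplicit false
set_option linter.unusedSectionVars false
set_option linter.unusedVariables false
set_option linter.style.haveILetI false

noncomputable section

namespace Fermat.Agent.S59lib.S3Proj

open CongruenceSubgroup Matrix.SpecialLinearGroup Fermat.Agent.S43lib.B1
open Fermat.Agent.S16lib.LH Fermat.Agent.S41lib.HC Fermat.Agent.S48lib.W1
open Fermat.Agent.S31lib.PET
open scoped MatrixGroups

/-! ### Arithmetic of the levels `2 M`, `4 M` -/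

section arith

variable {M : ℕ}

theorem isCoprime_two_of_odd (hM : Odd M) : IsCoprime ((M : ℕ) : ℤ) (2 : ℤ) := by
  have h : Nat.Coprime M 2 := (Nat.coprime_two_right).2 hM
  exact_mod_cast Nat.isCoprime_iff_coprime.mpr h

theorem mul_two_dvd_of (hM : Odd M) {a : ℤ} (h1 : (M : ℤ) ∣ a) (h2 : (2 : ℤ) ∣ a) :
    ((M * 2 : ℕ) : ℤ) ∣ a := by
  push_cast
  exact (isCoprime_two_of_odd hM).mul_dvd h1 h2

/-- shape `(1 *; 0 *)` modulo `2 M` from shape modulo `M` and `≡ 1` modulo `2` -/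
theorem shape1_mul_two (hM : Odd M) {P : MZ} (h1 : Shape1 M P) (h2 : IsOne2 P) :
    Shape1 (M * 2) P := by
  obtain ⟨o00, e01, e10, o11⟩ := (isOne2_iff P).1 h2
  constructor
  · exact mul_two_dvd_of hM h1.1 (even_iff_two_dvd.1 e10)
  · have ha : (M : ℤ) ∣ P 0 0 - 1 := by
      apply (ZMod.intCast_zmod_eq_zero_iff_dvd _ _).1
      push_cast
      rw [h1.2, sub_self]
    have hb : (2 : ℤ) ∣ P 0 0 - 1 := by
      obtain ⟨k, hk⟩ := o00
      exact ⟨k, by rw [hk]; ring⟩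
    have hc := mul_two_dvd_of hM ha hb
    have hd := (ZMod.intCast_zmod_eq_zero_iff_dvd _ _).2 hc
    push_cast at hd
    exact sub_eq_zero.1 hd

end arith

/-! ### The level `2 M` -/

section lvl2

variable {p M : ℕ} [NeZero M] (hM : Odd M)

theorem toMZ_inclMul {N q : ℕ} [NeZero N] [Fact q.Prime] (γ' : ↥(Gamma0 (N * q))) :
    toMZ (inclMul N q γ') = toMZ γ' := rfl

theorem stab2 (γ' : ↥(Gamma0 (M * 2))) : pi2 M (inclMul M 2 γ') • e1 = e1 := by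
  rw [pi2_smul_e1_iff, toMZ_inclMul]
  have h := toMZ_10 γ'
  exact Dvd.dvd.trans ⟨(M : ℤ), by push_cast; ring⟩ h

include hM in
theorem im2 (γ : ↥(Gamma0 M)) (h : pi2 M γ • e1 = e1) :
    ∃ γ' : ↥(Gamma0 (M * 2)), inclMul M 2 γ' = γ := by
  rw [pi2_smul_e1_iff] at h
  have h2 := mul_two_dvd_of hM (toMZ_10 γ) h
  exact ⟨⟨(γ : SL(2, ℤ)), Gamma0_mem.mpr ((ZMod.intCast_zmod_eq_zero_iff_dvd _ _).mpr h2)⟩,
    Subtype.ext rfl⟩

theorem inj2 : Function.Injective (inclMul M 2) := by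
  intro a b h
  apply Subtype.ext
  exact congrArg (fun g : ↥(Gamma0 M) => (g : SL(2, ℤ))) h

/-- the pull-back of the datum of `T_ℓ` to `Γ₀(2 M)` -/
def pD2 (i : I2 p M) : CosetData ↥(Gamma0 (M * 2)) ↥(Gamma0 (M * 2)) (OnePoint (ZMod i.1)) :=
  pullData (pi2 M) (inclMul M 2) X2 e1 stab2 (im2 hM) inj2 (sysD hM i) (sysD_equivariant hM i)

theorem pD2_c (i : I2 p M) (γ' : ↥(Gamma0 (M * 2))) (x : OnePoint (ZMod i.1)) :
    inclMul M 2 ((pD2 hM i).c γ' x) = (sysD hM i).c (inclMul M 2 γ') x :=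
  pullData_c _ _ _ _ _ _ _ _ _ _ _

theorem pD2_rel (i : I2 p M) (γ' : ↥(Gamma0 (M * 2))) (x : OnePoint (ZMod i.1)) :
    (sysFam hM i).P x * toMZ γ' =
      toMZ ((pD2 hM i).c γ' x) * (sysFam hM i).P ((pD2 hM i).σ γ' x) := by
  have h := sysFam_rel hM i (inclMul M 2 γ') x
  rw [← pD2_c, toMZ_inclMul, toMZ_inclMul] at h
  exact h

/-- the pulled-back datum is conjugate to the normalised datum of `T_ℓ` of level `2 M` -/
theorem pD2_conj (i : I2 p M) :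
    haveI : Fact i.1.Prime := ⟨i.2.1⟩
    ∃ (e : OnePoint (ZMod i.1) ≃ OnePoint (ZMod i.1)) (d : OnePoint (ZMod i.1) → ↥(Gamma0 (M * 2))),
      ∀ γ x, (nData (M := M * 2) (ℓ := i.1) i.2.2.1).c γ (e x) =
        (d x)⁻¹ * (pD2 hM i).c γ x * ((d ((pD2 hM i).σ γ x))⁻¹)⁻¹ := by
  haveI : Fact i.1.Prime := ⟨i.2.1⟩
  have hn : ((i.1 : ℕ) : ℤ) ≠ 0 := by exact_mod_cast i.2.1.ne_zero
  obtain ⟨e, d, -, h⟩ := exists_conj_of_fam (tFam (M := M * 2) (ℓ := i.1) i.2.2.1)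
    (tFam_rel (M := M * 2) (ℓ := i.1) i.2.2.1) hn (sysFam hM i).P
    (fun x => (shape1_mul_two hM ((sysFam hM i).shape x) (sysFam_isOne2 hM i x)).shapeU)
    (sysFam hM i).det_eq (D' := pD2 hM i) (pD2_rel hM i)
    (fun c c' x x' h => (sysFam hM i).uniq (toMZ c) (toMZ c') x x'
      (by rw [toMZ_det]; exact isCoprime_one_left) (by rw [toMZ_det]; exact isCoprime_one_left) h)
    rfl
  exact ⟨e, d, h⟩

section op2

variable {G' : Type} [CommGroup G'] [Subsingleton G']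
variable (𝒪 : Type) [CommRing 𝒪] (A : Type) [AddCommGroup A] [Module 𝒪 A] [DistribMulAction G' A]
  [SMulCommClass G' 𝒪 A]

theorem unit_smul_eq (g : G') (a : A) : g • a = a := by
  rw [Subsingleton.elim g 1, one_smul]

/-- Shapiro's map to the level `2 M` -/
def sh2 (χ : (ZMod (M * 2))ˣ →* G') :
    H1 (pi2 M) 𝒪 (FunTw (1 : G2 →* ℤˣ) X2 A) →ₗ[𝒪] H1 (levelPi χ) 𝒪 A :=
  shH (pi2 M) (levelPi χ) (inclMul M 2) X2 e1 𝒪 A (unit_smul_eq A) stab2

theorem sh2_T (χ : (ZMod (M * 2))ˣ →* G') (i : I2 p M)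
    (y : H1 (pi2 M) 𝒪 (FunTw (1 : G2 →* ℤˣ) X2 A)) :
    sh2 𝒪 A χ ((sys2 p hM).T 𝒪 (FunTw (1 : G2 →* ℤˣ) X2 A) i y) =
      lvlOp χ 𝒪 A (Sum.inl (Sum.inl ⟨i.1, i.2.1, i.2.2.1⟩)) (sh2 𝒪 A χ y) := by
  haveI : Fact i.1.Prime := ⟨i.2.1⟩
  have hD' : CosetData.IsEquivariant (levelPi χ) (pD2 hM i) := fun _ _ => Subsingleton.elim _ _
  have h1 := shH_heckeH (pi2 M) (levelPi χ) (inclMul M 2) X2 e1 𝒪 A (unit_smul_eq A) stab2
    (sysD_equivariant hM i) hD' (pD2_c hM i) y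
  obtain ⟨e, d, h⟩ := pD2_conj hM i
  have h2 := heckeH_eq_of_conj 𝒪 A hD'
    (isEquivariant_levelPi χ (nData_equivariant (M := M * 2) (ℓ := i.1) i.2.2.1)) e
    (fun x => (d x)⁻¹) (fun _ => Subsingleton.elim _ _) h (sh2 𝒪 A χ y)
  exact h1.trans h2.symm

include hM in
theorem sh2_injective (χ : (ZMod (M * 2))ˣ →* G') : Function.Injective (sh2 (M := M) 𝒪 A χ) :=
  shH_injective (pi2 M) (levelPi χ) (inclMul M 2) X2 e1 𝒪 A (unit_smul_eq A) stab2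
    (fun x => by
      obtain ⟨g, hg⟩ := X2_trans x
      obtain ⟨γ, hγ⟩ := pi2_surjective M hM g
      exact ⟨γ, by rw [hγ, hg]⟩)
    (im2 hM)

end op2

end lvl2

/-! ### The level `4 M` -/

section lvl4

variable {p M : ℕ} [NeZero M] (hM : Odd M)

theorem stab4 (γ' : ↥(Gamma0 (M * 4))) : pi2 M (kap M γ') • (1 : G2) = 1 := by
  rw [pi2_kap, one_smul]

include hM in
theorem im4 (γ : ↥(Gamma0 M)) (h : pi2 M γ • (1 : G2) = 1) :
    ∃ γ' : ↥(Gamma0 (M * 4)), kap M γ' = γ := by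
  rw [smul_eq_mul, mul_one] at h
  exact exists_kap_eq M hM γ h

/-- the pull-back of the datum of `T_ℓ` to `Γ₀(4 M)` -/
def pD4 (i : I2 p M) : CosetData ↥(Gamma0 (M * 4)) ↥(Gamma0 (M * 4)) (OnePoint (ZMod i.1)) :=
  pullData (pi2 M) (kap M) G2 1 stab4 (im4 hM) (kap_injective M) (sysD hM i)
    (sysD_equivariant hM i)

theorem pD4_c (i : I2 p M) (γ' : ↥(Gamma0 (M * 4))) (x : OnePoint (ZMod i.1)) :
    kap M ((pD4 hM i).c γ' x) = (sysD hM i).c (kap M γ') x :=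
  pullData_c _ _ _ _ _ _ _ _ _ _ _

/-- the representatives at level `4 M` -/
def P4 (i : I2 p M) (x : OnePoint (ZMod i.1)) : MZ := halfConj ((sysFam hM i).P x)

theorem two_dvd_P01 (i : I2 p M) (x : OnePoint (ZMod i.1)) : (2 : ℤ) ∣ (sysFam hM i).P x 0 1 :=
  even_iff_two_dvd.1 ((isOne2_iff _).1 (sysFam_isOne2 hM i x)).2.1

theorem dg_mul_P4 (i : I2 p M) (x : OnePoint (ZMod i.1)) :
    dg * P4 hM i x = (sysFam hM i).P x * dg :=
  dg_mul_halfConj _ (two_dvd_P01 hM i x)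

theorem P4_det (i : I2 p M) (x : OnePoint (ZMod i.1)) : (P4 hM i x).det = ((i.1 : ℕ) : ℤ) := by
  rw [P4, halfConj_det _ (two_dvd_P01 hM i x), (sysFam hM i).det_eq]

theorem P4_rel (i : I2 p M) (γ' : ↥(Gamma0 (M * 4))) (x : OnePoint (ZMod i.1)) :
    P4 hM i x * toMZ γ' = toMZ ((pD4 hM i).c γ' x) * P4 hM i ((pD4 hM i).σ γ' x) := by
  apply dg_mul_left_cancel
  have h := sysFam_rel hM i (kap M γ') x
  rw [← pD4_c] at h
  calc dg * (P4 hM i x * toMZ γ') = (dg * P4 hM i x) * toMZ γ' := by rw [Matrix.mul_assoc]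
    _ = (sysFam hM i).P x * (dg * toMZ γ') := by rw [dg_mul_P4, Matrix.mul_assoc]
    _ = ((sysFam hM i).P x * toMZ (kap M γ')) * dg := by rw [kap_rel, Matrix.mul_assoc]
    _ = toMZ (kap M ((pD4 hM i).c γ' x)) *
        ((sysFam hM i).P ((sysD hM i).σ (kap M γ') x) * dg) := by rw [h, Matrix.mul_assoc]
    _ = toMZ (kap M ((pD4 hM i).c γ' x)) * (dg * P4 hM i ((pD4 hM i).σ γ' x)) := by
        rw [dg_mul_P4]
        rfl
    _ = (dg * toMZ ((pD4 hM i).c γ' x)) * P4 hM i ((pD4 hM i).σ γ' x) := by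
        rw [kap_rel, Matrix.mul_assoc]
    _ = dg * (toMZ ((pD4 hM i).c γ' x) * P4 hM i ((pD4 hM i).σ γ' x)) := by
        rw [Matrix.mul_assoc]

theorem P4_shape (i : I2 p M) (x : OnePoint (ZMod i.1)) : ShapeU (M * 4) (P4 hM i x) := by
  have h1 := (sysFam hM i).shape x
  have h2 := sysFam_isOne2 hM i x
  obtain ⟨o00, e01, e10, o11⟩ := (isOne2_iff _).1 h2
  constructor
  · show ((M * 4 : ℕ) : ℤ) ∣ 2 * (sysFam hM i).P x 1 0
    obtain ⟨k, hk⟩ := mul_two_dvd_of hM h1.1 (even_iff_two_dvd.1 e10)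
    exact ⟨k, by rw [hk]; push_cast; ring⟩
  · show IsCoprime ((sysFam hM i).P x 0 0) ((M * 4 : ℕ) : ℤ)
    have hc1 : IsCoprime ((sysFam hM i).P x 0 0) (M : ℤ) := h1.shapeU.2
    have hc2 : IsCoprime ((sysFam hM i).P x 0 0) (2 : ℤ) := by
      obtain ⟨k, hk⟩ := o00
      exact ⟨1, -k, by rw [hk]; ring⟩
    have h4 : ((M * 4 : ℕ) : ℤ) = (M : ℤ) * (2 * 2) := by push_cast; ring
    rw [h4]
    exact hc1.mul_right (hc2.mul_right hc2)

theorem P4_uniq (i : I2 p M) (c c' : ↥(Gamma0 (M * 4))) (x x' : OnePoint (ZMod i.1))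
    (h : toMZ c * P4 hM i x = toMZ c' * P4 hM i x') : x = x' := by
  refine (sysFam hM i).uniq (toMZ (kap M c)) (toMZ (kap M c')) x x'
    (by rw [toMZ_det]; exact isCoprime_one_left) (by rw [toMZ_det]; exact isCoprime_one_left) ?_
  refine MZ_mul_right_cancel (B := dg) dg_det_ne ?_
  have h1 : dg * (toMZ c * P4 hM i x) = dg * (toMZ c' * P4 hM i x') := by rw [h]
  rw [← Matrix.mul_assoc, ← Matrix.mul_assoc, kap_rel, kap_rel, Matrix.mul_assoc, Matrix.mul_assoc,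
    dg_mul_P4, dg_mul_P4, ← Matrix.mul_assoc, ← Matrix.mul_assoc] at h1
  exact h1

theorem I2.not_dvd_four (i : I2 p M) : ¬ i.1 ∣ M * 4 := by
  intro h
  have h4 : M * 4 = M * 2 * 2 := by ring
  rw [h4] at h
  rcases (Nat.Prime.dvd_mul i.2.1).1 h with h | h
  · exact i.2.2.1 h
  · exact i.ne_two ((Nat.prime_dvd_prime_iff_eq i.2.1 Nat.prime_two).1 h)

/-- the pulled-back datum is conjugate to the normalised datum of `T_ℓ` of level `4 M` -/
theorem pD4_conj (i : I2 p M) :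
    haveI : Fact i.1.Prime := ⟨i.2.1⟩
    ∃ (e : OnePoint (ZMod i.1) ≃ OnePoint (ZMod i.1)) (d : OnePoint (ZMod i.1) → ↥(Gamma0 (M * 4))),
      ∀ γ x, (nData (M := M * 4) (ℓ := i.1) i.not_dvd_four).c γ (e x) =
        (d x)⁻¹ * (pD4 hM i).c γ x * ((d ((pD4 hM i).σ γ x))⁻¹)⁻¹ := by
  haveI : Fact i.1.Prime := ⟨i.2.1⟩
  have hn : ((i.1 : ℕ) : ℤ) ≠ 0 := by exact_mod_cast i.2.1.ne_zero
  obtain ⟨e, d, -, h⟩ := exists_conj_of_fam (tFam (M := M * 4) (ℓ := i.1) i.not_dvd_four)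
    (tFam_rel (M := M * 4) (ℓ := i.1) i.not_dvd_four) hn (P4 hM i) (P4_shape hM i)
    (P4_det hM i) (D' := pD4 hM i) (P4_rel hM i) (P4_uniq hM i) rfl
  exact ⟨e, d, h⟩

section op4

variable {G' : Type} [CommGroup G'] [Subsingleton G']
variable (𝒪 : Type) [CommRing 𝒪] (A : Type) [AddCommGroup A] [Module 𝒪 A] [DistribMulAction G' A]
  [SMulCommClass G' 𝒪 A]

/-- Shapiro's map to the level `4 M` -/
def sh4 (χ : (ZMod (M * 4))ˣ →* G') :
    H1 (pi2 M) 𝒪 (FunTw (1 : G2 →* ℤˣ) G2 A) →ₗ[𝒪] H1 (levelPi χ) 𝒪 A :=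
  shH (pi2 M) (levelPi χ) (kap M) G2 1 𝒪 A (unit_smul_eq A) stab4

theorem sh4_T (χ : (ZMod (M * 4))ˣ →* G') (i : I2 p M)
    (y : H1 (pi2 M) 𝒪 (FunTw (1 : G2 →* ℤˣ) G2 A)) :
    sh4 𝒪 A χ ((sys2 p hM).T 𝒪 (FunTw (1 : G2 →* ℤˣ) G2 A) i y) =
      lvlOp χ 𝒪 A (Sum.inl (Sum.inl ⟨i.1, i.2.1, i.not_dvd_four⟩)) (sh4 𝒪 A χ y) := by
  haveI : Fact i.1.Prime := ⟨i.2.1⟩
  have hD' : CosetData.IsEquivariant (levelPi χ) (pD4 hM i) := fun _ _ => Subsingleton.elim _ _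
  have h1 := shH_heckeH (pi2 M) (levelPi χ) (kap M) G2 1 𝒪 A (unit_smul_eq A) stab4
    (sysD_equivariant hM i) hD' (pD4_c hM i) y
  obtain ⟨e, d, h⟩ := pD4_conj hM i
  have h2 := heckeH_eq_of_conj 𝒪 A hD'
    (isEquivariant_levelPi χ (nData_equivariant (M := M * 4) (ℓ := i.1) i.not_dvd_four)) e
    (fun x => (d x)⁻¹) (fun _ => Subsingleton.elim _ _) h (sh4 𝒪 A χ y)
  exact h1.trans h2.symm

include hM in
theorem sh4_surjective (χ : (ZMod (M * 4))ˣ →* G') :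
    Function.Surjective (sh4 (M := M) 𝒪 A χ) :=
  shH_surjective (pi2 M) (levelPi χ) (kap M) G2 1 𝒪 A (unit_smul_eq A) stab4
    (fun x => by
      obtain ⟨γ, hγ⟩ := pi2_surjective M hM x
      exact ⟨γ, by rw [hγ, smul_eq_mul, mul_one]⟩)
    (im4 hM) (kap_injective M)

end op4

end lvl4

end Fermat.Agent.S59lib.S3Proj
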