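/-
S59lib / S3Proj / Transfer  (helper3) — Project I, item R7a.

Transfer of (non-)vanishing of localised cohomology along a map which is semilinear for a
homomorphism of polynomial rings, and the **cohomological core of level lowering at `q = 2`, `p = 3`**:
  `Nontrivial (Mod0 3 (level 4 M)) → Nontrivial (Mod0 3 (level 2 M))`
for `M` odd such that `Γ₀(M)` has no element of order three.
-/
import Fermat.Agent.S59lib.S3Proj.Lvl
import Fermat.Agent.S59lib.S3Proj.Abs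
import Fermat.Agent.S43lib.Mod4.HeckeObj

set_option autoImplicit false
set_option linter.unusedSectionVars false
set_option linter.unusedVariables false
set_option linter.style.haveILetI false

noncomputable section

namespace Fermat.Agent.S59lib.S3Proj

open CongruenceSubgroup Matrix.SpecialLinearGroup Fermat.Agent.S43lib.B1
open Fermat.Agent.S16lib.LH Fermat.Agent.S41lib.HC Fermat.Agent.S48lib.W1
open Fermat.Agent.S31lib.PET Fermat.Agent.S43lib.Mod4.HO IsLocalRing MvPolynomial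
open scoped MatrixGroups

/-! ### Localisation and semilinear maps -/

section loc

variable {P P' : Type*} [CommRing P] [CommRing P'] (Φ : P' →+* P)
variable {V V' : Type*} [AddCommGroup V] [AddCommGroup V'] [Module P V] [Module P' V']
variable (f : V →+ V') (hf : ∀ s v, f (Φ s • v) = s • f v)
variable (𝔪 : Ideal P) [𝔪.IsPrime] (𝔪' : Ideal P') [𝔪'.IsPrime] (h𝔪 : ∀ s, s ∈ 𝔪' ↔ Φ s ∈ 𝔪)

include hf h𝔪 in
theorem subsingleton_loc_of_injective (hinj : Function.Injective f)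
    (h : Subsingleton (LocalizedModule 𝔪'.primeCompl V')) :
    Subsingleton (LocalizedModule 𝔪.primeCompl V) := by
  rw [LocalizedModule.subsingleton_iff] at h ⊢
  intro v
  obtain ⟨s, hs, hsv⟩ := h (f v)
  refine ⟨Φ s, fun hm => hs ((h𝔪 s).2 hm), hinj ?_⟩
  rw [hf, hsv, map_zero]

include hf h𝔪 in
theorem subsingleton_loc_of_surjective (hΦ : Function.Surjective Φ) (hsurj : Function.Surjective f)
    (h : Subsingleton (LocalizedModule 𝔪.primeCompl V)) :
    Subsingleton (LocalizedModule 𝔪'.primeCompl V') := by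
  rw [LocalizedModule.subsingleton_iff] at h ⊢
  intro v'
  obtain ⟨v, rfl⟩ := hsurj v'
  obtain ⟨s, hs, hsv⟩ := h v
  obtain ⟨s', rfl⟩ := hΦ s
  exact ⟨s', fun hm => hs ((h𝔪 s').1 hm), by rw [← hf, hsv, map_zero]⟩

end loc

/-! ### Homomorphisms of polynomial rings from partial maps of the variables -/

section poly

variable (R : Type*) [CommRing R] {I I' : Type*} (r : I' → Option I)

/-- `X i' ↦ X i` if `r i' = some i`, `X i' ↦ 1` if `r i' = none` -/
def polyMap : MvPolynomial I' R →ₐ[R] MvPolynomial I R :=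
  MvPolynomial.aeval (fun i' => (r i').elim 1 MvPolynomial.X)

theorem polyMap_X_some {i' : I'} {i : I} (h : r i' = some i) : polyMap R r (X i') = X i := by
  rw [polyMap, aeval_X, h]
  rfl

theorem polyMap_X_none {i' : I'} (h : r i' = none) : polyMap R r (X i') = 1 := by
  rw [polyMap, aeval_X, h]
  rfl

theorem polyMap_C (a : R) : polyMap R r (C a) = C a := by
  rw [polyMap, ← MvPolynomial.algebraMap_eq, AlgHom.commutes, MvPolynomial.algebraMap_eq]

theorem polyMap_surjective (hr : ∀ i, ∃ i', r i' = some i) : Function.Surjective (polyMap R r) := by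
  choose j hj using hr
  intro s
  refine ⟨MvPolynomial.rename j s, ?_⟩
  have h : (polyMap R r).comp (MvPolynomial.rename j) = AlgHom.id R (MvPolynomial I R) := by
    apply MvPolynomial.algHom_ext
    intro i
    rw [AlgHom.comp_apply, rename_X, polyMap_X_some R r (hj i)]
    rfl
  exact congrArg (fun F : MvPolynomial I R →ₐ[R] MvPolynomial I R => F s) h

end poly

/-! ### Semilinearity on cohomology -/

section semi

variable {Γ Γ' G G' : Type} [Group Γ] [Group Γ'] [Group G] [Group G'] {I I' : Type}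
  (S : HeckeSys Γ G I) (S' : HeckeSys Γ' G' I') (r : I' → Option I)
variable {R : Type} [CommRing R]
variable {W : Type} [AddCommGroup W] [Module R W] [DistribMulAction G W] [SMulCommClass G R W]
variable {W' : Type} [AddCommGroup W'] [Module R W'] [DistribMulAction G' W'] [SMulCommClass G' R W']

theorem coh_semilinear (f : S.Coh R W →ₗ[R] S'.Coh R W')
    (hsome : ∀ i' i, r i' = some i → ∀ y, f (S.T R W i y) = S'.T R W' i' (f y))
    (hnone : ∀ i', r i' = none → ∀ z, S'.T R W' i' z = z) (s : MvPolynomial I' R) :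
    ∀ y : S.Coh R W, f (polyMap R r s • y) = s • f y := by
  induction s using MvPolynomial.induction_on with
  | C a =>
    intro y
    rw [polyMap_C, HeckeSys.C_smul, HeckeSys.C_smul, map_smul]
  | add s s' hs hs' =>
    intro y
    rw [map_add, add_smul, add_smul, map_add, hs, hs']
  | mul_X s i' hs =>
    intro y
    rw [map_mul, mul_smul, mul_smul, hs]
    congr 1
    cases h : r i' with
    | none => rw [polyMap_X_none R r h, one_smul, HeckeSys.X_smul, hnone i' h]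
    | some i => rw [polyMap_X_some R r h, HeckeSys.X_smul, HeckeSys.X_smul, hsome i' i h]

end semi

/-! ### Split injections and surjections of coefficients -/

section split

variable {Γ G : Type} [Group Γ] [Group G] {I : Type} (S : HeckeSys Γ G I)
variable {R : Type} [CommRing R]
variable {W : Type} [AddCommGroup W] [Module R W] [DistribMulAction G W] [SMulCommClass G R W]
variable {W' : Type} [AddCommGroup W'] [Module R W'] [DistribMulAction G W'] [SMulCommClass G R W']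

theorem map_leftInverse {u : W →ₗ[R] W'} (hu : IsEquivar G u) {v : W' →ₗ[R] W}
    (hv : IsEquivar G v) (h : ∀ w, v (u w) = w) (x : S.Coh R W) :
    S.map v hv (S.map u hu x) = x := by
  rw [← S.map_comp u hu v hv x]
  have h1 : v.comp u = LinearMap.id := LinearMap.ext h
  obtain ⟨f, rfl⟩ := S.cls_surjective R W x
  rw [HeckeSys.map_cls]
  congr 1
  apply Subtype.ext
  funext γ
  exact h _

end split

/-! ### The point of the polynomial ring of `sys2` -/

section point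

variable {𝒪 : Type} [CommRing 𝒪] [IsLocalRing 𝒪] (p : ℕ) {M : ℕ} [NeZero M]

/-- the point `T_ℓ ↦ t ℓ` -/
def ev2 (t : ℕ → ResidueField 𝒪) : MvPolynomial (I2 p M) 𝒪 →+* ResidueField 𝒪 :=
  eval₂Hom (residue 𝒪) (fun i => t i.1)

theorem ev2_C (t : ℕ → ResidueField 𝒪) (a : 𝒪) : ev2 p (M := M) t (C a) = residue 𝒪 a := by
  unfold ev2
  rw [coe_eval₂Hom, eval₂_C]

theorem ev2_X (t : ℕ → ResidueField 𝒪) (i : I2 p M) : ev2 p t (X i) = t i.1 := by
  unfold ev2
  rw [coe_eval₂Hom, eval₂_X]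

theorem ev2_surjective (t : ℕ → ResidueField 𝒪) : Function.Surjective (ev2 p (M := M) t) := by
  intro x
  obtain ⟨a, rfl⟩ := residue_surjective x
  exact ⟨C a, ev2_C p t a⟩

instance ker_ev2_isMaximal (t : ℕ → ResidueField 𝒪) :
    (RingHom.ker (ev2 p (M := M) t)).IsMaximal :=
  RingHom.ker_isMaximal_of_surjective _ (ev2_surjective p t)

/-- the variables of level `2 M` -/
def r2 : Idx p (M * 2) → Option (I2 p M)
  | Sum.inl ℓ => some ℓ
  | Sum.inr _ => none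

/-- the variables of level `4 M` -/
def r4 : Idx p (M * 4) → Option (I2 p M)
  | Sum.inl ℓ => some ⟨ℓ.1, ℓ.2.1,
      fun h => ℓ.2.2.1 (h.trans (Nat.mul_dvd_mul_left M (by norm_num : 2 ∣ 4))), ℓ.2.2.2⟩
  | Sum.inr _ => none

theorem evOf_two (t : ℕ → ResidueField 𝒪) (s : MvPolynomial (Idx p (M * 2)) 𝒪) :
    evOf p (M * 2) t s = ev2 p t (polyMap 𝒪 (r2 p) s) := by
  have h : evOf p (M * 2) (𝒪 := 𝒪) t =
      (ev2 p (M := M) t).comp ((polyMap 𝒪 (r2 p (M := M))).toRingHom) := by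
    apply MvPolynomial.ringHom_ext
    · intro a
      rw [evOf_C, RingHom.comp_apply, AlgHom.toRingHom_eq_coe, RingHom.coe_coe, polyMap_C, ev2_C]
    · rintro (ℓ | n)
      · rw [evOf_X_inl, RingHom.comp_apply, AlgHom.toRingHom_eq_coe, RingHom.coe_coe,
          polyMap_X_some 𝒪 (r2 p (M := M)) (i' := Sum.inl ℓ) rfl, ev2_X]
      · rw [evOf_X_inr, RingHom.comp_apply, AlgHom.toRingHom_eq_coe, RingHom.coe_coe,
          polyMap_X_none 𝒪 (r2 p (M := M)) (i' := Sum.inr n) rfl, map_one]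
  exact congrArg (fun F : MvPolynomial (Idx p (M * 2)) 𝒪 →+* ResidueField 𝒪 => F s) h

theorem evOf_four (t : ℕ → ResidueField 𝒪) (s : MvPolynomial (Idx p (M * 4)) 𝒪) :
    evOf p (M * 4) t s = ev2 p t (polyMap 𝒪 (r4 p) s) := by
  have h : evOf p (M * 4) (𝒪 := 𝒪) t =
      (ev2 p (M := M) t).comp ((polyMap 𝒪 (r4 p (M := M))).toRingHom) := by
    apply MvPolynomial.ringHom_ext
    · intro a
      rw [evOf_C, RingHom.comp_apply, AlgHom.toRingHom_eq_coe, RingHom.coe_coe, polyMap_C, ev2_C]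
    · rintro (ℓ | n)
      · rw [evOf_X_inl, RingHom.comp_apply, AlgHom.toRingHom_eq_coe, RingHom.coe_coe,
          polyMap_X_some 𝒪 (r4 p (M := M)) (i' := Sum.inl ℓ) rfl, ev2_X]
      · rw [evOf_X_inr, RingHom.comp_apply, AlgHom.toRingHom_eq_coe, RingHom.coe_coe,
          polyMap_X_none 𝒪 (r4 p (M := M)) (i' := Sum.inr n) rfl, map_one]
  exact congrArg (fun F : MvPolynomial (Idx p (M * 4)) 𝒪 →+* ResidueField 𝒪 => F s) h

theorem polyMap_r4_surjective : Function.Surjective (polyMap 𝒪 (r4 p (M := M))) :=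
  polyMap_surjective 𝒪 _ fun i => ⟨Sum.inl ⟨i.1, i.2.1, i.not_dvd_four, i.2.2.2⟩, rfl⟩

end point

/-! ### Constant functions on a trivial group -/

section cst

variable (G' : Type) [Group G'] [Subsingleton G'] (𝒪 : Type) [CommRing 𝒪]

/-- `𝒪 → Reg G' 𝒪`, constant functions -/
def cstReg : 𝒪 →ₗ[𝒪] Reg G' 𝒪 where
  toFun a := ⟨fun _ => a⟩
  map_add' _ _ := rfl
  map_smul' _ _ := rfl

/-- evaluation at `1` -/
def evlReg : Reg G' 𝒪 →ₗ[𝒪] 𝒪 where
  toFun f := f 1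
  map_add' _ _ := rfl
  map_smul' _ _ := rfl

theorem evlReg_cstReg (a : 𝒪) : evlReg G' 𝒪 (cstReg G' 𝒪 a) = a := rfl

theorem cstReg_evlReg (f : Reg G' 𝒪) : cstReg G' 𝒪 (evlReg G' 𝒪 f) = f := by
  apply Reg.ext
  intro x
  show f 1 = f x
  rw [Subsingleton.elim x 1]

end cst

/-! ### The two transfers -/

section transfer

variable {𝒪 : Type} [CommRing 𝒪] [IsLocalRing 𝒪] (p : ℕ) {M : ℕ} [NeZero M] (hM : Odd M)
variable {G' : Type} [CommGroup G'] [Subsingleton G']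

local notation "𝟙" => (1 : G2 →* ℤˣ)

theorem cstReg_equivar (X : Type) [MulAction G2 X] :
    IsEquivar G2 (mapCoef 𝟙 X 𝒪 (cstReg G' 𝒪)) := isEquivar_mapCoef 𝟙 X 𝒪 _

theorem evlReg_equivar (X : Type) [MulAction G2 X] :
    IsEquivar G2 (mapCoef 𝟙 X 𝒪 (evlReg G' 𝒪)) := isEquivar_mapCoef 𝟙 X 𝒪 _

/-- diamond operators are trivial when the diamond group is -/
theorem lvlOp_diam_triv {N : ℕ} [NeZero N] (χ : (ZMod N)ˣ →* G') (W : Type) [AddCommGroup W]
    [Module 𝒪 W] [DistribMulAction G' W] [SMulCommClass G' 𝒪 W] (u : (ZMod N)ˣ)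
    (z : H1 (levelPi χ) 𝒪 W) : lvlOp χ 𝒪 W (Sum.inr u) z = z := by
  rw [lvlOp_diam]
  obtain ⟨f, rfl⟩ := H1.mk_surjective _ _ _ z
  rw [H1.map_mk]
  congr 1
  apply Subtype.ext
  funext γ
  show (χ u) • (f : _ → W) γ = _
  rw [Subsingleton.elim (χ u) 1, one_smul]

/-- vanishing at level `2 M` implies vanishing of `H¹(Γ₀(M), Fun(X2, 𝒪))_𝔪` -/
theorem subsingleton_X2_of_two (χ : (ZMod (M * 2))ˣ →* G') (t : ℕ → ResidueField 𝒪)
    (h : Subsingleton (Mod0 (𝒪 := 𝒪) p χ t)) :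
    Subsingleton ((sys2 p hM).F 𝒪 (FunTw 𝟙 X2 𝒪) (RingHom.ker (ev2 p (M := M) t))) := by
  set S := sys2 p hM with hS
  set S' := levelSys χ (idx₀ p (M * 2)) with hS'
  let f2 : S.Coh 𝒪 (FunTw 𝟙 X2 (Reg G' 𝒪)) →ₗ[𝒪] S'.Coh 𝒪 (Reg G' 𝒪) := sh2 𝒪 (Reg G' 𝒪) χ
  let u : S.Coh 𝒪 (FunTw 𝟙 X2 𝒪) →ₗ[MvPolynomial (I2 p M) 𝒪] S.Coh 𝒪 (FunTw 𝟙 X2 (Reg G' 𝒪)) :=
    S.map (mapCoef 𝟙 X2 𝒪 (cstReg G' 𝒪)) (cstReg_equivar X2)
  -- Shapiro's map is semilinear
  have hsemi : ∀ (s : MvPolynomial (Idx p (M * 2)) 𝒪) (y : S.Coh 𝒪 (FunTw 𝟙 X2 (Reg G' 𝒪))),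
      f2 (polyMap 𝒪 (r2 p (M := M)) s • y) = s • f2 y := by
    intro s y
    refine coh_semilinear S S' (r2 p (M := M)) f2 ?_ ?_ s y
    · rintro (ℓ | n) i hi y
      · have hi' : ℓ = i := Option.some.inj hi
        subst hi'
        exact sh2_T hM 𝒪 (Reg G' 𝒪) χ ℓ y
      · exact absurd hi (by simp [r2])
    · rintro (ℓ | n) hi z
      · exact absurd hi (by simp [r2])
      · exact lvlOp_diam_triv χ (Reg G' 𝒪) _ z
  -- the total map
  let F : S.Coh 𝒪 (FunTw 𝟙 X2 𝒪) →+ S'.Coh 𝒪 (Reg G' 𝒪) :=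
    f2.toAddMonoidHom.comp u.toAddMonoidHom
  have hF : ∀ (s : MvPolynomial (Idx p (M * 2)) 𝒪) (y : S.Coh 𝒪 (FunTw 𝟙 X2 𝒪)),
      F (polyMap 𝒪 (r2 p (M := M)) s • y) = s • F y := by
    intro s y
    show f2 (u (polyMap 𝒪 (r2 p (M := M)) s • y)) = s • f2 (u y)
    rw [map_smul]
    exact hsemi s _
  have hinj : Function.Injective F := by
    intro y y' hyy'
    have h1 : u y = u y' := sh2_injective hM 𝒪 (Reg G' 𝒪) χ hyy'
    have h2 := congrArg (S.map (mapCoef 𝟙 X2 𝒪 (evlReg G' 𝒪)) (evlReg_equivar X2)) h1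
    have h3 : ∀ w : FunTw 𝟙 X2 𝒪,
        mapCoef 𝟙 X2 𝒪 (evlReg G' 𝒪) (mapCoef 𝟙 X2 𝒪 (cstReg G' 𝒪) w) = w := by
      intro w
      apply FunTw.ext
      intro x
      rfl
    rw [map_leftInverse S (cstReg_equivar X2) (evlReg_equivar X2) h3,
      map_leftInverse S (cstReg_equivar X2) (evlReg_equivar X2) h3] at h2
    exact h2
  exact subsingleton_loc_of_injective (polyMap 𝒪 (r2 p (M := M))).toRingHom F hF
    (RingHom.ker (ev2 p (M := M) t)) (RingHom.ker (evOf p (M * 2) (𝒪 := 𝒪) t))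
    (fun s => by
      rw [RingHom.mem_ker, RingHom.mem_ker, evOf_two]
      rfl) hinj h

/-- vanishing of `H¹(Γ₀(M), Fun(G2, 𝒪))_𝔪` implies vanishing at level `4 M` -/
theorem subsingleton_four_of_G2 (χ : (ZMod (M * 4))ˣ →* G') (t : ℕ → ResidueField 𝒪)
    (h : Subsingleton ((sys2 p hM).F 𝒪 (FunTw 𝟙 G2 𝒪) (RingHom.ker (ev2 p (M := M) t)))) :
    Subsingleton (Mod0 (𝒪 := 𝒪) p χ t) := by
  set S := sys2 p hM with hS
  set S' := levelSys χ (idx₀ p (M * 4)) with hS'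
  let f4 : S.Coh 𝒪 (FunTw 𝟙 G2 (Reg G' 𝒪)) →ₗ[𝒪] S'.Coh 𝒪 (Reg G' 𝒪) := sh4 𝒪 (Reg G' 𝒪) χ
  let u : S.Coh 𝒪 (FunTw 𝟙 G2 𝒪) →ₗ[MvPolynomial (I2 p M) 𝒪] S.Coh 𝒪 (FunTw 𝟙 G2 (Reg G' 𝒪)) :=
    S.map (mapCoef 𝟙 G2 𝒪 (cstReg G' 𝒪)) (cstReg_equivar G2)
  have hsemi : ∀ (s : MvPolynomial (Idx p (M * 4)) 𝒪) (y : S.Coh 𝒪 (FunTw 𝟙 G2 (Reg G' 𝒪))),
      f4 (polyMap 𝒪 (r4 p (M := M)) s • y) = s • f4 y := by
    intro s y
    refine coh_semilinear S S' (r4 p (M := M)) f4 ?_ ?_ s y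
    · rintro (ℓ | n) i hi y
      · have hi' : (⟨ℓ.1, ℓ.2.1,
            fun h => ℓ.2.2.1 (h.trans (Nat.mul_dvd_mul_left M (by norm_num : 2 ∣ 4))),
            ℓ.2.2.2⟩ : I2 p M) = i := Option.some.inj hi
        subst hi'
        exact sh4_T hM 𝒪 (Reg G' 𝒪) χ _ y
      · exact absurd hi (by simp [r4])
    · rintro (ℓ | n) hi z
      · exact absurd hi (by simp [r4])
      · exact lvlOp_diam_triv χ (Reg G' 𝒪) _ z
  let F : S.Coh 𝒪 (FunTw 𝟙 G2 𝒪) →+ S'.Coh 𝒪 (Reg G' 𝒪) :=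
    f4.toAddMonoidHom.comp u.toAddMonoidHom
  have hF : ∀ (s : MvPolynomial (Idx p (M * 4)) 𝒪) (y : S.Coh 𝒪 (FunTw 𝟙 G2 𝒪)),
      F (polyMap 𝒪 (r4 p (M := M)) s • y) = s • F y := by
    intro s y
    show f4 (u (polyMap 𝒪 (r4 p (M := M)) s • y)) = s • f4 (u y)
    rw [map_smul]
    exact hsemi s _
  have hsurj : Function.Surjective F := by
    intro z
    have hs4 : Function.Surjective f4 := sh4_surjective hM 𝒪 (Reg G' 𝒪) χ
    obtain ⟨y', hy'⟩ := hs4 z
    have h3 : ∀ w : FunTw 𝟙 G2 (Reg G' 𝒪),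
        mapCoef 𝟙 G2 𝒪 (cstReg G' 𝒪) (mapCoef 𝟙 G2 𝒪 (evlReg G' 𝒪) w) = w := by
      intro w
      apply FunTw.ext
      intro x
      exact cstReg_evlReg G' 𝒪 (w x)
    refine ⟨S.map (mapCoef 𝟙 G2 𝒪 (evlReg G' 𝒪)) (evlReg_equivar G2) y', ?_⟩
    have h4 : u (S.map (mapCoef 𝟙 G2 𝒪 (evlReg G' 𝒪)) (evlReg_equivar G2) y') = y' :=
      map_leftInverse S (evlReg_equivar G2) (cstReg_equivar G2) h3 y'
    show f4 (u (S.map (mapCoef 𝟙 G2 𝒪 (evlReg G' 𝒪)) (evlReg_equivar G2) y')) = z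
    rw [h4]
    exact hy'
  exact subsingleton_loc_of_surjective (polyMap 𝒪 (r4 p (M := M))).toRingHom F hF
    (RingHom.ker (ev2 p (M := M) t)) (RingHom.ker (evOf p (M * 4) (𝒪 := 𝒪) t))
    (fun s => by
      rw [RingHom.mem_ker, RingHom.mem_ker, evOf_four]
      rfl) (polyMap_r4_surjective p) hsurj h

end transfer

/-! ### The core -/

section core

open Fermat.Agent.S59lib.Wa

variable {𝒪 : Type} [CommRing 𝒪] [IsLocalRing 𝒪] [IsNoetherianRing 𝒪]
  [IsAdicComplete (maximalIdeal 𝒪) 𝒪] [Invertible (2 : 𝒪)]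
variable (p : ℕ) {M : ℕ} [NeZero M] (hM : Odd M)
variable {G₂ G₄ : Type} [CommGroup G₂] [Subsingleton G₂] [CommGroup G₄] [Subsingleton G₄]

include hM in
/-- **The cohomological core of level lowering at `2` modulo `3`.** -/
theorem nontrivial_Mod0_two_of_four (hno3 : NoOrderThree (Gamma0 M)) {ϖ : 𝒪}
    (hϖ : maximalIdeal 𝒪 = Ideal.span {ϖ}) (h3 : (3 : 𝒪) ∈ maximalIdeal 𝒪)
    (χ₂ : (ZMod (M * 2))ˣ →* G₂) (χ₄ : (ZMod (M * 4))ˣ →* G₄) (t : ℕ → ResidueField 𝒪)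
    (hne : ∃ i : I2 p M, t i.1 ≠ ((i.1 + 1 : ℕ) : ResidueField 𝒪))
    (h : Nontrivial (Mod0 (𝒪 := 𝒪) p χ₄ t)) : Nontrivial (Mod0 (𝒪 := 𝒪) p χ₂ t) := by
  by_contra hn
  rw [not_nontrivial_iff_subsingleton] at hn
  have h1 := subsingleton_X2_of_two p hM χ₂ t hn
  have hne' : (sys2 p hM).NonEis (RingHom.ker (ev2 p (M := M) (𝒪 := 𝒪) t)) := by
    obtain ⟨i, hi⟩ := hne
    refine ⟨i, ?_⟩
    rw [RingHom.mem_ker, map_sub, ev2_X, ev2_C, map_natCast]
    have hcard : Fintype.card ((sys2 p hM).ι i) = i.1 + 1 := by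
      haveI : NeZero i.1 := ⟨i.2.1.ne_zero⟩
      rw [Fintype.card_eq_nat_card]
      show Nat.card (OnePoint (ZMod i.1)) = i.1 + 1
      rw [show OnePoint (ZMod i.1) = Option (ZMod i.1) from rfl, Finite.card_option,
        Nat.card_zmod]
    rw [hcard]
    exact sub_ne_zero.mpr hi
  have h2 := subsingleton_F_reg (sys2 p hM) (RingHom.ker (ev2 p (M := M) (𝒪 := 𝒪) t)) X2 eX2 e1
    (sys2_rightExact hM hno3 𝒪) hne' uu uu_ne_one permSign_uu X2_fib X2_trans hϖ h3 h1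
  have h4 := subsingleton_four_of_G2 p hM χ₄ t h2
  exact not_subsingleton _ h4

end core

end Fermat.Agent.S59lib.S3Proj
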